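import Mathlib
/-!
# Functions given by `q`-expansions

Functions on the upper half plane given by q-expansions, and congruences between such expansions.
-/

set_option autoImplicit false

noncomputable section

open UpperHalfPlane Complex
open scoped Real Manifold MatrixGroups

namespace Fermat.Agent.Eisenstein

local notation "𝕢" => Function.Periodic.qParam

/-- `F` is the sum of the expansion `P` in the parameter `exp(2πiτ/h)`. -/
def HasExp (h : ℕ) (F : ℍ → ℂ) (P : PowerSeries ℂ) : Prop :=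
  ∀ τ : ℍ, HasSum (fun n : ℕ => P.coeff n * 𝕢 (h : ℝ) (τ : ℂ) ^ n) (F τ)

namespace HasExp

variable {h : ℕ} {F G : ℍ → ℂ} {P Q : PowerSeries ℂ}

theorem add (hF : HasExp h F P) (hG : HasExp h G Q) : HasExp h (F + G) (P + Q) := fun τ => by
  simpa [add_mul] using (hF τ).add (hG τ)

theorem sub (hF : HasExp h F P) (hG : HasExp h G Q) : HasExp h (F - G) (P - Q) := fun τ => by
  simpa [sub_mul] using (hF τ).sub (hG τ)

theorem smul (c : ℂ) (hF : HasExp h F P) : HasExp h (c • F) (PowerSeries.C c * P) := fun τ => by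
  simpa [mul_assoc] using (hF τ).mul_left c

theorem const (c : ℂ) : HasExp h (fun _ => c) (PowerSeries.C c) := fun τ => by
  refine (hasSum_ite_eq 0 c).congr_fun fun n => ?_
  rw [PowerSeries.coeff_C]
  split_ifs with hn
  · simp [hn]
  · simp

theorem zero : HasExp h 0 0 := fun τ => by simp [hasSum_zero]

theorem one : HasExp h 1 1 := by
  rw [← map_one (PowerSeries.C (R := ℂ))]
  exact const 1

theorem mul (hF : HasExp h F P) (hG : HasExp h G Q) : HasExp h (F * G) (P * Q) := by
  intro τ
  set q := 𝕢 (h : ℝ) (τ : ℂ)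
  have hf := hF τ
  have hg := hG τ
  have hfn : Summable fun n : ℕ => ‖P.coeff n * q ^ n‖ := hf.summable.norm
  have hgn : Summable fun n : ℕ => ‖Q.coeff n * q ^ n‖ := hg.summable.norm
  have hsummable := summable_norm_sum_mul_antidiagonal_of_summable_norm hfn hgn
  have htsum := tsum_mul_tsum_eq_tsum_sum_antidiagonal_of_summable_norm hfn hgn
  rw [hf.tsum_eq, hg.tsum_eq] at htsum
  refine HasSum.congr_fun (htsum ▸ hsummable.of_norm.hasSum) fun n => ?_
  rw [PowerSeries.coeff_mul, Finset.sum_mul]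
  refine Finset.sum_congr rfl fun ij hij => ?_
  rw [← Finset.HasAntidiagonal.mem_antidiagonal.mp hij, pow_add]
  ring

theorem sum {ι : Type*} (s : Finset ι) {F : ι → ℍ → ℂ} {P : ι → PowerSeries ℂ}
    (hF : ∀ i ∈ s, HasExp h (F i) (P i)) : HasExp h (∑ i ∈ s, F i) (∑ i ∈ s, P i) := by
  induction s using Finset.cons_induction with
  | empty => simpa using zero
  | cons a s ha ih =>
    simp only [Finset.sum_cons]
    exact (hF a (Finset.mem_cons_self a s)).add (ih fun i hi => hF i (Finset.mem_cons_of_mem hi))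

theorem prod {ι : Type*} (s : Finset ι) {F : ι → ℍ → ℂ} {P : ι → PowerSeries ℂ}
    (hF : ∀ i ∈ s, HasExp h (F i) (P i)) : HasExp h (∏ i ∈ s, F i) (∏ i ∈ s, P i) := by
  induction s using Finset.cons_induction with
  | empty => simpa using one
  | cons a s ha ih =>
    simp only [Finset.prod_cons]
    exact (hF a (Finset.mem_cons_self a s)).mul (ih fun i hi => hF i (Finset.mem_cons_of_mem hi))

theorem periodic (hh : h ≠ 0) (hF : HasExp h F P) :
    Function.Periodic (F ∘ UpperHalfPlane.ofComplex) (h : ℝ) := by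
  intro w
  by_cases! hw : 0 < w.im
  · have hw' : 0 < (w + ((h : ℝ) : ℂ)).im := by simpa using hw
    simp only [Function.comp_apply, ofComplex_apply_of_im_pos hw', ofComplex_apply_of_im_pos hw]
    refine (hF _).unique ?_
    convert hF ⟨w, hw⟩ using 3 with n
    refine congrArg (fun x : ℂ => x ^ n) ?_
    simp only [Function.Periodic.qParam]
    rw [Complex.exp_eq_exp_iff_exists_int]
    refine ⟨1, ?_⟩
    have : ((h : ℝ) : ℂ) ≠ 0 := by simp [hh]
    field_simp
    push_cast
    ring
  · have hw' : (w + ((h : ℝ) : ℂ)).im ≤ 0 := by simpa using hw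
    simp only [Function.comp_apply, ofComplex_apply_of_im_nonpos hw',
      ofComplex_apply_of_im_nonpos hw]

theorem isBoundedAtImInfty (hh : h ≠ 0) (hF : HasExp h F P) : IsBoundedAtImInfty F :=
  isBoundedAtImInfty_of_hasSum_qExpansion (h := (h : ℝ)) (c := fun n => P.coeff n)
    (by positivity) fun τ => by
    simpa using hF τ

theorem eq_qExpansion (hh : h ≠ 0) (hF : HasExp h F P) (hd : MDiff F) :
    qExpansion (h : ℝ) F = P := by
  have hpos : (0 : ℝ) < h := by positivity
  have han := analyticAt_cuspFunction_zero hpos (hF.periodic hh) hd (hF.isBoundedAtImInfty hh)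
  have h1 := (hasFPowerSeriesOnBall_cuspFunction (c := fun n => P.coeff n) hpos han
    (fun τ => by simpa using hF τ)).hasFPowerSeriesAt
  have h2 := han.hasFPowerSeriesAt
  ext n
  have h3 := congr_arg (FormalMultilinearSeries.coeff · n) (h1.eq_formalMultilinearSeries h2)
  simp only [FormalMultilinearSeries.coeff_ofScalars] at h3
  rw [qExpansion_coeff, h3]
  simp [div_eq_inv_mul]

theorem isZeroAtImInfty (hh : h ≠ 0) (hF : HasExp h F P) (hd : MDiff F) (h0 : P.coeff 0 = 0) :
    IsZeroAtImInfty F := by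
  have hpos : (0 : ℝ) < h := by positivity
  have han := analyticAt_cuspFunction_zero hpos (hF.periodic hh) hd (hF.isBoundedAtImInfty hh)
  have h1 : cuspFunction (h : ℝ) F 0 = 0 := by
    have := congrArg (fun Q : PowerSeries ℂ => Q.coeff 0) (hF.eq_qExpansion hh hd)
    simpa [h0, qExpansion_coeff] using this
  have htend := han.continuousAt.tendsto.comp (qParam_tendsto_atImInfty hpos)
  rw [h1] at htend
  refine htend.congr fun τ => ?_
  exact eq_cuspFunction τ hpos.ne' (hF.periodic hh)

theorem unique (hh : h ≠ 0) (hF : HasExp h F P) (hd : MDiff F) (hG : HasExp h F Q) : P = Q := by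
  rw [← hF.eq_qExpansion hh hd, hG.eq_qExpansion hh hd]

/-- An expansion in `q` is an expansion in `q^(1/h)`. -/
theorem expand (hh : h ≠ 0) (hF : HasExp 1 F P) : HasExp h F (PowerSeries.expand h hh P) := by
  intro τ
  have hinj : Function.Injective (fun n : ℕ => h * n) := mul_right_injective₀ hh
  have hq : ∀ n : ℕ, 𝕢 (h : ℝ) (τ : ℂ) ^ (h * n) = 𝕢 ((1 : ℕ) : ℝ) (τ : ℂ) ^ n := by
    intro n
    rw [pow_mul]
    congr 1
    simp only [Function.Periodic.qParam, ← Complex.exp_nat_mul]
    congr 1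
    push_cast
    field_simp
  refine (hinj.hasSum_iff ?_).mp ?_
  · intro n hn
    rw [PowerSeries.coeff_expand_of_not_dvd h hh P (fun ⟨m, hm⟩ => hn ⟨m, hm.symm⟩), zero_mul]
  · refine (hF τ).congr_fun fun n => ?_
    simp only [Function.comp_apply]
    rw [PowerSeries.coeff_expand_mul, hq]

end HasExp

/-- A periodic holomorphic function bounded at infinity is the sum of its q-expansion. -/
theorem hasExp_of_form {F : Type*} [FunLike F ℍ ℂ] {Γ : Subgroup (GL (Fin 2) ℝ)} {k : ℤ}
    [ModularFormClass F Γ k] (f : F) (hΓ : (1 : ℝ) ∈ Γ.strictPeriods) :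
    HasExp 1 (⇑f) (qExpansion 1 (⇑f)) := by
  have : Fact (IsCusp OnePoint.infty Γ) := ⟨Γ.isCusp_of_mem_strictPeriods one_pos hΓ⟩
  intro τ
  simpa using ModularForm.hasSum_qExpansion f one_pos hΓ τ

section Congruence

variable (R : Subring ℂ)

/-- Power series with coefficients in a subring. -/
def coeffIn : Subring (PowerSeries ℂ) where
  carrier := {P | ∀ n, P.coeff n ∈ R}
  mul_mem' {P Q} hP hQ n := by
    rw [PowerSeries.coeff_mul]
    exact R.sum_mem fun ij _ => R.mul_mem (hP _) (hQ _)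
  one_mem' n := by
    rw [PowerSeries.coeff_one]
    split_ifs
    exacts [R.one_mem, R.zero_mem]
  add_mem' {P Q} hP hQ n := by
    rw [map_add]
    exact R.add_mem (hP n) (hQ n)
  zero_mem' n := by simp
  neg_mem' {P} hP n := by
    rw [map_neg]
    exact R.neg_mem (hP n)

variable {R}

theorem C_mem_coeffIn {c : ℂ} (hc : c ∈ R) : PowerSeries.C c ∈ coeffIn R := fun n => by
  rw [PowerSeries.coeff_C]
  split_ifs
  exacts [hc, R.zero_mem]

theorem expand_mem_coeffIn {h : ℕ} (hh : h ≠ 0) {P : PowerSeries ℂ} (hP : P ∈ coeffIn R) :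
    PowerSeries.expand h hh P ∈ coeffIn R := fun n => by
  rw [PowerSeries.coeff_expand]
  split_ifs
  exacts [hP _, R.zero_mem]

/-- Congruence modulo the natural number `M` of series with coefficients in `R`. -/
def Cong (R : Subring ℂ) (M : ℕ) (P Q : PowerSeries ℂ) : Prop :=
  ∃ D ∈ coeffIn R, P - Q = PowerSeries.C (M : ℂ) * D

namespace Cong

variable {M : ℕ} {P P' Q Q' : PowerSeries ℂ}

theorem rfl' : Cong R M P P := ⟨0, (coeffIn R).zero_mem, by simp⟩

theorem symm (h : Cong R M P Q) : Cong R M Q P := by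
  obtain ⟨D, hD, h⟩ := h
  exact ⟨-D, (coeffIn R).neg_mem hD, by rw [mul_neg, ← h]; ring⟩

theorem trans {T : PowerSeries ℂ} (h : Cong R M P Q) (h' : Cong R M Q T) : Cong R M P T := by
  obtain ⟨D, hD, h⟩ := h
  obtain ⟨D', hD', h'⟩ := h'
  exact ⟨D + D', (coeffIn R).add_mem hD hD', by rw [mul_add, ← h, ← h']; ring⟩

theorem sub (h : Cong R M P Q) (h' : Cong R M P' Q') : Cong R M (P - P') (Q - Q') := by
  obtain ⟨D, hD, h⟩ := h
  obtain ⟨D', hD', h'⟩ := h'
  exact ⟨D - D', (coeffIn R).sub_mem hD hD', by rw [mul_sub, ← h, ← h']; ring⟩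

theorem mul_left {T : PowerSeries ℂ} (hT : T ∈ coeffIn R) (h : Cong R M P Q) :
    Cong R M (T * P) (T * Q) := by
  obtain ⟨D, hD, h⟩ := h
  exact ⟨T * D, (coeffIn R).mul_mem hT hD, by rw [← mul_sub, h]; ring⟩

theorem of_C {a b : ℂ} {d : ℂ} (hd : d ∈ R) (h : a - b = M * d) :
    Cong R M (PowerSeries.C a) (PowerSeries.C b) :=
  ⟨PowerSeries.C d, C_mem_coeffIn hd, by rw [← map_sub, h, map_mul]⟩

/-- Dividing a congruence mod `M` by `M`. -/
theorem div_mem (hM : M ≠ 0) (h : Cong R M P 0) :
    PowerSeries.C ((M : ℂ)⁻¹) * P ∈ coeffIn R := by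
  obtain ⟨D, hD, h⟩ := h
  rw [sub_zero] at h
  rw [h, ← mul_assoc, ← map_mul, inv_mul_cancel₀ (Nat.cast_ne_zero.mpr hM), map_one, one_mul]
  exact hD

end Cong

end Congruence

end Fermat.Agent.Eisenstein
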