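import Fermat.Agent.Eisenstein.ThetaLattice
import Fermat.Agent.Eisenstein.Exp
/-!
# Quaternary theta series

Theta series attached to a quaternary datum: expansions and the transformations under `T` and `S`.
-/

set_option autoImplicit false

noncomputable section

open UpperHalfPlane Complex ModularForm
open scoped Real MatrixGroups ModularForm Manifold

namespace Fermat.Agent.Eisenstein

local notation "𝕢" => Function.Periodic.qParam

/-- A sum of a q-series is holomorphic. -/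
theorem HasExp.mdifferentiable {h : ℕ} {F : ℍ → ℂ} {P : PowerSeries ℂ} (hh : h ≠ 0)
    (hF : HasExp h F P) : MDiff F := by
  have hh' : (0 : ℝ) < (h : ℝ) := by positivity
  set c : FormalMultilinearSeries ℂ ℂ ℂ := FormalMultilinearSeries.ofScalars ℂ fun n => P.coeff n
  have hrad : 1 ≤ c.radius := by
    refine le_of_forall_lt_imp_le_of_dense fun r hr => ?_
    rcases eq_or_ne r 0 with rfl | hr'
    · simp
    lift r to NNReal using hr.ne_top
    refine FormalMultilinearSeries.le_radius_of_summable _ ?_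
    have hr1 : (r : ℝ) < 1 := by exact_mod_cast hr
    have hr0 : (r : ℝ) ≠ 0 := by exact_mod_cast hr'
    have him := Function.Periodic.im_invQParam_pos_of_norm_lt_one hh' (q := ((r : ℝ) : ℂ))
      (by simpa using hr1) (by simpa using hr0)
    have h1 := (hF ⟨_, him⟩).summable.norm
    refine h1.congr fun n => ?_
    simp [c, Function.Periodic.qParam_right_inv hh'.ne'
      (q := ((r : ℝ) : ℂ)) (by simpa using hr0)]
  have hball := (c.hasFPowerSeriesOnBall (lt_of_lt_of_le zero_lt_one hrad)).mono zero_lt_one hrad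
  rw [UpperHalfPlane.mdifferentiable_iff]
  intro z hz
  have hz' : 0 < z.im := hz
  have hlt : ‖𝕢 (h : ℝ) z‖ < 1 := Function.Periodic.norm_qParam_lt_one hh' hz'
  have hq : DifferentiableAt ℂ c.sum (𝕢 (h : ℝ) z) :=
    (hball.analyticAt_of_mem (by
      rw [← ENNReal.coe_one, Metric.eball_coe]; simpa using hlt)).differentiableAt
  refine ((hq.comp z (Function.Periodic.differentiable_qParam z)).congr_of_eventuallyEq
    ?_).differentiableWithinAt
  filter_upwards [isOpen_upperHalfPlaneSet.mem_nhds hz] with w hw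
  simp only [Function.comp_apply, UpperHalfPlane.ofComplex_apply_of_im_pos hw]
  rw [← (hF ⟨w, hw⟩).tsum_eq]
  refine tsum_congr fun n => ?_
  simp [c, mul_comm]

namespace QuatDatum

variable {p : ℕ} (D : QuatDatum p) [Fact p.Prime]

theorem finite_fibre (n : ℕ) : Finite {w : D.Dual // D.level w = n} := by
  set B : ℤ := 2 * ((n : ℤ) * D.q) with hB
  set S : Set Quad := (Set.Icc (-B) B ×ˢ Set.Icc (-B) B) ×ˢ (Set.Icc (-B) B ×ˢ Set.Icc (-B) B)
  have hS : S.Finite := ((Set.finite_Icc _ _).prod (Set.finite_Icc _ _)).prod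
    ((Set.finite_Icc _ _).prod (Set.finite_Icc _ _))
  have := hS.to_subtype
  have hmem : ∀ w : {w : D.Dual // D.level w = n}, w.1.1 ∈ S := by
    rintro ⟨⟨w, hw⟩, hn⟩
    have h := D.level_mul ⟨w, hw⟩
    rw [hn] at h
    have hp1 : (1 : ℤ) ≤ p := by exact_mod_cast (Fact.out : p.Prime).one_le
    have hK : (1 : ℤ) ≤ D.K := by exact_mod_cast D.one_le_K
    have hlow : ∀ a b : ℤ, a ^ 2 + b ^ 2 ≤ 2 * bD D.K a b := fun a b => by
      simp only [bD]
      nlinarith [sq_nonneg (a - b), mul_le_mul_of_nonneg_right hK (sq_nonneg a)]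
    have h01 := hlow w.1.1 w.1.2
    have h23 := hlow w.2.1 w.2.2
    have h0 : 0 ≤ bD D.K w.1.1 w.1.2 := by nlinarith [sq_nonneg w.1.1, sq_nonneg w.1.2]
    have htot : bD D.K w.1.1 w.1.2 + bD D.K w.2.1 w.2.2 ≤ (n : ℤ) * D.q := by
      rw [h, numer]
      nlinarith
    have habs : ∀ a : ℤ, a ^ 2 ≤ B → a ∈ Set.Icc (-B) B := fun a ha =>
      abs_le.mp (by
        nlinarith [sq_nonneg (|a| - 1), sq_abs a, abs_nonneg a, Int.le_self_sq |a|])
    have := sq_nonneg w.1.1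
    have := sq_nonneg w.1.2
    have := sq_nonneg w.2.1
    have := sq_nonneg w.2.2
    exact ⟨⟨habs _ (by linarith), habs _ (by linarith)⟩, habs _ (by linarith), habs _ (by linarith)⟩
  exact Finite.of_injective (fun w : {w : D.Dual // D.level w = n} => (⟨w.1.1, hmem w⟩ : ↥S))
    fun w w' h => Subtype.ext (Subtype.ext (congrArg (fun s : ↥S => (s : Quad)) h))

theorem qParam_pow_level (τ : ℍ) (w : D.Dual) :
    𝕢 (p : ℝ) (τ : ℂ) ^ D.level w =
      ex ((τ : ℂ) * ((p : ℂ) * bD D.K (w.1.1.1 : ℂ) (w.1.1.2 : ℂ) +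
        bD D.K (w.1.2.1 : ℂ) (w.1.2.2 : ℂ)) / ((p : ℂ) * ((4 * D.K - 1 : ℝ) : ℂ))) := by
  have hp : (p : ℂ) ≠ 0 := Nat.cast_ne_zero.mpr (Fact.out : p.Prime).ne_zero
  have hq : (D.q : ℂ) ≠ 0 := Nat.cast_ne_zero.mpr D.prime_q.ne_zero
  have h := congrArg (Int.cast : ℤ → ℂ) (D.level_mul w)
  simp only [numer, bD] at h
  push_cast at h
  have hq' : ((4 * D.K - 1 : ℝ) : ℂ) = (D.q : ℂ) := by
    rw [D.q_eq]; push_cast; ring
  rw [hq', ex, Function.Periodic.qParam, ← Complex.exp_nat_mul]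
  congr 1
  rw [bD, bD, ← h]
  push_cast
  field_simp

theorem summable_term (χ : ZMod p × ZMod p → ℂ) (τ : ℍ) :
    Summable fun w : D.Dual => χ (red w.1) * 𝕢 (p : ℝ) (τ : ℂ) ^ D.level w := by
  obtain ⟨C, hC⟩ : ∃ C : ℝ, ∀ u, ‖χ u‖ ≤ C :=
    ⟨∑ u, ‖χ u‖, fun u => Finset.single_le_sum (fun v _ => norm_nonneg (χ v)) (Finset.mem_univ u)⟩
  have hq : 0 < (4 * D.K - 1 : ℝ) := by
    have : (1 : ℝ) ≤ D.K := by exact_mod_cast D.one_le_K
    linarith
  have hp : (0 : ℝ) < p := by exact_mod_cast (Fact.out : p.Prime).pos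
  let τ' : ℍ := ⟨(τ : ℂ) / p, by
    rw [Complex.div_natCast_im]
    exact div_pos τ.im_pos hp⟩
  have hs := ((summable_norm_rhs D.one_le_K hq τ 0 0).mul_of_nonneg
    (summable_norm_rhs D.one_le_K hq τ' 0 0) (fun _ => norm_nonneg _)
      (fun _ => norm_nonneg _)).mul_left C
  refine Summable.of_norm_bounded (hs.comp_injective
    (i := fun w : D.Dual => w.1) Subtype.val_injective) fun w => ?_
  simp only [Function.comp_apply]
  rw [norm_mul, D.qParam_pow_level, ← norm_mul (ex _) (ex _), ← ex_add]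
  refine mul_le_mul (hC _) (le_of_eq ?_) (norm_nonneg _) ((norm_nonneg (χ 0)).trans (hC 0))
  congr 2
  have hp' : (p : ℂ) ≠ 0 := by exact_mod_cast hp.ne'
  have hq' : ((4 * D.K - 1 : ℝ) : ℂ) ≠ 0 := by exact_mod_cast hq.ne'
  simp only [Complex.ofReal_zero, mul_zero, add_zero, τ']
  field_simp

/-- `Σ_w χ(w mod p) q^{Q*(w)}`. -/
def theta (χ : ZMod p × ZMod p → ℂ) (τ : ℍ) : ℂ :=
  ∑' w : D.Dual, χ (red w.1) * 𝕢 (p : ℝ) (τ : ℂ) ^ D.level w

/-- The expansion of `theta χ`. -/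
def thetaSeries (χ : ZMod p × ZMod p → ℂ) : PowerSeries ℂ :=
  PowerSeries.mk fun n => ∑' w : {w : D.Dual // D.level w = n}, χ (red w.1.1)

theorem hasExp_theta (χ : ZMod p × ZMod p → ℂ) : HasExp p (D.theta χ) (D.thetaSeries χ) := by
  intro τ
  have h := (D.summable_term χ τ).hasSum
  rw [← (Equiv.sigmaFiberEquiv D.level).hasSum_iff] at h
  refine h.sigma fun n => ?_
  have := D.finite_fibre n
  have := Fintype.ofFinite {w : D.Dual // D.level w = n}
  have hval : (D.thetaSeries χ).coeff n * 𝕢 (p : ℝ) (τ : ℂ) ^ n =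
      ∑ w : {w : D.Dual // D.level w = n},
        χ (red w.1.1) * 𝕢 (p : ℝ) (τ : ℂ) ^ D.level w.1 := by
    rw [thetaSeries, PowerSeries.coeff_mk, tsum_fintype, Finset.sum_mul]
    exact Finset.sum_congr rfl fun w _ => by rw [w.2]
  rw [hval]
  exact hasSum_fintype fun w : {w : D.Dual // D.level w = n} =>
    χ (red w.1.1) * 𝕢 (p : ℝ) (τ : ℂ) ^ D.level w.1

theorem theta_slash_T (χ : ZMod p × ZMod p → ℂ) :
    D.theta χ ∣[(2 : ℤ)] ModularGroup.T =
      D.theta (fun u => χ u * ZMod.stdAddChar (D.qbar u)) := by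
  funext τ
  rw [SL_slash_apply, modular_T_smul]
  have hden : UpperHalfPlane.denom (ModularGroup.T : GL (Fin 2) ℝ) τ = 1 := by
    simp [UpperHalfPlane.denom, ModularGroup.coe_T]
  rw [hden, one_zpow, mul_one]
  simp only [theta]
  refine tsum_congr fun w => ?_
  have hchar : ZMod.stdAddChar (D.qbar (red w.1)) =
      Complex.exp (2 * π * Complex.I * (D.level w : ℤ) / p) := by
    rw [← ZMod.stdAddChar_coe, Int.cast_natCast, D.level_cast]
  rw [hchar, mul_assoc]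
  congr 1
  rw [UpperHalfPlane.coe_vadd, Function.Periodic.qParam, Function.Periodic.qParam,
    ← Complex.exp_nat_mul, ← Complex.exp_nat_mul, ← Complex.exp_add]
  congr 1
  push_cast
  have hp : (p : ℂ) ≠ 0 := Nat.cast_ne_zero.mpr (Fact.out : p.Prime).ne_zero
  field_simp

/-- The finite Fourier transform attached to `S`. -/
def fourier (χ : ZMod p × ZMod p → ℂ) : ZMod p × ZMod p → ℂ :=
  fun k => -(p : ℂ)⁻¹ * ∑ h, χ h * ZMod.stdAddChar (D.beta k h)

/-- `A⁻¹` of the lift, as a real vector. -/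
def liftPre (h : ZMod p × ZMod p) : (ℝ × ℝ) × (ℝ × ℝ) :=
  let m := D.lift h
  (((2 * (D.K : ℝ) * m.1.1 - m.1.2) / D.q, (2 * (m.1.2 : ℝ) - m.1.1) / D.q),
    ((2 * (D.K : ℝ) * m.2.1 - m.2.2) / (p * D.q), (2 * (m.2.2 : ℝ) - m.2.1) / (p * D.q)))

/-- The real shift `A⁻¹(lift h) + t η`. -/
def shiftVec (h : ZMod p × ZMod p) (t : ℤ) : (ℝ × ℝ) × (ℝ × ℝ) :=
  let v := D.liftPre h
  ((v.1.1 - t * D.r / D.q, v.1.2 + t * (2 * D.r) / D.q),
    (v.2.1 - t / D.q, v.2.2 + t * 2 / D.q))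

theorem qParam_fibre (τ : ℍ) (h : ZMod p × ZMod p) (t : ZMod D.q) (x : Quad) :
    𝕢 (p : ℝ) (((ModularGroup.S • τ : ℍ)) : ℂ) ^ D.level (D.fibreMap h (t, x)).1 =
      ex (-(bF D.K ((x.1.1 : ℂ) + (D.shiftVec h t.val).1.1)
          ((x.1.2 : ℂ) + (D.shiftVec h t.val).1.2) +
        (p : ℂ) * bF D.K ((x.2.1 : ℂ) + (D.shiftVec h t.val).2.1)
          ((x.2.2 : ℂ) + (D.shiftVec h t.val).2.2)) / (τ : ℂ)) := by
  have hp : (p : ℂ) ≠ 0 := Nat.cast_ne_zero.mpr (Fact.out : p.Prime).ne_zero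
  have hq : (D.q : ℂ) ≠ 0 := Nat.cast_ne_zero.mpr D.prime_q.ne_zero
  have hA : ∀ y₀ y₁ : ℂ, bD D.K (2 * y₀ + y₁) (y₀ + 2 * D.K * y₁) = (D.q : ℂ) * bF D.K y₀ y₁ := by
    intro y₀ y₁
    rw [D.q_eq]
    simp only [bD, bF]
    ring
  have hK : (D.K : ℂ) = ((D.q : ℂ) + 1) / 4 := by rw [D.q_eq]; ring
  have hqR : ((4 * D.K - 1 : ℝ) : ℂ) = (D.q : ℂ) := by rw [D.q_eq]; push_cast; ring
  set w : Quad := (D.fibreMap h (t, x)).1.1 with hw
  set v := D.shiftVec h t.val with hv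
  have e00 : (w.1.1 : ℂ) = 2 * ((x.1.1 : ℂ) + v.1.1) + ((x.1.2 : ℂ) + v.1.2) := by
    simp only [hw, hv, fibreMap, shiftVec, liftPre, gram, glue, Prod.fst_add]
    push_cast
    rw [hK]
    field_simp
    ring
  have e01 : (w.1.2 : ℂ) = ((x.1.1 : ℂ) + v.1.1) + 2 * D.K * ((x.1.2 : ℂ) + v.1.2) := by
    simp only [hw, hv, fibreMap, shiftVec, liftPre, gram, glue, Prod.fst_add, Prod.snd_add]
    push_cast
    rw [hK]
    field_simp
    ring
  have e10 : (w.2.1 : ℂ) = 2 * ((p : ℂ) * ((x.2.1 : ℂ) + v.2.1)) +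
      (p : ℂ) * ((x.2.2 : ℂ) + v.2.2) := by
    simp only [hw, hv, fibreMap, shiftVec, liftPre, gram, glue, Prod.fst_add, Prod.snd_add]
    push_cast
    rw [hK]
    field_simp
    ring
  have e11 : (w.2.2 : ℂ) = (p : ℂ) * ((x.2.1 : ℂ) + v.2.1) +
      2 * D.K * ((p : ℂ) * ((x.2.2 : ℂ) + v.2.2)) := by
    simp only [hw, hv, fibreMap, shiftVec, liftPre, gram, glue, Prod.snd_add]
    push_cast
    rw [hK]
    field_simp
    ring
  rw [D.qParam_pow_level, UpperHalfPlane.modular_S_smul]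
  simp only [← hw]
  rw [e00, e01, e10, e11, hA, hA, hqR]
  congr 1
  simp only [bF]
  have := τ.ne_zero
  field_simp

theorem pair_shift (w : Quad) (h : ZMod p × ZMod p) (t : ℤ) :
    (w.1.1 : ℂ) * (D.shiftVec h t).1.1 + (w.1.2 : ℂ) * (D.shiftVec h t).1.2 +
      ((w.2.1 : ℂ) * (D.shiftVec h t).2.1 + (w.2.2 : ℂ) * (D.shiftVec h t).2.2) =
    ((D.pairNumer w (D.lift h) : ℤ) : ℂ) / ((p : ℂ) * (D.q : ℂ)) +
      ((t : ℤ) : ℂ) * (-((D.lin w : ℤ) : ℂ)) / D.q := by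
  have hp : (p : ℂ) ≠ 0 := Nat.cast_ne_zero.mpr (Fact.out : p.Prime).ne_zero
  have hq : (D.q : ℂ) ≠ 0 := Nat.cast_ne_zero.mpr D.prime_q.ne_zero
  simp only [shiftVec, liftPre, pairNumer, pairD, lin]
  push_cast
  field_simp
  ring

theorem ex_pairNumer (w : D.Dual) (h : ZMod p × ZMod p) :
    ex (((D.pairNumer w.1 (D.lift h) : ℤ) : ℂ) / ((p : ℂ) * (D.q : ℂ))) =
      ZMod.stdAddChar (D.beta (red w.1) h) := by
  have hlift : (D.q : ℤ) ∣ D.lin (D.lift h) := by
    have := D.mem_dual_glue h 0 0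
    have e0 : D.gram 0 + D.glue 0 = 0 := by simp [gram, glue]
    rwa [add_assoc, e0, add_zero] at this
  obtain ⟨z, hz⟩ := D.dvd_pairNumer w.2 hlift
  have hzc : (z : ZMod p) = D.beta (red w.1) h := by
    rw [beta, eq_div_iff D.q_ne_zero_p]
    have := congrArg (Int.cast : ℤ → ZMod p) hz
    push_cast at this
    rw [mul_comm, ← this]
    simp [pairNumer, pairD, red, lift]
  rw [← hzc, ZMod.stdAddChar_coe, hz, ex]
  congr 1
  have hq : (D.q : ℂ) ≠ 0 := Nat.cast_ne_zero.mpr D.prime_q.ne_zero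
  push_cast
  field_simp

/-- The exponent of the dual vector `w` before summation over the glue classes. -/
def dualExp (τ : ℂ) (w : Quad) : ℂ :=
  τ * ((p : ℂ) * bD D.K (w.1.1 : ℂ) (w.1.2 : ℂ) + bD D.K (w.2.1 : ℂ) (w.2.2 : ℂ)) /
    ((p : ℂ) * ((4 * D.K - 1 : ℝ) : ℂ))

/-- The pairing of `w` with the shift. -/
def shiftPair (h : ZMod p × ZMod p) (t : ℤ) (w : Quad) : ℂ :=
  (w.1.1 : ℂ) * (D.shiftVec h t).1.1 + (w.1.2 : ℂ) * (D.shiftVec h t).1.2 +
    ((w.2.1 : ℂ) * (D.shiftVec h t).2.1 + (w.2.2 : ℂ) * (D.shiftVec h t).2.2)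

theorem tsum_coset (τ : ℍ) (h : ZMod p × ZMod p) (t : ZMod D.q) :
    ∑' x : Quad, 𝕢 (p : ℝ) (((ModularGroup.S • τ : ℍ)) : ℂ) ^ D.level (D.fibreMap h (t, x)).1 =
      -((τ : ℂ) ^ 2 / ((p : ℂ) * ((4 * D.K - 1 : ℝ) : ℂ))) *
        ∑' w : Quad, ex (D.dualExp τ w + D.shiftPair h t.val w) := by
  rw [tsum_congr fun x => D.qParam_fibre τ h t x]
  exact gaussian_four D.one_le_K (Fact.out : p.Prime).pos τ (D.shiftVec h t.val)

theorem summable_dualExp (τ : ℍ) (h : ZMod p × ZMod p) (t : ℤ) :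
    Summable fun w : Quad => ex (D.dualExp τ w + D.shiftPair h t w) := by
  have hq0 : 0 < (4 * D.K - 1 : ℝ) := by
    have : (1 : ℝ) ≤ D.K := by exact_mod_cast D.one_le_K
    linarith
  let τ' : ℍ := ⟨(τ : ℂ) / p, by
    rw [Complex.div_natCast_im]
    exact div_pos τ.im_pos (by exact_mod_cast (Fact.out : p.Prime).pos)⟩
  refine Summable.of_norm ?_
  refine ((summable_norm_rhs D.one_le_K hq0 τ (D.shiftVec h t).1.1
    (D.shiftVec h t).1.2).mul_of_nonneg (summable_norm_rhs D.one_le_K hq0 τ'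
      (D.shiftVec h t).2.1 (D.shiftVec h t).2.2) (fun _ => norm_nonneg _)
        (fun _ => norm_nonneg _)).congr fun w => ?_
  rw [← norm_mul, ← ex_add]
  simp only [dualExp, shiftPair, τ']
  congr 2
  have hq' : ((4 * D.K - 1 : ℝ) : ℂ) ≠ 0 := by exact_mod_cast hq0.ne'
  have hp : (p : ℂ) ≠ 0 := Nat.cast_ne_zero.mpr (Fact.out : p.Prime).ne_zero
  field_simp
  ring

theorem sum_coset (τ : ℂ) (h : ZMod p × ZMod p) (w : Quad) :
    ∑ t : ZMod D.q, ex (D.dualExp τ w + D.shiftPair h t.val w) =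
      ({w : Quad | (D.q : ℤ) ∣ D.lin w}).indicator (fun w => (D.q : ℂ) *
        ex (D.dualExp τ w +
          ((D.pairNumer w (D.lift h) : ℤ) : ℂ) / ((p : ℂ) * (D.q : ℂ)))) w := by
  have hterm : ∀ t : ZMod D.q, ex (D.dualExp τ w + D.shiftPair h t.val w) =
      ex (D.dualExp τ w + ((D.pairNumer w (D.lift h) : ℤ) : ℂ) / ((p : ℂ) * (D.q : ℂ))) *
        ex (((t.val : ℤ) : ℂ) * (-((D.lin w : ℤ) : ℂ)) / D.q) := by
    intro t
    rw [← ex_add, shiftPair, D.pair_shift, add_assoc]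
  rw [Finset.sum_congr rfl fun t _ => hterm t, D.sum_glue, Set.indicator_apply]
  rfl

theorem summable_fibreMap (τ : ℍ) (h : ZMod p × ZMod p) :
    Summable fun tx : ZMod D.q × Quad =>
      𝕢 (p : ℝ) (τ : ℂ) ^ D.level (D.fibreMap h tx).1 := by
  have h1 : Summable fun w : D.Dual => 𝕢 (p : ℝ) (τ : ℂ) ^ D.level w := by
    simpa using D.summable_term (fun _ => 1) τ
  have hinj : Function.Injective
      (Subtype.val ∘ D.fibreMap h : ZMod D.q × Quad → D.Dual) :=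
    Subtype.val_injective.comp (D.fibreMap_bijective h).injective
  exact h1.comp_injective hinj

theorem hasSum_fibre (τ : ℍ) (h : ZMod p × ZMod p) :
    ∑' w : {w : D.Dual // red w.1 = h},
        𝕢 (p : ℝ) (((ModularGroup.S • τ : ℍ)) : ℂ) ^ D.level w.1 =
      -((τ : ℂ) ^ 2 / (p : ℂ)) *
        ∑' w : D.Dual, ZMod.stdAddChar (D.beta (red w.1) h) * 𝕢 (p : ℝ) (τ : ℂ) ^ D.level w := by
  have hp : (p : ℂ) ≠ 0 := Nat.cast_ne_zero.mpr (Fact.out : p.Prime).ne_zero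
  have hq : (D.q : ℂ) ≠ 0 := Nat.cast_ne_zero.mpr D.prime_q.ne_zero
  have hqR : ((4 * D.K - 1 : ℝ) : ℂ) = (D.q : ℂ) := by
    rw [D.q_eq]; push_cast; ring
  rw [← (Equiv.ofBijective _ (D.fibreMap_bijective h)).tsum_eq]
  simp only [Equiv.ofBijective_apply]
  rw [(D.summable_fibreMap _ h).tsum_prod, tsum_fintype,
    Finset.sum_congr rfl fun t _ => D.tsum_coset τ h t, ← Finset.mul_sum,
    ← Summable.tsum_finsetSum fun t _ => D.summable_dualExp τ h _,
    tsum_congr (D.sum_coset (τ : ℂ) h), ← tsum_subtype, ← tsum_mul_left, ← tsum_mul_left]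
  refine tsum_congr fun w : D.Dual => ?_
  rw [ex_add, dualExp, ← D.qParam_pow_level τ w, D.ex_pairNumer w h, hqR]
  field_simp

/-- **The functional equation**: `S` acts on theta series through the finite Fourier transform. -/
theorem theta_slash_S (χ : ZMod p × ZMod p → ℂ) :
    D.theta χ ∣[(2 : ℤ)] ModularGroup.S = D.theta (D.fourier χ) := by
  funext τ
  have hp : (p : ℂ) ≠ 0 := Nat.cast_ne_zero.mpr (Fact.out : p.Prime).ne_zero
  rw [SL_slash_apply, ModularGroup.denom_S]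
  simp only [theta]
  have hsum := D.summable_term χ (ModularGroup.S • τ)
  rw [← (Equiv.sigmaFiberEquiv (fun w : D.Dual => red (p := p) w.1)).tsum_eq]
  have hsum' := hsum.comp_injective
    (Equiv.sigmaFiberEquiv (fun w : D.Dual => red (p := p) w.1)).injective
  simp only [Function.comp_def] at hsum'
  rw [Summable.tsum_sigma hsum', tsum_fintype]
  have hfib : ∀ h : ZMod p × ZMod p,
      ∑' w : {w : D.Dual // red w.1 = h},
        χ (red w.1.1) * 𝕢 (p : ℝ) (((ModularGroup.S • τ : ℍ)) : ℂ) ^ D.level w.1 =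
      -((τ : ℂ) ^ 2 / (p : ℂ)) * ∑' w : D.Dual,
        χ h * (ZMod.stdAddChar (D.beta (red w.1) h) * 𝕢 (p : ℝ) (τ : ℂ) ^ D.level w) := by
    intro h
    rw [tsum_congr fun w : {w : D.Dual // red w.1 = h} => by rw [w.2], tsum_mul_left,
      D.hasSum_fibre τ h, tsum_mul_left]
    ring
  simp only [Equiv.sigmaFiberEquiv_apply]
  rw [Finset.sum_congr rfl fun h _ => hfib h, ← Finset.mul_sum, ← Summable.tsum_finsetSum
    (fun h _ => (D.summable_term (fun u => ZMod.stdAddChar (D.beta u h)) τ).mul_left (χ h)),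
    mul_assoc, ← tsum_mul_right, ← tsum_mul_left]
  refine tsum_congr fun w => ?_
  rw [fourier, Finset.mul_sum, Finset.sum_mul, Finset.sum_mul, Finset.mul_sum]
  refine Finset.sum_congr rfl fun h _ => ?_
  rw [zpow_neg, zpow_ofNat]
  have := τ.ne_zero
  field_simp

end QuatDatum

end Fermat.Agent.Eisenstein
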