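import Fermat.Agent.Eisenstein.Poisson
/-!
# The quaternary lattice of level `p`

A quaternary lattice of level `p` and discriminant `p²`, described through its dual: pairs of pairs
`(w₀₁, w₂₃)` with a congruence mod an auxiliary prime `q ≡ 3 mod 4`, its reduction to `𝔽_p²`, and
Gauss sums of the induced anisotropic form.
-/

set_option autoImplicit false

noncomputable section

namespace Fermat.Agent.Eisenstein

/-- Auxiliary data: `q = 4K - 1` prime, `q ∣ r² + p`, and `-q` a nonsquare mod `p`. -/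
structure QuatDatum (p : ℕ) where
  q : ℕ
  K : ℕ
  r : ℕ
  prime_q : q.Prime
  four_K : 4 * K = q + 1
  q_ne : q ≠ p
  dvd_sq_add : (q : ℤ) ∣ (r : ℤ) ^ 2 + p
  nonsquare : ¬ IsSquare (-(q : ZMod p))

/-- Index set for the ambient lattice. -/
abbrev Quad := (ℤ × ℤ) × (ℤ × ℤ)

namespace QuatDatum

variable {p : ℕ} (D : QuatDatum p)

instance fact_prime : Fact D.q.Prime := ⟨D.prime_q⟩

theorem one_le_K : 1 ≤ D.K := by
  have := D.four_K
  have := D.prime_q.two_le
  omega

theorem four_K_int : 4 * (D.K : ℤ) = D.q + 1 := by exact_mod_cast D.four_K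

theorem q_eq {R : Type*} [CommRing R] : (D.q : R) = 4 * D.K - 1 := by
  have h := congrArg (Nat.cast : ℕ → R) D.four_K
  push_cast at h
  linear_combination -h

theorem two_ne_zero_q : (2 : ZMod D.q) ≠ 0 := by
  intro h
  have h2 : D.q ∣ 2 := (ZMod.natCast_eq_zero_iff 2 D.q).mp (by simpa using h)
  have := (Nat.prime_dvd_prime_iff_eq D.prime_q Nat.prime_two).mp h2
  have := D.four_K
  omega

theorem r_sq : (D.r : ZMod D.q) ^ 2 = -(p : ZMod D.q) := by
  rw [eq_neg_iff_add_eq_zero]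
  have := (ZMod.intCast_zmod_eq_zero_iff_dvd _ D.q).mpr D.dvd_sq_add
  push_cast at this
  exact this

variable [Fact p.Prime]

theorem p_ne_zero_q : (p : ZMod D.q) ≠ 0 := by
  intro h
  exact D.q_ne ((Nat.prime_dvd_prime_iff_eq D.prime_q Fact.out).mp
    ((ZMod.natCast_eq_zero_iff p D.q).mp h))

theorem r_ne_zero_q : (D.r : ZMod D.q) ≠ 0 := by
  intro h
  have := D.r_sq
  rw [h, zero_pow two_ne_zero, eq_comm, neg_eq_zero] at this
  exact D.p_ne_zero_q this

/-- `(w₂ - 2 w₃) + r (w₀ - 2 w₁)`. -/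
def lin (w : Quad) : ℤ := (w.2.1 - 2 * w.2.2) + (D.r : ℤ) * (w.1.1 - 2 * w.1.2)

/-- The dual lattice. -/
abbrev Dual : Type := {w : Quad // (D.q : ℤ) ∣ D.lin w}

/-- `p b'(w₀₁) + b'(w₂₃)`. -/
def numer (w : Quad) : ℤ := (p : ℤ) * bD D.K w.1.1 w.1.2 + bD D.K w.2.1 w.2.2

/-- The bilinear form attached to `b'`. -/
def pairD (x y : ℤ × ℤ) : ℤ :=
  2 * D.K * x.1 * y.1 - x.1 * y.2 - x.2 * y.1 + 2 * x.2 * y.2

/-- `p P(w₀₁, w'₀₁) + P(w₂₃, w'₂₃)`. -/
def pairNumer (w w' : Quad) : ℤ := (p : ℤ) * D.pairD w.1 w'.1 + D.pairD w.2 w'.2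

omit [Fact (Nat.Prime p)] in
theorem lin_zero_q {w : Quad} (hw : (D.q : ℤ) ∣ D.lin w) :
    ((w.2.1 : ZMod D.q) - 2 * w.2.2) = -((D.r : ZMod D.q) * ((w.1.1 : ZMod D.q) - 2 * w.1.2)) := by
  rw [eq_neg_iff_add_eq_zero]
  have := (ZMod.intCast_zmod_eq_zero_iff_dvd _ D.q).mpr hw
  simp only [lin] at this
  push_cast at this
  exact this

omit [Fact (Nat.Prime p)] in
theorem dvd_numer {w : Quad} (hw : (D.q : ℤ) ∣ D.lin w) : (D.q : ℤ) ∣ D.numer w := by
  rw [← ZMod.intCast_zmod_eq_zero_iff_dvd]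
  have h := D.lin_zero_q hw
  have hK : 4 * (D.K : ZMod D.q) = 1 := by
    have := congrArg (Int.cast : ℤ → ZMod D.q) D.four_K_int
    push_cast at this
    rw [this, ZMod.natCast_self, zero_add]
  have h4 : (4 : ZMod D.q) ≠ 0 := by
    rw [show (4 : ZMod D.q) = 2 * 2 by norm_num]
    exact mul_ne_zero D.two_ne_zero_q D.two_ne_zero_q
  refine (mul_eq_zero.mp ?_).resolve_left h4
  simp only [numer, bD]
  push_cast
  linear_combination ((p : ZMod D.q) * (w.1.1 : ZMod D.q) ^ 2 + (w.2.1 : ZMod D.q) ^ 2) * hK +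
    ((w.2.1 : ZMod D.q) - 2 * w.2.2 -
      (D.r : ZMod D.q) * ((w.1.1 : ZMod D.q) - 2 * w.1.2)) * h +
    ((w.1.1 : ZMod D.q) - 2 * w.1.2) ^ 2 * D.r_sq

omit [Fact (Nat.Prime p)] in
theorem dvd_pairNumer {w w' : Quad} (hw : (D.q : ℤ) ∣ D.lin w) (hw' : (D.q : ℤ) ∣ D.lin w') :
    (D.q : ℤ) ∣ D.pairNumer w w' := by
  rw [← ZMod.intCast_zmod_eq_zero_iff_dvd]
  have h := D.lin_zero_q hw
  have h' := D.lin_zero_q hw'
  have hK : 4 * (D.K : ZMod D.q) = 1 := by
    have := congrArg (Int.cast : ℤ → ZMod D.q) D.four_K_int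
    push_cast at this
    rw [this, ZMod.natCast_self, zero_add]
  refine (mul_eq_zero.mp ?_).resolve_left D.two_ne_zero_q
  simp only [pairNumer, pairD]
  push_cast
  linear_combination ((p : ZMod D.q) * (w.1.1 : ZMod D.q) * (w'.1.1 : ZMod D.q) +
      (w.2.1 : ZMod D.q) * (w'.2.1 : ZMod D.q)) * hK +
    ((w'.2.1 : ZMod D.q) - 2 * w'.2.2) * h -
    ((D.r : ZMod D.q) * ((w.1.1 : ZMod D.q) - 2 * w.1.2)) * h' +
    ((w.1.1 : ZMod D.q) - 2 * w.1.2) * ((w'.1.1 : ZMod D.q) - 2 * w'.1.2) * D.r_sq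

omit [Fact (Nat.Prime p)] in
theorem numer_nonneg (w : Quad) : 0 ≤ D.numer w := by
  have h1 := bD_lower D.one_le_K (w.1.1 : ℝ) (w.1.2 : ℝ)
  have h2 := bD_lower D.one_le_K (w.2.1 : ℝ) (w.2.2 : ℝ)
  have h3 : (0 : ℝ) ≤ (p : ℝ) * bD D.K (w.1.1 : ℝ) (w.1.2 : ℝ) +
      bD D.K (w.2.1 : ℝ) (w.2.2 : ℝ) := by
    have : (0 : ℝ) ≤ p := Nat.cast_nonneg p
    have := sq_nonneg (w.1.1 : ℝ)
    have := sq_nonneg (w.1.2 : ℝ)
    have := sq_nonneg (w.2.1 : ℝ)
    have := sq_nonneg (w.2.2 : ℝ)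
    have : (0 : ℝ) ≤ bD D.K (w.1.1 : ℝ) (w.1.2 : ℝ) := by linarith
    have : (0 : ℝ) ≤ bD D.K (w.2.1 : ℝ) (w.2.2 : ℝ) := by linarith
    positivity
  have h4 : ((D.numer w : ℤ) : ℝ) =
      (p : ℝ) * bD D.K (w.1.1 : ℝ) (w.1.2 : ℝ) + bD D.K (w.2.1 : ℝ) (w.2.2 : ℝ) := by
    simp [numer, bD]
  exact_mod_cast h4 ▸ h3

/-- The value `p Q*(w)`. -/
def level (w : D.Dual) : ℕ := (D.numer w.1 / D.q).toNat

omit [Fact (Nat.Prime p)] in
theorem level_mul (w : D.Dual) : (D.level w : ℤ) * D.q = D.numer w.1 := by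
  rw [level, Int.toNat_of_nonneg (Int.ediv_nonneg (D.numer_nonneg _) (Int.natCast_nonneg _)),
    Int.ediv_mul_cancel (D.dvd_numer w.2)]

/-- Reduction of a dual vector to `𝔽_p²`. -/
def red (w : Quad) : ZMod p × ZMod p := ((w.2.1 : ZMod p), (w.2.2 : ZMod p))

/-- The induced quadratic form on `𝔽_p²`. -/
def qbar (u : ZMod p × ZMod p) : ZMod p := bD D.K u.1 u.2 / (D.q : ZMod p)

/-- The induced bilinear form on `𝔽_p²`. -/
def beta (u v : ZMod p × ZMod p) : ZMod p :=
  (2 * (D.K : ZMod p) * u.1 * v.1 - u.1 * v.2 - u.2 * v.1 + 2 * u.2 * v.2) / (D.q : ZMod p)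

theorem q_ne_zero_p : (D.q : ZMod p) ≠ 0 := by
  intro h
  exact D.q_ne ((Nat.prime_dvd_prime_iff_eq Fact.out D.prime_q).mp
    ((ZMod.natCast_eq_zero_iff D.q p).mp h)).symm

theorem level_cast (w : D.Dual) : (D.level w : ZMod p) = D.qbar (red w.1) := by
  rw [qbar, eq_div_iff D.q_ne_zero_p]
  have := congrArg (Int.cast : ℤ → ZMod p) (D.level_mul w)
  push_cast at this
  rw [this]
  simp [numer, bD, red]

/-- The vector `(0, r, 0, p)`. -/
def glue (t : ℤ) : Quad := ((0, t * D.r), (0, t * p))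

/-- The image of `ℤ⁴` under the Gram matrix. -/
def gram (x : Quad) : Quad :=
  ((2 * x.1.1 + x.1.2, x.1.1 + 2 * D.K * x.1.2),
    ((p : ℤ) * (2 * x.2.1 + x.2.2), (p : ℤ) * (x.2.1 + 2 * D.K * x.2.2)))

/-- A chosen lift of a class. -/
def lift (h : ZMod p × ZMod p) : Quad :=
  let X : ZMod D.q := -((h.1.val : ZMod D.q) - 2 * (h.2.val : ZMod D.q)) / (D.r : ZMod D.q)
  (((X.val : ℤ), (0 : ℤ)), ((h.1.val : ℤ), (h.2.val : ℤ)))

omit [Fact (Nat.Prime p)] in
theorem lin_gram (x : Quad) :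
    D.lin (D.gram x) = -(D.q : ℤ) * ((p : ℤ) * x.2.2 + (D.r : ℤ) * x.1.2) := by
  simp only [lin, gram]
  linear_combination (-((p : ℤ) * x.2.2) - (D.r : ℤ) * x.1.2) * D.four_K_int

theorem mem_dual_glue (h : ZMod p × ZMod p) (t : ℤ) (x : Quad) :
    (D.q : ℤ) ∣ D.lin (D.lift h + D.gram x + D.glue t) := by
  rw [← ZMod.intCast_zmod_eq_zero_iff_dvd]
  have e : D.lin (D.lift h + D.gram x + D.glue t) =
      D.lin (D.lift h) + D.lin (D.gram x) - 2 * t * ((D.r : ℤ) ^ 2 + p) := by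
    simp only [lin, glue, Prod.fst_add, Prod.snd_add]
    ring
  rw [e, D.lin_gram]
  push_cast
  rw [D.r_sq, ZMod.natCast_self]
  simp only [lin, lift]
  push_cast
  rw [ZMod.natCast_zmod_val, sub_zero, mul_div_cancel₀ _ D.r_ne_zero_q]
  ring

theorem red_glue (h : ZMod p × ZMod p) (t : ℤ) (x : Quad) :
    red (D.lift h + D.gram x + D.glue t) = h := by
  simp [red, lift, gram, glue]

/-- The parametrisation of a fibre of `red`. -/
def fibreMap (h : ZMod p × ZMod p) (tx : ZMod D.q × Quad) :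
    {w : D.Dual // red w.1 = h} :=
  ⟨⟨D.lift h + D.gram tx.2 + D.glue (tx.1.val : ℤ), D.mem_dual_glue h _ _⟩, D.red_glue h _ _⟩

theorem gram_injective : Function.Injective D.gram := by
  intro x y hxy
  have hp : (p : ℤ) ≠ 0 := by exact_mod_cast (Fact.out : p.Prime).ne_zero
  have hq : (D.q : ℤ) ≠ 0 := by exact_mod_cast D.prime_q.ne_zero
  simp only [gram, Prod.mk.injEq] at hxy
  obtain ⟨⟨h1, h2⟩, h3, h4⟩ := hxy
  have h3' := mul_left_cancel₀ hp h3
  have h4' := mul_left_cancel₀ hp h4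
  have e1 : (D.q : ℤ) * (x.1.2 - y.1.2) = 0 := by
    linear_combination 2 * h2 - h1 - (x.1.2 - y.1.2) * D.four_K_int
  have e2 : (D.q : ℤ) * (x.2.2 - y.2.2) = 0 := by
    linear_combination 2 * h4' - h3' - (x.2.2 - y.2.2) * D.four_K_int
  have b1 := (mul_eq_zero.mp e1).resolve_left hq
  have b2 := (mul_eq_zero.mp e2).resolve_left hq
  refine Prod.ext (Prod.ext ?_ ?_) (Prod.ext ?_ ?_) <;> linarith

theorem fibreMap_bijective (h : ZMod p × ZMod p) : Function.Bijective (D.fibreMap h) := by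
  constructor
  · rintro ⟨t, x⟩ ⟨t', x'⟩ he
    have hw : D.gram x + D.glue (t.val : ℤ) = D.gram x' + D.glue (t'.val : ℤ) := by
      have h1 := congrArg (fun w : {w : D.Dual // red w.1 = h} => w.1.1) he
      simp only [fibreMap, add_assoc] at h1
      exact add_left_cancel h1
    have ht : t = t' := by
      have e0 := congrArg (fun w : Quad => (w.1.1 : ℤ) - 2 * w.1.2) hw
      simp only [gram, glue, Prod.fst_add, Prod.snd_add] at e0
      have e1 := congrArg (Int.cast : ℤ → ZMod D.q) e0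
      push_cast at e1
      have hK : 4 * (D.K : ZMod D.q) = 1 := by
        have := congrArg (Int.cast : ℤ → ZMod D.q) D.four_K_int
        push_cast at this
        rw [this, ZMod.natCast_self, zero_add]
      rw [ZMod.natCast_zmod_val, ZMod.natCast_zmod_val] at e1
      have e2 : (2 * (D.r : ZMod D.q)) * (t - t') = 0 := by
        linear_combination -e1 + (-(x.1.2 : ZMod D.q) + x'.1.2) * hK
      exact sub_eq_zero.mp ((mul_eq_zero.mp e2).resolve_left
        (mul_ne_zero D.two_ne_zero_q D.r_ne_zero_q))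
    subst ht
    exact Prod.ext rfl (D.gram_injective (add_right_cancel hw))
  · rintro ⟨⟨w, hw⟩, hwh⟩
    set d := w - D.lift h with hd
    have hlift : (D.q : ℤ) ∣ D.lin (D.lift h) := by
      have := D.mem_dual_glue h 0 0
      have e0 : D.gram 0 + D.glue 0 = 0 := by simp [gram, glue]
      rwa [add_assoc, e0, add_zero] at this
    have hdlin : (D.q : ℤ) ∣ D.lin d := by
      have e : D.lin d = D.lin w - D.lin (D.lift h) := by
        simp only [hd, lin, Prod.fst_sub, Prod.snd_sub]; ring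
      rw [e]
      exact dvd_sub hw hlift
    simp only [red, Prod.ext_iff] at hwh
    obtain ⟨a, ha⟩ : (p : ℤ) ∣ d.2.1 := by
      rw [← ZMod.intCast_zmod_eq_zero_iff_dvd, hd]
      simp [lift, hwh.1]
    obtain ⟨b, hb⟩ : (p : ℤ) ∣ d.2.2 := by
      rw [← ZMod.intCast_zmod_eq_zero_iff_dvd, hd]
      simp [lift, hwh.2]
    set t : ZMod D.q := -((d.1.1 : ZMod D.q) - 2 * d.1.2) / (2 * (D.r : ZMod D.q)) with ht
    have ht' : 2 * (D.r : ZMod D.q) * t = -((d.1.1 : ZMod D.q) - 2 * d.1.2) := by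
      rw [ht, mul_div_cancel₀ _ (mul_ne_zero D.two_ne_zero_q D.r_ne_zero_q)]
    obtain ⟨e, he⟩ : (D.q : ℤ) ∣ d.1.1 - 2 * (d.1.2 - (t.val : ℤ) * D.r) := by
      rw [← ZMod.intCast_zmod_eq_zero_iff_dvd]
      push_cast
      rw [ZMod.natCast_zmod_val]
      linear_combination ht'
    obtain ⟨f, hf⟩ : (D.q : ℤ) ∣ a - 2 * (b - (t.val : ℤ)) := by
      rw [← ZMod.intCast_zmod_eq_zero_iff_dvd]
      push_cast
      rw [ZMod.natCast_zmod_val]
      have h1 := D.lin_zero_q hdlin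
      rw [ha, hb] at h1
      push_cast at h1
      refine (mul_eq_zero.mp ?_).resolve_left D.p_ne_zero_q
      linear_combination h1 - (D.r : ZMod D.q) * ht' + 2 * t * D.r_sq
    refine ⟨(t, ((d.1.2 - (t.val : ℤ) * D.r + 2 * D.K * e, -e),
      (b - (t.val : ℤ) + 2 * D.K * f, -f))), Subtype.ext (Subtype.ext ?_)⟩
    have hsum : D.lift h + d = w := by rw [hd]; abel
    change D.lift h + D.gram _ + D.glue _ = w
    conv_rhs => rw [← hsum]
    rw [add_assoc]
    congr 1
    simp only [gram, glue]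
    refine Prod.ext (Prod.ext ?_ ?_) (Prod.ext ?_ ?_) <;> simp only [Prod.fst_add, Prod.snd_add]
    · linear_combination (e : ℤ) * D.four_K_int - he
    · ring
    · rw [ha]
      linear_combination ((p : ℤ) * f) * D.four_K_int - (p : ℤ) * hf
    · rw [hb]; ring

omit [Fact (Nat.Prime p)] in
/-- The character sum over a class of `w ⋅ η`. -/
theorem sum_glue (w : Quad) (f : ℂ) :
    ∑ t : ZMod D.q, f * ex (((t.val : ℤ) : ℂ) * (-((D.lin w : ℤ) : ℂ)) / D.q) =
      if (D.q : ℤ) ∣ D.lin w then (D.q : ℂ) * f else 0 := by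
  have hterm : ∀ t : ZMod D.q, ex (((t.val : ℤ) : ℂ) * (-((D.lin w : ℤ) : ℂ)) / D.q) =
      ZMod.stdAddChar (t * (-(D.lin w : ZMod D.q))) := by
    intro t
    have e : (t * (-(D.lin w : ZMod D.q))) = (((t.val : ℤ) * (-(D.lin w)) : ℤ) : ZMod D.q) := by
      push_cast
      rw [ZMod.natCast_zmod_val]
    rw [e, ZMod.stdAddChar_coe, ex]
    congr 1
    push_cast
    ring
  simp only [hterm, ← Finset.mul_sum, AddChar.sum_mulShift _ (ZMod.isPrimitive_stdAddChar D.q),
    neg_eq_zero, ZMod.intCast_zmod_eq_zero_iff_dvd]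
  split_ifs
  · rw [ZMod.card, mul_comm]
  · simp

theorem quadratic_gauss_sum (hp : p ≠ 2) (a : ZMod p) (ha : a ≠ 0) :
    ∑ x : ZMod p, ZMod.stdAddChar (a * x ^ 2) =
      (quadraticChar (ZMod p) a : ℂ) *
        gaussSum ((quadraticChar (ZMod p)).ringHomComp (Int.castRingHom ℂ)) ZMod.stdAddChar := by
  classical
  have hchar : ringChar (ZMod p) ≠ 2 := by rwa [ZMod.ringChar_zmod_n]
  have h0 : ∑ y : ZMod p, ZMod.stdAddChar (a * y) = (0 : ℂ) := by
    have := AddChar.sum_mulShift a (ZMod.isPrimitive_stdAddChar p)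
    simpa [mul_comm, ha] using this
  calc ∑ x : ZMod p, ZMod.stdAddChar (a * x ^ 2)
      = ∑ y : ZMod p, ((quadraticChar (ZMod p) y : ℂ) + 1) * ZMod.stdAddChar (a * y) := by
        rw [← Finset.sum_fiberwise Finset.univ (fun x : ZMod p => x ^ 2)]
        refine Finset.sum_congr rfl fun y _ => ?_
        rw [Finset.sum_congr rfl (fun x hx => by rw [(Finset.mem_filter.mp hx).2]),
          Finset.sum_const, nsmul_eq_mul]
        congr 1
        have h := quadraticChar_card_sqrts hchar y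
        have hset : ({x : ZMod p | x ^ 2 = y}.toFinset) =
            Finset.univ.filter fun x : ZMod p => x ^ 2 = y := by ext; simp
        rw [hset] at h
        have h' := congrArg (Int.cast : ℤ → ℂ) h
        push_cast at h'
        exact h'
    _ = ∑ y : ZMod p, (quadraticChar (ZMod p) y : ℂ) * ZMod.stdAddChar (a * y) := by
        simp only [add_mul, one_mul, Finset.sum_add_distrib, h0, add_zero]
    _ = _ := by
        rw [gaussSum, Finset.mul_sum]
        refine Fintype.sum_bijective (fun y => a * y) (mulLeft_bijective₀ a ha) _ _ fun y => ?_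
        simp only [MulChar.ringHomComp_apply, eq_intCast, map_mul]
        have h2 : (quadraticChar (ZMod p) a : ℂ) * (quadraticChar (ZMod p) a : ℂ) = 1 := by
          have := quadraticChar_sq_one (F := ZMod p) ha
          rw [pow_two] at this
          exact_mod_cast congrArg (Int.cast : ℤ → ℂ) this
        linear_combination
          (-(quadraticChar (ZMod p) y : ℂ) * ZMod.stdAddChar (a * y)) * h2

/-- The Gauss sum of the anisotropic form is `-p`. -/
theorem gauss_sum_qbar (hp : p ≠ 2) (j : ZMod p) (hj : j ≠ 0) :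
    ∑ u : ZMod p × ZMod p, ZMod.stdAddChar (j * D.qbar u) = -(p : ℂ) := by
  classical
  have hchar : ringChar (ZMod p) ≠ 2 := by rwa [ZMod.ringChar_zmod_n]
  have h2 : (2 : ZMod p) ≠ 0 := Ring.two_ne_zero hchar
  have h4 : (4 : ZMod p) ≠ 0 := by
    rw [show (4 : ZMod p) = 2 * 2 by norm_num]; exact mul_ne_zero h2 h2
  have hq := D.q_ne_zero_p
  have hK : 4 * (D.K : ZMod p) = (D.q : ZMod p) + 1 := by exact_mod_cast congrArg _ D.four_K
  set A := j / (4 * (D.q : ZMod p)) with hA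
  set B := j / 4 with hB
  have key : ∀ u : ZMod p × ZMod p,
      j * D.qbar u = A * (u.1 - 2 * u.2) ^ 2 + B * u.1 ^ 2 := by
    intro u
    rw [hA, hB, qbar, bD]
    field_simp
    linear_combination u.1 ^ 2 * hK
  have hbij : Function.Bijective
      (fun u : ZMod p × ZMod p => (u.1 - 2 * u.2, u.1)) := by
    refine Finite.injective_iff_bijective.mp fun u v h => ?_
    simp only [Prod.mk.injEq] at h
    exact Prod.ext h.2 (mul_left_cancel₀ h2 (by linear_combination -h.1 + h.2))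
  rw [Fintype.sum_congr _ _ fun u => congrArg ZMod.stdAddChar (key u),
    Fintype.sum_bijective _ hbij _
      (fun v : ZMod p × ZMod p => ZMod.stdAddChar (A * v.1 ^ 2 + B * v.2 ^ 2)) fun u => rfl,
    Fintype.sum_prod_type]
  simp only [AddChar.map_add_eq_mul, ← Finset.mul_sum, ← Finset.sum_mul]
  have hA0 : A ≠ 0 := div_ne_zero hj (mul_ne_zero h4 hq)
  have hB0 : B ≠ 0 := div_ne_zero hj h4
  rw [quadratic_gauss_sum hp A hA0, quadratic_gauss_sum hp B hB0]
  set χ := (quadraticChar (ZMod p)).ringHomComp (Int.castRingHom ℂ) with hχ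
  have hg : gaussSum χ ZMod.stdAddChar ^ 2 = χ (-1) * (p : ℂ) := by
    rw [gaussSum_sq ?_ ((quadraticChar_isQuadratic (ZMod p)).comp _)
      (ZMod.isPrimitive_stdAddChar p), ZMod.card]
    exact (MulChar.ringHomComp_ne_one_iff Int.cast_injective).mpr (quadraticChar_ne_one hchar)
  have hprod : quadraticChar (ZMod p) (A * B * -1) = -1 := by
    rw [quadraticChar_neg_one_iff_not_isSquare]
    rintro ⟨s, hs⟩
    refine D.nonsquare ⟨4 * (D.q : ZMod p) * s / j, ?_⟩
    rw [hA, hB] at hs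
    field_simp at hs ⊢
    linear_combination hs
  rw [map_mul, map_mul] at hprod
  have hprod' : (quadraticChar (ZMod p) A : ℂ) * (quadraticChar (ZMod p) B : ℂ) *
      (quadraticChar (ZMod p) (-1) : ℂ) = -1 := by exact_mod_cast congrArg (Int.cast : ℤ → ℂ) hprod
  have hχ1 : χ (-1) = (quadraticChar (ZMod p) (-1) : ℂ) := by simp [hχ]
  rw [hχ1] at hg
  linear_combination
    (quadraticChar (ZMod p) A : ℂ) * (quadraticChar (ZMod p) B : ℂ) * hg + (p : ℂ) * hprod'

end QuatDatum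

/-- An auxiliary prime exists for every odd `p`. -/
theorem exists_quatDatum (p : ℕ) [Fact p.Prime] (hp : p ≠ 2) : Nonempty (QuatDatum p) := by
  have hprime : p.Prime := Fact.out
  have hodd : p % 2 = 1 := hprime.eq_two_or_odd.resolve_left hp
  have hchar : ringChar (ZMod p) ≠ 2 := by rwa [ZMod.ringChar_zmod_n]
  obtain ⟨a, ha⟩ := FiniteField.exists_nonsquare hchar
  have ha0 : a ≠ 0 := fun h => ha (h ▸ IsSquare.zero)
  have hcop : Nat.Coprime 4 p := by
    have := (hprime.coprime_iff_not_dvd.mpr (fun h => hp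
      ((Nat.prime_dvd_prime_iff_eq hprime Nat.prime_two).mp h))).symm
    exact Nat.Coprime.mul_left this this
  obtain ⟨m, hm4, hmp⟩ := Nat.chineseRemainder hcop 3 (-a).val
  have hmc : Nat.Coprime m (4 * p) := by
    refine Nat.Coprime.mul_right ?_ ?_
    · rw [Nat.coprime_iff_gcd_eq_one, Nat.ModEq.gcd_eq hm4]
      rfl
    · refine (hprime.coprime_iff_not_dvd.mpr fun h => ?_).symm
      have h' := (ZMod.natCast_eq_natCast_iff m (-a).val p).mpr hmp
      rw [ZMod.natCast_zmod_val, (ZMod.natCast_eq_zero_iff m p).mpr h, eq_comm, neg_eq_zero] at h'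
      exact ha0 h'
  obtain ⟨q, hqgt, hqp, hqmod⟩ := Nat.forall_exists_prime_gt_and_modEq p
    (q := 4 * p) (a := m) (by have := hprime.pos; omega) hmc
  have hq4 : q % 4 = 3 := (Nat.ModEq.of_mul_right p hqmod).trans hm4
  have hqa : (q : ZMod p) = -a := by
    have h' := (ZMod.natCast_eq_natCast_iff q (-a).val p).mpr
      ((Nat.ModEq.of_mul_left 4 hqmod).trans hmp)
    rwa [ZMod.natCast_zmod_val] at h'
  have hns : ¬ IsSquare (-(q : ZMod p)) := by rwa [hqa, neg_neg]
  have : Fact q.Prime := ⟨hqp⟩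
  have hne : p ≠ q := hqgt.ne
  have hsq : IsSquare (-(p : ZMod q)) := by
    have hm1q : ¬ IsSquare (-1 : ZMod q) := fun h => by
      have := ZMod.exists_sq_eq_neg_one_iff.mp h
      omega
    have hcharq : ringChar (ZMod q) ≠ 2 := by rw [ZMod.ringChar_zmod_n]; omega
    have hpq0 : (p : ZMod q) ≠ 0 := fun h =>
      hne ((Nat.prime_dvd_prime_iff_eq hqp hprime).mp ((ZMod.natCast_eq_zero_iff p q).mp h)).symm
    have hpns : ¬ IsSquare (p : ZMod q) := by
      rcases (show p % 4 = 1 ∨ p % 4 = 3 by omega) with h1 | h3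
      · have hm1 : IsSquare (-1 : ZMod p) := ZMod.exists_sq_eq_neg_one_iff.mpr (by omega)
        intro hsq
        rw [← ZMod.exists_sq_eq_prime_iff_of_mod_four_eq_one h1 (by omega)] at hsq
        exact hns (by simpa using hm1.mul hsq)
      · rw [← ZMod.exists_sq_eq_prime_iff_of_mod_four_eq_three h3 hq4 hne]
        have hm1p : ¬ IsSquare (-1 : ZMod p) := fun h => by
          have := ZMod.exists_sq_eq_neg_one_iff.mp h
          omega
        have hq0 : (q : ZMod p) ≠ 0 := by rw [hqa]; exact neg_ne_zero.mpr ha0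
        by_contra hq
        have e1 := (quadraticChar_neg_one_iff_not_isSquare (F := ZMod p)).mpr hm1p
        have e2 := (quadraticChar_neg_one_iff_not_isSquare (F := ZMod p)).mpr hq
        refine hns ((quadraticChar_one_iff_isSquare (neg_ne_zero.mpr hq0)).mp ?_)
        rw [show -(q : ZMod p) = -1 * q by ring, map_mul, e1, e2]
        norm_num
    rw [show -(p : ZMod q) = -1 * p by ring,
      ← quadraticChar_one_iff_isSquare (mul_ne_zero (neg_ne_zero.mpr one_ne_zero) hpq0), map_mul,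
      quadraticChar_neg_one_iff_not_isSquare.mpr hm1q,
      quadraticChar_neg_one_iff_not_isSquare.mpr hpns]
    norm_num
  obtain ⟨r, hr⟩ := hsq
  refine ⟨⟨q, (q + 1) / 4, r.val, hqp, by omega, hne.symm, ?_, hns⟩⟩
  rw [← ZMod.intCast_zmod_eq_zero_iff_dvd]
  push_cast
  rw [ZMod.natCast_zmod_val]
  linear_combination -hr

end Fermat.Agent.Eisenstein
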