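import Mathlib
import Fermat.Prelude.Def_ModularForm_HeckeOperatorForms
/-!
# Conjugates of forms on `Γ₀(p)`

The `p + 1` conjugates of a modular form on `Γ₀(p)`, trace to level one, and the relation between
the expansion at the cusp `0` and `U_p` in weight 2.
-/

set_option autoImplicit false

noncomputable section

open UpperHalfPlane ModularForm Complex CongruenceSubgroup
open scoped MatrixGroups ModularForm Manifold

namespace Fermat.Agent.Eisenstein

open ModularGroup (S T)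

variable {p : ℕ} [Fact p.Prime]

/-- Coset representatives of `Γ₀(p) \ SL₂(ℤ)`. -/
def cosetRep : Option (ZMod p) → SL(2, ℤ)
  | none => 1
  | some j => S * (T ^ (j.val : ℤ) : SL(2, ℤ))

/-- The class of a matrix in `P¹(𝔽_p)`. -/
def cosetClass (γ : SL(2, ℤ)) : Option (ZMod p) :=
  if (γ 1 0 : ZMod p) = 0 then none else some ((γ 1 1 : ZMod p) / (γ 1 0 : ZMod p))

theorem S_mul_T_zpow_apply (j : ℤ) :
    ((S * T ^ j : SL(2, ℤ)) : Matrix (Fin 2) (Fin 2) ℤ) = !![0, -1; 1, j] := by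
  rw [Matrix.SpecialLinearGroup.coe_mul, ModularGroup.coe_S, ModularGroup.coe_T_zpow,
    Matrix.mul_fin_two]
  simp

theorem mul_inv_mem_Gamma0 {N : ℕ} (γ γ' : SL(2, ℤ))
    (h : (γ 1 0 : ZMod N) * (γ' 1 1 : ZMod N) = (γ 1 1 : ZMod N) * (γ' 1 0 : ZMod N)) :
    γ * γ'⁻¹ ∈ Gamma0 N := by
  rw [Gamma0_mem, Matrix.SpecialLinearGroup.coe_mul, Matrix.SpecialLinearGroup.coe_inv,
    Matrix.adjugate_fin_two, Matrix.mul_apply, Fin.sum_univ_two]
  simp [h]

/-- Every matrix lies in the coset of its class. -/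
theorem mul_cosetRep_inv_mem (γ : SL(2, ℤ)) :
    γ * (cosetRep (cosetClass (p := p) γ))⁻¹ ∈ Gamma0 p := by
  unfold cosetClass
  split_ifs with h
  · simpa [cosetRep, Gamma0_mem] using h
  · refine mul_inv_mem_Gamma0 _ _ ?_
    simp only [cosetRep, S_mul_T_zpow_apply]
    simp [mul_div_cancel₀ _ h]

variable {k : ℤ}

/-- The conjugates `f|γ_x`. -/
def conj (k : ℤ) (f : ℍ → ℂ) (x : Option (ZMod p)) : ℍ → ℂ := f ∣[k] cosetRep x

/-- Invariance under `Γ₀(p)`. -/
def IsInv (p : ℕ) (k : ℤ) (f : ℍ → ℂ) : Prop := ∀ γ ∈ Gamma0 p, f ∣[k] γ = f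

omit [Fact (Nat.Prime p)] in
theorem isInv_form {F : Type*} [FunLike F ℍ ℂ] [SlashInvariantFormClass F (Gamma0 p) k] (f : F) :
    IsInv p k (⇑f) := fun γ hγ => by
  rw [SL_slash]
  exact SlashInvariantFormClass.slash_action_eq f _ (Subgroup.mem_map_of_mem _ hγ)

theorem slash_eq_conj {f : ℍ → ℂ} (hf : IsInv p k f) (γ : SL(2, ℤ)) :
    f ∣[k] γ = conj k f (cosetClass (p := p) γ) := by
  conv_lhs => rw [← inv_mul_cancel_right γ (cosetRep (cosetClass (p := p) γ)),
    SlashAction.slash_mul, hf _ (mul_cosetRep_inv_mem γ)]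
  rfl

omit [Fact (Nat.Prime p)] in
@[simp] theorem conj_none (f : ℍ → ℂ) : conj (p := p) k f none = f := by
  simp [conj, cosetRep]

omit [Fact (Nat.Prime p)] in
theorem conj_some (f : ℍ → ℂ) (j : ZMod p) :
    conj k f (some j) = (f ∣[k] S) ∣[k] (T ^ (j.val : ℤ) : SL(2, ℤ)) := by
  rw [conj, cosetRep, SlashAction.slash_mul]

/-- The permutation of cosets induced by `S`. -/
def permS : Option (ZMod p) → Option (ZMod p)
  | none => some 0
  | some j => if j = 0 then none else some (-j⁻¹)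

/-- The permutation of cosets induced by `T`. -/
def permT : Option (ZMod p) → Option (ZMod p)
  | none => none
  | some j => some (j + 1)

theorem permS_involutive : Function.Involutive (permS (p := p)) := by
  rintro (_ | j)
  · simp [permS]
  · by_cases h : j = 0
    · simp [permS, h]
    · simp [permS, h, inv_neg]

theorem permT_bijective : Function.Bijective (permT (p := p)) := by
  refine Finite.injective_iff_bijective.mp ?_
  rintro (_ | a) (_ | b) h <;> simp_all [permT]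

theorem cosetClass_mul_S (x : Option (ZMod p)) :
    cosetClass (cosetRep x * S) = permS x := by
  cases x with
  | none => simp [cosetRep, cosetClass, permS, ModularGroup.coe_S]
  | some j =>
    have h : ((cosetRep (some j) * S : SL(2, ℤ)) : Matrix (Fin 2) (Fin 2) ℤ) =
        !![-1, 0; (j.val : ℤ), -1] := by
      rw [Matrix.SpecialLinearGroup.coe_mul, cosetRep, S_mul_T_zpow_apply, ModularGroup.coe_S,
        Matrix.mul_fin_two]
      simp
    simp only [cosetClass, h]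
    by_cases hj : j = 0
    · simp [permS, hj]
    · simp [permS, hj, neg_div]

theorem cosetClass_mul_T (x : Option (ZMod p)) :
    cosetClass (cosetRep x * T) = permT x := by
  cases x with
  | none => simp [cosetRep, cosetClass, permT, ModularGroup.coe_T]
  | some j =>
    have h : ((cosetRep (some j) * T : SL(2, ℤ)) : Matrix (Fin 2) (Fin 2) ℤ) =
        !![0, -1; 1, (j.val : ℤ) + 1] := by
      rw [Matrix.SpecialLinearGroup.coe_mul, cosetRep, S_mul_T_zpow_apply, ModularGroup.coe_T,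
        Matrix.mul_fin_two]
      simp [add_comm]
    simp [cosetClass, permT, h]

theorem conj_slash_S {f : ℍ → ℂ} (hf : IsInv p k f) (x : Option (ZMod p)) :
    conj k f x ∣[k] S = conj k f (permS x) := by
  rw [conj, ← SlashAction.slash_mul, slash_eq_conj hf, cosetClass_mul_S]

theorem conj_slash_T {f : ℍ → ℂ} (hf : IsInv p k f) (x : Option (ZMod p)) :
    conj k f x ∣[k] T = conj k f (permT x) := by
  rw [conj, ← SlashAction.slash_mul, slash_eq_conj hf, cosetClass_mul_T]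

theorem val_SL_coe (γ : SL(2, ℤ)) :
    ((γ : GL (Fin 2) ℝ) : Matrix (Fin 2) (Fin 2) ℝ) =
      !![(γ 0 0 : ℝ), (γ 0 1 : ℝ); (γ 1 0 : ℝ), (γ 1 1 : ℝ)] := by
  ext i j
  fin_cases i <;> fin_cases j <;> simp

theorem slash_T_zpow {f : ℍ → ℂ} (j : ℤ) (τ : ℍ) :
    (f ∣[k] (T ^ j : SL(2, ℤ))) τ = f ((j : ℝ) +ᵥ τ) := by
  rw [SL_slash_apply, modular_T_zpow_smul]
  simp only [UpperHalfPlane.denom, val_SL_coe]
  simp [ModularGroup.coe_T_zpow]

theorem isBoundedAtImInfty_slash_T_zpow {f : ℍ → ℂ} (hf : IsBoundedAtImInfty f) (j : ℤ) :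
    IsBoundedAtImInfty (f ∣[k] (T ^ j : SL(2, ℤ))) := by
  rw [SL_slash]
  exact hf.slash k (by rw [val_SL_coe]; simp [ModularGroup.coe_T_zpow])

theorem isBoundedAtImInfty_slash {f : ℍ → ℂ} (hf : IsInv p k f) (hinf : IsBoundedAtImInfty f)
    (h0 : IsBoundedAtImInfty (f ∣[k] S)) (γ : SL(2, ℤ)) : IsBoundedAtImInfty (f ∣[k] γ) := by
  rw [slash_eq_conj hf γ]
  cases cosetClass (p := p) γ with
  | none => simpa using hinf
  | some j => rw [conj_some]; exact isBoundedAtImInfty_slash_T_zpow h0 _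

/-- Constructor for modular forms on `Γ₀(p)`: only two cusps need to be checked. -/
def mkForm (k : ℤ) (f : ℍ → ℂ) (hf : IsInv p k f) (hd : MDiff f)
    (hinf : IsBoundedAtImInfty f) (h0 : IsBoundedAtImInfty (f ∣[k] S)) :
    ModularForm (Gamma0 p) k where
  toFun := f
  slash_action_eq' := by rintro _ ⟨γ, hγ, rfl⟩; exact hf γ hγ
  holo' := hd
  bdd_at_cusps' {c} hc := by
    rw [Subgroup.IsArithmetic.isCusp_iff_isCusp_SL2Z] at hc
    rw [OnePoint.isBoundedAt_iff_forall_SL2Z hc]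
    exact fun γ _ => isBoundedAtImInfty_slash hf hinf h0 γ

theorem isBoundedAtImInfty_conj {F : Type*} [FunLike F ℍ ℂ]
    [ModularFormClass F (Gamma0 p) k] (f : F) (x : Option (ZMod p)) :
    IsBoundedAtImInfty (conj k (⇑f) x) := by
  have hc : IsCusp OnePoint.infty 𝒮ℒ :=
    Subgroup.isCusp_of_mem_strictPeriods one_pos one_mem_strictPeriods_SL
  have h : ∀ γ : SL(2, ℤ), OnePoint.IsBoundedAt ((γ : GL (Fin 2) ℝ) • OnePoint.infty) (⇑f) k := by
    intro γ
    refine ModularFormClass.bdd_at_cusps f ?_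
    rw [Subgroup.IsArithmetic.isCusp_iff_isCusp_SL2Z]
    exact hc.smul_of_mem ⟨γ, rfl⟩
  exact (OnePoint.isBoundedAt_iff (g := (cosetRep x : GL (Fin 2) ℝ)) rfl).mp (h _)

omit [Fact (Nat.Prime p)] in
theorem mdifferentiable_conj {f : ℍ → ℂ} (hd : MDiff f) (x : Option (ZMod p)) :
    MDiff (conj k f x) :=
  hd.slash k _

/-- The trace of a form on `Γ₀(p)` to level one. -/
def levelOneTrace (k : ℤ) (f : ModularForm (Gamma0 p) k) : ModularForm 𝒮ℒ k where
  toFun := ∑ x : Option (ZMod p), conj k (⇑f) x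
  slash_action_eq' := by
    rintro _ ⟨γ, rfl⟩
    refine SlashInvariantForm.slash_action_generators_SL2Z ?_ ?_ γ
    · rw [SlashAction.sum_slash]
      simp only [conj_slash_S (isInv_form f)]
      exact Fintype.sum_bijective permS permS_involutive.bijective _ _ fun _ => rfl
    · rw [SlashAction.sum_slash]
      simp only [conj_slash_T (isInv_form f)]
      exact Fintype.sum_bijective permT permT_bijective _ _ fun _ => rfl
  holo' := Finset.sum_induction _ (fun g : ℍ → ℂ => MDiff g) (fun _ _ ha hb => ha.add hb)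
    mdifferentiable_const (fun x _ => mdifferentiable_conj (ModularFormClass.holo f) x)
  bdd_at_cusps' {c} hc := by
    rw [OnePoint.isBoundedAt_iff_forall_SL2Z hc]
    intro γ _
    rw [SlashAction.sum_slash]
    refine Finset.sum_induction _ (fun g : ℍ → ℂ => IsBoundedAtImInfty g)
      (fun _ _ ha hb => ha.add hb) UpperHalfPlane.zero_form_isBoundedAtImInfty fun x _ => ?_
    rw [conj, ← SlashAction.slash_mul, slash_eq_conj (isInv_form f)]
    exact isBoundedAtImInfty_conj f _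

theorem coe_levelOneTrace (k : ℤ) (f : ModularForm (Gamma0 p) k) :
    ⇑(levelOneTrace k f) = ∑ x : Option (ZMod p), conj k (⇑f) x := rfl

theorem sum_conj_eq_zero (f : ModularForm (Gamma0 p) 2) :
    ∑ x : Option (ZMod p), conj 2 (⇑f) x = 0 := by
  rw [← coe_levelOneTrace,
    rank_zero_iff_forall_zero.mp ModularForm.levelOne_weight_two_rank_zero (levelOneTrace 2 f)]
  rfl

/-- `f` slashed by `(0 -1; p 0) = S * diag(p, 1)`. -/
def atkinFun (p : ℕ) (k : ℤ) (f : ℍ → ℂ) : ℍ → ℂ := (f ∣[k] S) ∣[k] heckeDiagMatrix p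

theorem atkinFun_isInv {f : ℍ → ℂ} (hf : IsInv p k f) : IsInv p k (atkinFun p k f) := by
  intro γ hγ
  have hp : p ≠ 0 := (Fact.out : p.Prime).ne_zero
  have hc : (p : ℤ) ∣ γ 1 0 := by
    rw [← ZMod.intCast_zmod_eq_zero_iff_dvd]
    exact Gamma0_mem.mp hγ
  obtain ⟨c, hc⟩ := hc
  have hdet := γ.2
  rw [Matrix.det_fin_two, hc] at hdet
  let γ' : SL(2, ℤ) := ⟨!![γ 0 0, (p : ℤ) * γ 0 1; c, γ 1 1],
    by rw [Matrix.det_fin_two_of]; linarith⟩
  let γ'' : SL(2, ℤ) := ⟨!![γ 1 1, -c; -((p : ℤ) * γ 0 1), γ 0 0],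
    by rw [Matrix.det_fin_two_of]; linarith⟩
  have hmem : γ'' ∈ Gamma0 p := by
    rw [Gamma0_mem]
    simp [γ'']
  have h1 : heckeDiagMatrix p * (γ : GL (Fin 2) ℝ) = (γ' : GL (Fin 2) ℝ) * heckeDiagMatrix p := by
    apply Units.ext
    simp only [Units.val_mul, val_heckeDiagMatrix hp, val_SL_coe, Matrix.mul_fin_two]
    simp [γ', hc]
    constructor <;> ring
  have h2 : S * γ' = γ'' * S := by
    apply Subtype.ext
    change (S : Matrix (Fin 2) (Fin 2) ℤ) * !![γ 0 0, (p : ℤ) * γ 0 1; c, γ 1 1] =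
      !![γ 1 1, -c; -((p : ℤ) * γ 0 1), γ 0 0] * (S : Matrix (Fin 2) (Fin 2) ℤ)
    simp [ModularGroup.coe_S]
  rw [atkinFun, SL_slash (f := (f ∣[k] S) ∣[k] heckeDiagMatrix p), ← SlashAction.slash_mul, h1,
    SlashAction.slash_mul, ← SL_slash, ← SlashAction.slash_mul k S γ' f, h2,
    SlashAction.slash_mul, hf _ hmem]

theorem atkinFun_slash_S {f : ℍ → ℂ} :
    atkinFun p 2 f ∣[(2 : ℤ)] S = f ∣[(2 : ℤ)] heckeMatrix p 0 := by
  have hp : p ≠ 0 := (Fact.out : p.Prime).ne_zero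
  have h : ((S : GL (Fin 2) ℝ) * heckeDiagMatrix p) * (S : GL (Fin 2) ℝ) =
      ((-1 : SL(2, ℤ)) : GL (Fin 2) ℝ) * heckeMatrix p 0 := by
    apply Units.ext
    simp only [Units.val_mul, val_heckeDiagMatrix hp, val_heckeMatrix hp, val_SL_coe,
      Matrix.mul_fin_two]
    simp [ModularGroup.coe_S]
  have hneg : f ∣[(2 : ℤ)] ((-1 : SL(2, ℤ)) : GL (Fin 2) ℝ) = f := by
    funext τ
    rw [← SL_slash, SL_slash_apply]
    simp [UpperHalfPlane.denom]
  rw [atkinFun, SL_slash f S, SL_slash, ← SlashAction.slash_mul, ← SlashAction.slash_mul,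
    ← mul_assoc, h, SlashAction.slash_mul, hneg]

/-- The Atkin–Lehner image of a weight-two form. -/
def atkinForm (f : ModularForm (Gamma0 p) 2) : ModularForm (Gamma0 p) 2 :=
  mkForm 2 (atkinFun p 2 ⇑f) (atkinFun_isInv (isInv_form f))
    (((ModularFormClass.holo f).slash 2 _).slash 2 _)
    (by
      have h := isBoundedAtImInfty_conj f (some (0 : ZMod p))
      rw [conj_some] at h
      simp only [ZMod.val_zero, Nat.cast_zero, zpow_zero, SlashAction.slash_one] at h
      exact h.slash 2 (by simp [val_heckeDiagMatrix (Fact.out : p.Prime).ne_zero]))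
    (by
      rw [atkinFun_slash_S]
      have h := isBoundedAtImInfty_conj (p := p) f none
      rw [conj_none] at h
      exact h.slash 2 (by simp [val_heckeMatrix (Fact.out : p.Prime).ne_zero]))

theorem coe_atkinForm (f : ModularForm (Gamma0 p) 2) : ⇑(atkinForm f) = atkinFun p 2 ⇑f :=
  rfl

theorem heckeMatrix_mul_T_zpow (j : ℕ) :
    heckeMatrix p 0 * ((T ^ (j : ℤ) : SL(2, ℤ)) : GL (Fin 2) ℝ) = heckeMatrix p j := by
  have hp : p ≠ 0 := (Fact.out : p.Prime).ne_zero
  apply Units.ext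
  simp only [Units.val_mul, val_heckeMatrix hp, val_SL_coe, Matrix.mul_fin_two]
  rw [ModularGroup.coe_T_zpow]
  simp

theorem sum_zmod_val {M : Type*} [AddCommMonoid M] (g : ℕ → M) :
    ∑ j : ZMod p, g j.val = ∑ i ∈ Finset.range p, g i := by
  have hp : p.Prime := Fact.out
  refine Finset.sum_bij (fun j _ => j.val) (fun j _ => Finset.mem_range.mpr (ZMod.val_lt j))
    (fun a _ b _ h => ZMod.val_injective p h) (fun i hi => ⟨(i : ZMod p), Finset.mem_univ _,
      ZMod.val_cast_of_lt (Finset.mem_range.mp hi)⟩) (fun _ _ => rfl)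

theorem atkinFun_eq_neg_heckeU (f : ModularForm (Gamma0 p) 2) :
    atkinFun p 2 (⇑f) = -heckeU 2 p (⇑f) := by
  have h := sum_conj_eq_zero (atkinForm f)
  rw [Fintype.sum_option, conj_none] at h
  have hsum : ∑ j : ZMod p, conj 2 (⇑(atkinForm f)) (some j) = heckeU 2 p (⇑f) := by
    have hconj : ∀ j : ZMod p, conj 2 (⇑(atkinForm f)) (some j) =
        (⇑f) ∣[(2 : ℤ)] heckeMatrix p j.val := by
      intro j
      rw [conj_some, coe_atkinForm, atkinFun_slash_S, SL_slash, ← SlashAction.slash_mul,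
        heckeMatrix_mul_T_zpow]
    rw [Finset.sum_congr rfl fun j _ => hconj j]
    exact sum_zmod_val (fun i => (⇑f) ∣[(2 : ℤ)] heckeMatrix p i)
  rw [hsum] at h
  exact eq_neg_of_add_eq_zero_left h

theorem heckeMatrix_smul_heckeDiag (τ : ℍ) :
    heckeDiagMatrix p • heckeMatrix p 0 • τ = τ := by
  have hp : p ≠ 0 := (Fact.out : p.Prime).ne_zero
  apply UpperHalfPlane.ext
  rw [coe_heckeDiagMatrix_smul hp, coe_heckeMatrix_smul hp, Nat.cast_zero, add_zero,
    mul_div_cancel₀ _ (Nat.cast_ne_zero.mpr hp)]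

/-- The expansion at `0` of a weight-two form on `Γ₀(p)`. -/
theorem slash_S_apply (f : ModularForm (Gamma0 p) 2) (τ : ℍ) :
    ((⇑f) ∣[(2 : ℤ)] S) τ = -((p : ℂ)⁻¹ * heckeU 2 p (⇑f) (heckeMatrix p 0 • τ)) := by
  have hp : p ≠ 0 := (Fact.out : p.Prime).ne_zero
  have h := congrFun (atkinFun_eq_neg_heckeU f) (heckeMatrix p 0 • τ)
  rw [atkinFun, slash_heckeDiagMatrix_apply 2 hp, heckeMatrix_smul_heckeDiag] at h
  norm_num at h
  rw [← mul_neg, ← h, inv_mul_cancel_left₀ (Nat.cast_ne_zero.mpr hp)]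

/-- `U_p² = 1` on weight-two forms of prime level. -/
theorem heckeU_heckeU (f : ModularForm (Gamma0 p) 2) :
    heckeU 2 p (heckeU 2 p (⇑f)) = ⇑f := by
  have hp : p ≠ 0 := (Fact.out : p.Prime).ne_zero
  set g : ModularForm (Gamma0 p) 2 := ModularForm.heckeULin 2 (dvd_refl p) f
  have hg : (⇑g : ℍ → ℂ) = heckeU 2 p ⇑f := rfl
  have h2 : ∀ τ, heckeU 2 p (⇑g) (heckeMatrix p 0 • τ) = f (heckeMatrix p 0 • τ) := by
    intro τ
    have h := slash_S_apply g τ
    have h' : ((⇑g) ∣[(2 : ℤ)] S) τ = -(((⇑f) ∣[(2 : ℤ)] heckeMatrix p 0) τ) := by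
      rw [hg, ← neg_neg (heckeU 2 p ⇑f), ← atkinFun_eq_neg_heckeU, SlashAction.neg_slash,
        atkinFun_slash_S]
      rfl
    rw [h', slash_heckeMatrix_apply 2 hp, neg_inj] at h
    exact (mul_left_cancel₀ (inv_ne_zero (Nat.cast_ne_zero.mpr hp)) h).symm
  funext τ
  have := h2 (heckeDiagMatrix p • τ)
  have heq : heckeMatrix p 0 • heckeDiagMatrix p • τ = τ := by
    apply UpperHalfPlane.ext
    rw [coe_heckeMatrix_smul hp, coe_heckeDiagMatrix_smul hp, Nat.cast_zero, add_zero,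
      mul_div_cancel_left₀ _ (Nat.cast_ne_zero.mpr hp)]
  rwa [heq, hg] at this

/-- The conjugates at the finite cosets. -/
theorem conj_some_apply (f : ModularForm (Gamma0 p) 2) (j : ZMod p) (τ : ℍ) :
    conj 2 (⇑f) (some j) τ =
      -((p : ℂ)⁻¹ * heckeU 2 p (⇑f) (heckeMatrix p j.val • τ)) := by
  rw [conj_some, slash_T_zpow, slash_S_apply]
  have hp : p ≠ 0 := (Fact.out : p.Prime).ne_zero
  suffices h : heckeMatrix p 0 • (((j.val : ℤ) : ℝ) +ᵥ τ) = heckeMatrix p j.val • τ by rw [h]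
  apply UpperHalfPlane.ext
  rw [coe_heckeMatrix_smul hp, coe_heckeMatrix_smul hp, UpperHalfPlane.coe_vadd]
  push_cast
  ring

end Fermat.Agent.Eisenstein
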