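import Fermat.Agent.Eisenstein.EisTwo
import Fermat.Prelude.Thm_ModularFormClass_qCoeff_heckeU
import Fermat.Prelude.Thm_CongruenceSubgroup_one_mem_strictPeriods_Gamma0
/-!
# Expansions of the conjugates

Expansions of the conjugates of a weight-2 form on `Γ₀(p)` with integral q-expansion, and the
subring of algebraic numbers integral away from `p`.
-/

set_option autoImplicit false

noncomputable section

open UpperHalfPlane ModularForm Complex CongruenceSubgroup
open scoped MatrixGroups ModularForm Manifold Real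

namespace Fermat.Agent.Eisenstein

variable {p : ℕ} [Fact p.Prime]

/-- Complex numbers that become algebraic integers after multiplication by a power of `p`. -/
def pIntegral (p : ℕ) : Subring ℂ where
  carrier := {x | ∃ N : ℕ, IsIntegral ℤ ((p : ℂ) ^ N * x)}
  mul_mem' {x y} := by
    rintro ⟨N, hN⟩ ⟨M, hM⟩
    refine ⟨N + M, ?_⟩
    rw [show (p : ℂ) ^ (N + M) * (x * y) = (p : ℂ) ^ N * x * ((p : ℂ) ^ M * y) by ring]
    exact hN.mul hM
  one_mem' := ⟨0, by simpa using isIntegral_one⟩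
  add_mem' {x y} := by
    rintro ⟨N, hN⟩ ⟨M, hM⟩
    refine ⟨N + M, ?_⟩
    have h : ∀ n : ℕ, IsIntegral ℤ ((p : ℂ) ^ n) := fun n => by
      simpa using (isIntegral_algebraMap (R := ℤ) (A := ℂ) (x := ((p : ℤ) ^ n)))
    rw [show (p : ℂ) ^ (N + M) * (x + y) =
      (p : ℂ) ^ M * ((p : ℂ) ^ N * x) + (p : ℂ) ^ N * ((p : ℂ) ^ M * y) by ring]
    exact ((h M).mul hN).add ((h N).mul hM)
  zero_mem' := ⟨0, by simpa using isIntegral_zero⟩
  neg_mem' {x} := by
    rintro ⟨N, hN⟩
    exact ⟨N, by simpa using hN.neg⟩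

omit [Fact (Nat.Prime p)] in
theorem mem_pIntegral_of_isIntegral {x : ℂ} (hx : IsIntegral ℤ x) : x ∈ pIntegral p :=
  ⟨0, by simpa using hx⟩

theorem inv_mem_pIntegral : (p : ℂ)⁻¹ ∈ pIntegral p :=
  ⟨1, by
    rw [pow_one, mul_inv_cancel₀ (Nat.cast_ne_zero.mpr (Fact.out : p.Prime).ne_zero)]
    exact isIntegral_one⟩

theorem zeta_mem_pIntegral : zeta p ∈ pIntegral p :=
  mem_pIntegral_of_isIntegral (zeta_isPrimitiveRoot.isIntegral (Fact.out : p.Prime).pos)

theorem intCast_div_mem_pIntegral (a : ℤ) (n : ℕ) : (a : ℂ) / (p : ℂ) ^ n ∈ pIntegral p := by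
  rw [div_eq_mul_inv, ← inv_pow]
  exact mul_mem (intCast_mem _ a) (pow_mem inv_mem_pIntegral n)

/-- A prime `ℓ ≠ p` is not invertible in `pIntegral p`. -/
theorem inv_notMem_pIntegral {ℓ : ℕ} (hℓ : ℓ.Prime) (hne : ℓ ≠ p) :
    (ℓ : ℂ)⁻¹ ∉ pIntegral p := by
  rintro ⟨N, hN⟩
  have hℓ0 : (ℓ : ℂ) ≠ 0 := Nat.cast_ne_zero.mpr hℓ.ne_zero
  have h1 : IsIntegral ℤ (algebraMap ℚ ℂ ((p : ℚ) ^ N / ℓ)) := by
    simpa [div_eq_mul_inv] using hN
  have h2 : IsIntegral ℤ ((p : ℚ) ^ N / ℓ) :=
    (isIntegral_algebraMap_iff (algebraMap ℚ ℂ).injective).mp h1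
  obtain ⟨z, hz⟩ := IsIntegrallyClosed.isIntegral_iff.mp h2
  have h3 : (ℓ : ℤ) * z = (p : ℤ) ^ N := by
    have : (ℓ : ℚ) * (z : ℚ) = (p : ℚ) ^ N := by
      rw [← eq_intCast (algebraMap ℤ ℚ), hz, mul_div_cancel₀ _ (Nat.cast_ne_zero.mpr hℓ.ne_zero)]
    exact_mod_cast this
  have h4 : ℓ ∣ p ^ N := by
    exact_mod_cast (Dvd.intro z h3 : (ℓ : ℤ) ∣ (p : ℤ) ^ N)
  exact hne ((Nat.prime_dvd_prime_iff_eq hℓ Fact.out).mp (hℓ.dvd_of_dvd_pow h4))

omit [Fact (Nat.Prime p)] in
/-- `pIntegral p` is integrally closed in `ℂ`: roots of monic polynomials. -/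
theorem mem_pIntegral_of_root {q : Polynomial ℂ} (hq : q.Monic)
    (hcoeff : ∀ i, q.coeff i ∈ pIntegral p) {x : ℂ} (hx : q.eval x = 0) : x ∈ pIntegral p := by
  classical
  choose N hN using hcoeff
  set M := ∑ i ∈ Finset.range (q.natDegree + 1), N i with hM
  refine ⟨M, ?_⟩
  set s := q.scaleRoots ((p : ℂ) ^ M) with hs
  have hsmonic : s.Monic := (Polynomial.monic_scaleRoots_iff _).mpr hq
  have hscoeff : ∀ i, IsIntegral ℤ (s.coeff i) := by
    intro i
    rw [hs, Polynomial.coeff_scaleRoots]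
    rcases lt_trichotomy i q.natDegree with hi | hi | hi
    · have hNM : N i ≤ M :=
        Finset.single_le_sum (fun j _ => Nat.zero_le (N j)) (Finset.mem_range.mpr (by omega))
      have hle : N i ≤ M * (q.natDegree - i) :=
        hNM.trans (Nat.le_mul_of_pos_right M (by omega))
      have : q.coeff i * ((p : ℂ) ^ M) ^ (q.natDegree - i) =
          (p : ℂ) ^ (M * (q.natDegree - i) - N i) * ((p : ℂ) ^ N i * q.coeff i) := by
        rw [← mul_assoc, ← pow_add, Nat.sub_add_cancel hle, ← pow_mul]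
        ring
      rw [this]
      refine IsIntegral.mul ?_ (hN i)
      simpa using (isIntegral_algebraMap (R := ℤ) (A := ℂ)
        (x := ((p : ℤ) ^ (M * (q.natDegree - i) - N i))))
    · subst hi
      rw [hq.coeff_natDegree, Nat.sub_self, pow_zero, mul_one]
      exact isIntegral_one
    · rw [Polynomial.coeff_eq_zero_of_natDegree_lt hi, zero_mul]
      exact isIntegral_zero
  have hsroot : s.eval ((p : ℂ) ^ M * x) = 0 := by
    have := Polynomial.scaleRoots_eval₂_eq_zero (RingHom.id ℂ) (r := x) (s := (p : ℂ) ^ M)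
      (p := q) (by simpa using hx)
    simpa using this
  have hlift : s ∈ Polynomial.lifts (algebraMap (integralClosure ℤ ℂ) ℂ) := by
    rw [Polynomial.lifts_iff_coeff_lifts]
    intro i
    exact ⟨⟨s.coeff i, hscoeff i⟩, rfl⟩
  obtain ⟨t, ht, -, htm⟩ := Polynomial.lifts_and_natDegree_eq_and_monic hlift hsmonic
  have hint : IsIntegral (integralClosure ℤ ℂ) ((p : ℂ) ^ M * x) :=
    ⟨t, htm, by rw [Polynomial.eval₂_eq_eval_map, ht]; exact hsroot⟩
  exact isIntegral_trans _ hint

omit [Fact (Nat.Prime p)] in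
theorem mem_pIntegral_of_pow {x : ℂ} {n : ℕ} (hn : n ≠ 0) (hx : x ^ n ∈ pIntegral p) :
    x ∈ pIntegral p := by
  refine mem_pIntegral_of_root (q := Polynomial.X ^ n - Polynomial.C (x ^ n))
    (Polynomial.monic_X_pow_sub_C _ hn) (fun i => ?_) (by simp)
  rw [Polynomial.coeff_sub, Polynomial.coeff_X_pow, Polynomial.coeff_C]
  refine sub_mem ?_ ?_
  · split_ifs
    exacts [one_mem _, zero_mem _]
  · split_ifs
    exacts [hx, zero_mem _]

/-- The q-expansion at infinity. -/
abbrev expInfty {k : ℤ} (f : ModularForm (Gamma0 p) k) : PowerSeries ℂ := qExpansion 1 (⇑f)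

omit [Fact (Nat.Prime p)] in
theorem hasExp_expInfty {k : ℤ} (f : ModularForm (Gamma0 p) k) : HasExp 1 (⇑f) (expInfty f) :=
  hasExp_of_form f (one_mem_strictPeriods_Gamma0 p)

theorem coeff_expInfty_heckeU (f : ModularForm (Gamma0 p) 2) (n : ℕ) :
    (expInfty (ModularForm.heckeULin 2 (dvd_refl p) f)).coeff n = (expInfty f).coeff (n * p) :=
  ModularFormClass.qCoeff_heckeU f (one_mem_strictPeriods_Gamma0 p) (Fact.out : p.Prime).ne_zero n

/-- The expansion (in `q^(1/p)`) of each conjugate. -/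
def conjSeries (f : ModularForm (Gamma0 p) 2) : Option (ZMod p) → PowerSeries ℂ
  | none => PowerSeries.expand p (Fact.out : p.Prime).ne_zero (expInfty f)
  | some j => PowerSeries.C (-(p : ℂ)⁻¹) *
      PowerSeries.rescale (zeta p ^ j.val) (expInfty (ModularForm.heckeULin 2 (dvd_refl p) f))

theorem hasExp_conj (f : ModularForm (Gamma0 p) 2) (x : Option (ZMod p)) :
    HasExp p (conj 2 (⇑f) x) (conjSeries f x) := by
  cases x with
  | none =>
    rw [conj_none]
    exact (hasExp_expInfty f).expand _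
  | some j =>
    have h : conj 2 (⇑f) (some j) = (-(p : ℂ)⁻¹) •
        (fun τ => (ModularForm.heckeULin 2 (dvd_refl p) f) (heckeMatrix p j.val • τ)) := by
      funext τ
      rw [conj_some_apply]
      simp [neg_mul]
    rw [h]
    exact ((hasExp_expInfty _).comp_heckeMatrix j.val).smul _

/-- The constant terms of the conjugates, for a form with constant term `c`. -/
def conjConst (p : ℕ) (c : ℂ) : Option (ZMod p) → ℂ
  | none => c
  | some _ => -((p : ℂ)⁻¹ * c)

/-- If all higher coefficients are divisible by `M`, all conjugates are congruent to constants. -/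
theorem cong_conjSeries {M : ℕ} {c : ℤ} (f : ModularForm (Gamma0 p) 2)
    (h0 : (expInfty f).coeff 0 = c)
    (hn : ∀ n, 1 ≤ n → ∃ z : ℤ, (expInfty f).coeff n = M * z) (x : Option (ZMod p)) :
    Cong (pIntegral p) M (conjSeries f x) (PowerSeries.C (conjConst p c x)) := by
  have hp : p ≠ 0 := (Fact.out : p.Prime).ne_zero
  choose! z hz using hn
  cases x with
  | none =>
    refine ⟨PowerSeries.expand p hp (PowerSeries.mk fun n => if n = 0 then 0 else (z n : ℂ)),
      expand_mem_coeffIn _ fun n => ?_, ?_⟩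
    · rw [PowerSeries.coeff_mk]
      split_ifs
      exacts [zero_mem _, intCast_mem _ _]
    · have : expInfty f = PowerSeries.C (c : ℂ) +
          PowerSeries.C (M : ℂ) * PowerSeries.mk fun n => if n = 0 then 0 else (z n : ℂ) := by
        ext n
        rw [map_add, PowerSeries.coeff_C_mul, PowerSeries.coeff_C, PowerSeries.coeff_mk]
        rcases Nat.eq_zero_or_pos n with rfl | h
        · simp [h0]
        · rw [if_neg h.ne', if_neg h.ne', zero_add, hz n h]
      simp only [conjSeries, conjConst, this, map_add, map_mul, PowerSeries.expand_C]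
      ring
  | some j =>
    refine ⟨PowerSeries.C (-(p : ℂ)⁻¹) * PowerSeries.rescale (zeta p ^ j.val)
      (PowerSeries.mk fun n => if n = 0 then 0 else (z (n * p) : ℂ)), ?_, ?_⟩
    · refine mul_mem (C_mem_coeffIn (neg_mem inv_mem_pIntegral)) fun n => ?_
      rw [PowerSeries.coeff_rescale, PowerSeries.coeff_mk]
      refine mul_mem (pow_mem (pow_mem zeta_mem_pIntegral _) _) ?_
      split_ifs
      exacts [zero_mem _, intCast_mem _ _]
    · simp only [conjSeries, conjConst]
      ext n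
      simp only [map_sub, PowerSeries.coeff_C_mul, PowerSeries.coeff_C, PowerSeries.coeff_rescale,
        coeff_expInfty_heckeU, PowerSeries.coeff_mk]
      rcases Nat.eq_zero_or_pos n with rfl | h
      · simp [h0]
      · rw [if_neg h.ne', if_neg h.ne', hz (n * p) (Nat.one_le_iff_ne_zero.mpr
          (mul_ne_zero h.ne' hp))]
        ring

end Fermat.Agent.Eisenstein
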