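import Mathlib
/-!
# Divisor sums prime to `p`

The sum of divisors prime to `p`, i.e. the eigenvalues of the Eisenstein system of level `p`.
-/

set_option autoImplicit false

namespace Fermat.Agent.Eisenstein

/-- `σ'(n)`: sum of the divisors of `n` that are not divisible by `p`. -/
def sigmaPrime (p n : ℕ) : ℕ := ∑ d ∈ n.divisors with ¬ p ∣ d, d

theorem sigmaPrime_one {p : ℕ} (hp : p.Prime) : sigmaPrime p 1 = 1 := by
  simp [sigmaPrime, Finset.sum_filter, hp.ne_one]

theorem divisors_prime_mul {r k : ℕ} (hr : r.Prime) (hk : k ≠ 0) :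
    (r * k).divisors = k.divisors ∪ k.divisors.image (r * ·) := by
  ext d
  simp only [Nat.mem_divisors, Finset.mem_union, Finset.mem_image, mul_ne_zero hr.ne_zero hk,
    ne_eq, not_false_eq_true, and_true, hk]
  constructor
  · intro hd
    by_cases hrd : r ∣ d
    · obtain ⟨e, rfl⟩ := hrd
      exact Or.inr ⟨e, Nat.dvd_of_mul_dvd_mul_left hr.pos hd, rfl⟩
    · exact Or.inl (((hr.coprime_iff_not_dvd.mpr hrd).symm).dvd_of_dvd_mul_left hd)
  · rintro (hd | ⟨e, he, rfl⟩)
    · exact hd.mul_left r
    · exact Nat.mul_dvd_mul_left r he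

theorem divisors_inter_image {r k : ℕ} (hr : r.Prime) (hrk : r ∣ k) (hk : k ≠ 0) :
    k.divisors ∩ k.divisors.image (r * ·) = (k / r).divisors.image (r * ·) := by
  obtain ⟨j, rfl⟩ := hrk
  have hj : j ≠ 0 := right_ne_zero_of_mul hk
  rw [Nat.mul_div_cancel_left j hr.pos]
  ext d
  simp only [Nat.mem_divisors, Finset.mem_inter, Finset.mem_image, ne_eq, hk, hj,
    not_false_eq_true, and_true]
  constructor
  · rintro ⟨hd, e, -, rfl⟩
    exact ⟨e, Nat.dvd_of_mul_dvd_mul_left hr.pos hd, rfl⟩
  · rintro ⟨e, he, rfl⟩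
    exact ⟨Nat.mul_dvd_mul_left r he, e, he.mul_left r, rfl⟩

/-- `σ'` satisfies the Hecke recursion of the Eisenstein system of level `p`. -/
theorem sigmaPrime_prime_mul {p r k : ℕ} (hp : p.Prime) (hr : r.Prime) (hk : k ≠ 0) :
    sigmaPrime p (r * k) +
        (if r ≠ p ∧ r ∣ k then r * sigmaPrime p (k / r) else 0) =
      (if r = p then 1 else 1 + r) * sigmaPrime p k := by
  have himg : ∀ s : Finset ℕ, ∑ d ∈ s.image (r * ·) with ¬ p ∣ d, d =
      if r = p then 0 else r * ∑ d ∈ s with ¬ p ∣ d, d := by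
    intro s
    rw [Finset.sum_filter, Finset.sum_image (fun a _ b _ h => Nat.eq_of_mul_eq_mul_left hr.pos h)]
    split_ifs with h
    · refine Finset.sum_eq_zero fun d _ => ?_
      simp [h]
    · rw [Finset.sum_filter, Finset.mul_sum]
      refine Finset.sum_congr rfl fun d _ => ?_
      have : p ∣ r * d ↔ p ∣ d := by
        rw [hp.dvd_mul]
        have hne : ¬ p ∣ r := fun hpr => h ((Nat.prime_dvd_prime_iff_eq hp hr).mp hpr).symm
        tauto
      simp only [this]
      split_ifs <;> simp
  have hsum : sigmaPrime p (r * k) +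
      ∑ d ∈ (k.divisors ∩ k.divisors.image (r * ·)) with ¬ p ∣ d, d =
      sigmaPrime p k + ∑ d ∈ k.divisors.image (r * ·) with ¬ p ∣ d, d := by
    simp only [sigmaPrime, divisors_prime_mul hr hk, Finset.sum_filter]
    exact Finset.sum_union_inter
  rw [himg] at hsum
  by_cases hrk : r ∣ k
  · rw [divisors_inter_image hr hrk hk, himg] at hsum
    by_cases h : r = p
    · rw [if_pos h, if_pos h] at hsum
      rw [if_neg (by tauto), if_pos h]
      linarith
    · rw [if_neg h, if_neg h] at hsum
      rw [if_pos ⟨h, hrk⟩, if_neg h]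
      simp only [sigmaPrime] at hsum ⊢
      linarith
  · have hempty : k.divisors ∩ k.divisors.image (r * ·) = ∅ := by
      refine Finset.eq_empty_of_forall_notMem fun d hd => hrk ?_
      simp only [Finset.mem_inter, Nat.mem_divisors, Finset.mem_image] at hd
      obtain ⟨hdk, e, -, rfl⟩ := hd
      exact (dvd_mul_right r e).trans hdk.1
    rw [hempty, Finset.filter_empty, Finset.sum_empty, add_zero] at hsum
    rw [if_neg (by tauto), add_zero, hsum]
    simp only [sigmaPrime]
    split_ifs <;> ring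

end Fermat.Agent.Eisenstein
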