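import Fermat.Agent.Eisenstein.Conj
import Fermat.Agent.Eisenstein.Exp
import Fermat.Agent.Eisenstein.Sigma
/-!
# The Eisenstein series of weight two and level `p`

The weight-2 Eisenstein series of level `p`, with constant term `p - 1` and coefficients `24 σ'(n)`;
behaviour of expansions under the matrices `(p 0; 0 1)` and `(1 j; 0 p)`.
-/

set_option autoImplicit false

noncomputable section

open UpperHalfPlane ModularForm Complex CongruenceSubgroup
open scoped MatrixGroups ModularForm Manifold Real ArithmeticFunction.sigma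

namespace Fermat.Agent.Eisenstein

open ModularGroup (S T)

variable {p : ℕ} [Fact p.Prime]

local notation "𝕢" => Function.Periodic.qParam

/-- The p-th root of unity `exp(2πi/p)`. -/
def zeta (p : ℕ) : ℂ := Complex.exp (2 * π * Complex.I / p)

theorem zeta_isPrimitiveRoot : IsPrimitiveRoot (zeta p) p :=
  Complex.isPrimitiveRoot_exp p (Fact.out : p.Prime).ne_zero

namespace HasExp

variable {F : ℍ → ℂ} {P : PowerSeries ℂ}

theorem comp_heckeDiag (hF : HasExp 1 F P) :
    HasExp 1 (fun τ => F (heckeDiagMatrix p • τ))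
      (PowerSeries.expand p (Fact.out : p.Prime).ne_zero P) := by
  intro τ
  have hp : p ≠ 0 := (Fact.out : p.Prime).ne_zero
  have hinj : Function.Injective (fun n : ℕ => p * n) := mul_right_injective₀ hp
  have hq : ∀ n : ℕ, 𝕢 ((1 : ℕ) : ℝ) (τ : ℂ) ^ (p * n) =
      𝕢 ((1 : ℕ) : ℝ) ((heckeDiagMatrix p • τ : ℍ) : ℂ) ^ n := by
    intro n
    rw [pow_mul, coe_heckeDiagMatrix_smul hp]
    congr 1
    simp only [Function.Periodic.qParam, ← Complex.exp_nat_mul]
    congr 1
    push_cast
    ring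
  refine (hinj.hasSum_iff ?_).mp ?_
  · intro n hn
    rw [PowerSeries.coeff_expand_of_not_dvd p hp P (fun ⟨m, hm⟩ => hn ⟨m, hm.symm⟩), zero_mul]
  · refine (hF _).congr_fun fun n => ?_
    simp only [Function.comp_apply]
    rw [PowerSeries.coeff_expand_mul, hq]

theorem comp_heckeMatrix (hF : HasExp 1 F P) (j : ℕ) :
    HasExp p (fun τ => F (heckeMatrix p j • τ)) (PowerSeries.rescale (zeta p ^ j) P) := by
  intro τ
  have hp : p ≠ 0 := (Fact.out : p.Prime).ne_zero
  refine (hF _).congr_fun fun n => ?_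
  rw [PowerSeries.coeff_rescale, coe_heckeMatrix_smul hp, mul_comm _ (P.coeff n), mul_assoc]
  congr 1
  simp only [zeta, Function.Periodic.qParam, ← Complex.exp_nat_mul, ← Complex.exp_add]
  congr 1
  push_cast
  have : (p : ℂ) ≠ 0 := Nat.cast_ne_zero.mpr hp
  field_simp
  ring

end HasExp

/-- The expansion of `E2`. -/
def eSeries : PowerSeries ℂ :=
  PowerSeries.mk fun n => if n = 0 then 1 else -24 * (σ 1 n : ℕ)

theorem hasExp_E2 : HasExp 1 EisensteinSeries.E2 eSeries := by
  intro τ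
  simpa [eSeries, Function.Periodic.qParam] using EisensteinSeries.hasSum_qExpansion_E2 (z := τ)

/-- The function `p E2(pτ) - E2(τ)`. -/
def eisTwoFun (p : ℕ) : ℍ → ℂ :=
  EisensteinSeries.E2 ∣[(2 : ℤ)] heckeDiagMatrix p - EisensteinSeries.E2

theorem eisTwoFun_apply (τ : ℍ) :
    eisTwoFun p τ =
      (p : ℂ) * EisensteinSeries.E2 (heckeDiagMatrix p • τ) - EisensteinSeries.E2 τ := by
  rw [eisTwoFun, Pi.sub_apply, slash_heckeDiagMatrix_apply 2 (Fact.out : p.Prime).ne_zero]
  norm_num

theorem eisTwoFun_isInv : IsInv p 2 (eisTwoFun p) := by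
  intro γ hγ
  have hp : p ≠ 0 := (Fact.out : p.Prime).ne_zero
  have hc : (p : ℤ) ∣ γ 1 0 := by
    rw [← ZMod.intCast_zmod_eq_zero_iff_dvd]
    exact Gamma0_mem.mp hγ
  obtain ⟨c, hc⟩ := hc
  have hdet := γ.2
  rw [Matrix.det_fin_two, hc] at hdet
  let γ' : SL(2, ℤ) := ⟨!![γ 0 0, (p : ℤ) * γ 0 1; c, γ 1 1],
    by rw [Matrix.det_fin_two_of]; linarith⟩
  have h1 : heckeDiagMatrix p * (γ : GL (Fin 2) ℝ) = (γ' : GL (Fin 2) ℝ) * heckeDiagMatrix p := by
    apply Units.ext
    simp only [Units.val_mul, val_heckeDiagMatrix hp, val_SL_coe, Matrix.mul_fin_two]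
    simp [γ', hc]
    constructor <;> ring
  rw [SL_slash]
  simp only [eisTwoFun, sub_eq_add_neg, SlashAction.add_slash, SlashAction.neg_slash]
  rw [← SlashAction.slash_mul, h1, SlashAction.slash_mul, ← SL_slash, ← SL_slash,
    EisensteinSeries.E2_slash_action, EisensteinSeries.E2_slash_action]
  funext τ
  simp only [Pi.add_apply, Pi.neg_apply, slash_heckeDiagMatrix_apply 2 hp, Pi.sub_apply,
    Pi.smul_apply, EisensteinSeries.D2, smul_eq_mul]
  have hden : UpperHalfPlane.denom (γ' : GL (Fin 2) ℝ) (heckeDiagMatrix p • τ : ℍ) =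
      UpperHalfPlane.denom (γ : GL (Fin 2) ℝ) τ := by
    simp only [UpperHalfPlane.denom, val_SL_coe, coe_heckeDiagMatrix_smul hp]
    simp [γ', hc]
    ring
  have hden0 : UpperHalfPlane.denom (γ : GL (Fin 2) ℝ) τ ≠ 0 := denom_ne_zero _ τ
  rw [hden, hc]
  simp [γ']
  field_simp
  ring

theorem eisTwoFun_slash_S :
    eisTwoFun p ∣[(2 : ℤ)] S =
      EisensteinSeries.E2 ∣[(2 : ℤ)] heckeMatrix p 0 - EisensteinSeries.E2 := by
  have hp : p ≠ 0 := (Fact.out : p.Prime).ne_zero
  have h1 : heckeDiagMatrix p * (S : GL (Fin 2) ℝ) = (S : GL (Fin 2) ℝ) * heckeMatrix p 0 := by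
    apply Units.ext
    simp only [Units.val_mul, val_heckeDiagMatrix hp, val_heckeMatrix hp, val_SL_coe,
      Matrix.mul_fin_two]
    simp [ModularGroup.coe_S]
  rw [SL_slash]
  simp only [eisTwoFun, sub_eq_add_neg, SlashAction.add_slash, SlashAction.neg_slash]
  rw [← SlashAction.slash_mul, h1, SlashAction.slash_mul, ← SL_slash,
    EisensteinSeries.E2_slash_action]
  funext τ
  simp only [Pi.add_apply, Pi.neg_apply, slash_heckeMatrix_apply 2 hp, Pi.sub_apply,
    Pi.smul_apply, EisensteinSeries.D2_S, smul_eq_mul, coe_heckeMatrix_smul hp, Nat.cast_zero,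
    add_zero]
  have : (p : ℂ) ≠ 0 := Nat.cast_ne_zero.mpr hp
  have : (τ : ℂ) ≠ 0 := UpperHalfPlane.ne_zero τ
  field_simp
  ring

omit [Fact (Nat.Prime p)] in
theorem mdifferentiable_eisTwoFun : MDiff (eisTwoFun p) :=
  (E2_mdifferentiable.slash 2 _).sub E2_mdifferentiable

/-- The weight-2 Eisenstein form of level `p`. -/
def eisTwo (p : ℕ) [Fact p.Prime] : ModularForm (Gamma0 p) 2 :=
  mkForm 2 (eisTwoFun p) eisTwoFun_isInv mdifferentiable_eisTwoFun
    ((EisensteinSeries.isBoundedAtImInfty_E2.slash 2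
      (by simp [val_heckeDiagMatrix (Fact.out : p.Prime).ne_zero])).sub
        EisensteinSeries.isBoundedAtImInfty_E2)
    (by
      rw [eisTwoFun_slash_S]
      exact (EisensteinSeries.isBoundedAtImInfty_E2.slash 2
        (by simp [val_heckeMatrix (Fact.out : p.Prime).ne_zero])).sub
          EisensteinSeries.isBoundedAtImInfty_E2)

theorem coe_eisTwo : ⇑(eisTwo p) = eisTwoFun p := rfl

/-- Its expansion. -/
def fSeries (p : ℕ) : PowerSeries ℂ :=
  PowerSeries.mk fun n => if n = 0 then (p : ℂ) - 1 else 24 * (sigmaPrime p n : ℕ)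

theorem sigmaPrime_add_mul_sigma {n : ℕ} (hn : n ≠ 0) :
    sigmaPrime p n + (if p ∣ n then p * σ 1 (n / p) else 0) = σ 1 n := by
  have hp : p.Prime := Fact.out
  rw [ArithmeticFunction.sigma_one_apply n, sigmaPrime,
    ← Finset.sum_filter_not_add_sum_filter n.divisors (fun d => p ∣ d) (fun d => d)]
  congr 1
  split_ifs with h
  · obtain ⟨m, rfl⟩ := h
    have hm : m ≠ 0 := right_ne_zero_of_mul hn
    rw [Nat.mul_div_cancel_left m hp.pos, ArithmeticFunction.sigma_one_apply, Finset.mul_sum]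
    refine Finset.sum_bij (fun d _ => p * d) (fun d hd => ?_)
      (fun a _ b _ hab => Nat.eq_of_mul_eq_mul_left hp.pos hab) (fun d hd => ?_) (fun _ _ => rfl)
    · simp only [Nat.mem_divisors, Finset.mem_filter] at hd ⊢
      exact ⟨⟨Nat.mul_dvd_mul_left p hd.1, hn⟩, dvd_mul_right p d⟩
    · simp only [Nat.mem_divisors, Finset.mem_filter] at hd
      obtain ⟨⟨hd1, -⟩, e, rfl⟩ := hd
      exact ⟨e, Nat.mem_divisors.mpr ⟨Nat.dvd_of_mul_dvd_mul_left hp.pos hd1, hm⟩, rfl⟩
  · refine (Finset.sum_eq_zero fun d hd => ?_).symm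
    simp only [Nat.mem_divisors, Finset.mem_filter] at hd
    exact absurd (hd.2.trans hd.1.1) h

/-- **The expansion of the Eisenstein form of level `p`.** -/
theorem hasExp_eisTwo : HasExp 1 (⇑(eisTwo p)) (fSeries p) := by
  have hp : p.Prime := Fact.out
  have h : (⇑(eisTwo p) : ℍ → ℂ) = (p : ℂ) • (fun τ => EisensteinSeries.E2 (heckeDiagMatrix p • τ))
      - EisensteinSeries.E2 := by
    funext τ
    rw [coe_eisTwo, eisTwoFun_apply]
    rfl
  have hser : PowerSeries.C (p : ℂ) * PowerSeries.expand p hp.ne_zero eSeries - eSeries =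
      fSeries p := by
    ext n
    rw [map_sub, PowerSeries.coeff_C_mul, PowerSeries.coeff_expand]
    simp only [eSeries, fSeries, PowerSeries.coeff_mk]
    rcases eq_or_ne n 0 with rfl | hn
    · simp
    · have hs : ((sigmaPrime p n : ℕ) : ℂ) +
          ((if p ∣ n then p * σ 1 (n / p) else 0 : ℕ) : ℂ) = (σ 1 n : ℕ) := by
        exact_mod_cast sigmaPrime_add_mul_sigma hn
      rw [if_neg hn, if_neg hn]
      split_ifs with hd h0
      · exact absurd (Nat.div_eq_zero_iff.mp h0) (by
          rintro (h | h)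
          · exact hp.ne_zero h
          · exact absurd (Nat.le_of_dvd (Nat.pos_of_ne_zero hn) hd) (not_le.mpr h))
      · rw [if_pos hd] at hs
        push_cast at hs
        linear_combination (-24 : ℂ) * hs
      · rw [if_neg hd, Nat.cast_zero, add_zero] at hs
        linear_combination (-24 : ℂ) * hs
  rw [h, ← hser]
  exact ((hasExp_E2.comp_heckeDiag).smul _).sub hasExp_E2

end Fermat.Agent.Eisenstein
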