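import Fermat.Prelude.Def_CuspForm_HeckeLocal
import Fermat.Prelude.Def_CuspForm_HeckeEvalForms
import Fermat.Prelude.Thm_CuspForm_intLattice_fg
import Fermat.Prelude.Thm_ModularFormClass_qCoeff_heckeT
import Fermat.Prelude.Thm_ModularFormClass_qCoeff_heckeU
import Fermat.Prelude.Thm_CongruenceSubgroup_one_mem_strictPeriods_Gamma0
import Fermat.Prelude.Thm_UpperHalfPlane_eq_of_forall_qCoeff_eq
import Fermat.Agent.Eisenstein.Sigma
/-!
# The Eisenstein quotient of the Hecke algebra

The quotient of the integral Hecke algebra of prime level by the Eisenstein ideal is `ℤ/n`, as soon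
as (lower bound) some integral cusp form is congruent mod `n` to a unit multiple of the Eisenstein
series and (upper bound) a congruence with the Eisenstein series mod `m` forces `m ∣ n`.
-/

set_option autoImplicit false

noncomputable section

open CuspForm ModularFormClass ModularCurve UpperHalfPlane
open P2MW.S_CuspForm_intLattice_fg.W3WsD

namespace Fermat.Agent.Eisenstein

variable {p : ℕ} [Fact p.Prime]

instance instNeZeroOfFactPrime : NeZero p := ⟨(Fact.out : p.Prime).ne_zero⟩

/-- Weight-2 cusp forms of level `N`. -/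
abbrev S2 (N : ℕ) := CuspForm (CongruenceSubgroup.Gamma0 N) 2

/-- A cusp form is determined by its q-coefficients at positive indices. -/
theorem eq_zero_of_qCoeff {N : ℕ} (f : S2 N) (h : ∀ n, 1 ≤ n → qCoeff (⇑f) n = 0) : f = 0 := by
  have h1 : ∀ n, qCoeff (⇑f) n = qCoeff (⇑(0 : S2 N)) n := by
    intro n
    rcases Nat.eq_zero_or_pos n with rfl | hn
    · rw [qCoeff_zero']
      exact CuspFormClass.qExpansion_coeff_zero f one_pos (hΓ N)
    · rw [qCoeff_zero', h n hn]
  have hper : ∀ g : S2 N, Function.Periodic (⇑g ∘ UpperHalfPlane.ofComplex) 1 := fun g => by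
    simpa using SlashInvariantFormClass.periodic_comp_ofComplex g (hΓ N)
  have : Fact (IsCusp OnePoint.infty
      (Subgroup.map (Matrix.SpecialLinearGroup.mapGL ℝ) (CongruenceSubgroup.Gamma0 N))) :=
    ⟨Subgroup.isCusp_of_mem_strictPeriods one_pos (hΓ N)⟩
  exact DFunLike.coe_injective (UpperHalfPlane.eq_of_forall_qCoeff_eq (hper f)
    (ModularFormClass.holo f) (ModularFormClass.bdd_at_infty f) (hper 0)
    (ModularFormClass.holo (0 : S2 N)) (ModularFormClass.bdd_at_infty (0 : S2 N)) h1)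

omit [Fact (Nat.Prime p)] in
theorem exists_coeffInt (g : ↥(intLattice p 2)) (k : ℕ) :
    ∃ m : ℤ, qCoeff (⇑(g : S2 p)) k = (m : ℂ) :=
  (mem_intLattice_iff (g : S2 p)).mp g.2 k

/-- The k-th coefficient, as an integer-valued functional on the lattice. -/
def coeffZ (p : ℕ) [Fact p.Prime] (k : ℕ) : ↥(intLattice p 2) →ₗ[ℤ] ℤ where
  toFun g := (exists_coeffInt g k).choose
  map_add' g g' := by
    apply Int.cast_injective (α := ℂ)
    push_cast
    rw [← (exists_coeffInt g k).choose_spec, ← (exists_coeffInt g' k).choose_spec,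
      ← (exists_coeffInt (g + g') k).choose_spec]
    exact qCoeff_add _ _ k
  map_smul' c g := by
    apply Int.cast_injective (α := ℂ)
    simp only [eq_intCast, Int.cast_id, smul_eq_mul]
    push_cast
    rw [← (exists_coeffInt g k).choose_spec, ← (exists_coeffInt (c • g) k).choose_spec]
    exact qCoeff_zsmul c _ k

theorem coeffZ_spec (g : ↥(intLattice p 2)) (k : ℕ) :
    (coeffZ p k g : ℂ) = qCoeff (⇑(g : S2 p)) k :=
  ((exists_coeffInt g k).choose_spec).symm

/-- The map from the abstract Hecke algebra to the lattice Hecke algebra. -/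
def heckeToLattice (p : ℕ) [Fact p.Prime] : HeckeAlg →+* ↥(heckeLatticeAlgebra p ∅) :=
  (latticeRestrictHom p ∅).toRingHom.comp (heckeEvalForms p 2)

theorem heckeEvalForms_surjective (N : ℕ) [NeZero N] :
    Function.Surjective (heckeEvalForms N 2) := by
  rintro ⟨t, ht⟩
  induction ht using Algebra.adjoin_induction with
  | mem x hx =>
    rcases hx with ⟨ℓ, hℓ, hℓN, -, rfl⟩ | ⟨q, hqN, hq, -, rfl⟩
    · exact ⟨heckeGen ⟨ℓ, hℓ⟩, heckeEvalForms_heckeGen_of_not_dvd hℓN⟩
    · exact ⟨heckeGen ⟨q, hq⟩, heckeEvalForms_heckeGen_of_dvd hqN⟩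
  | algebraMap r => exact ⟨MvPolynomial.C r, heckeEvalForms_C N 2 r⟩
  | add x y hx hy ihx ihy =>
    obtain ⟨a, ha⟩ := ihx
    obtain ⟨b, hb⟩ := ihy
    exact ⟨a + b, by rw [map_add, ha, hb]; rfl⟩
  | mul x y hx hy ihx ihy =>
    obtain ⟨a, ha⟩ := ihx
    obtain ⟨b, hb⟩ := ihy
    exact ⟨a * b, by rw [map_mul, ha, hb]; rfl⟩

theorem heckeToLattice_surjective : Function.Surjective (heckeToLattice p) :=
  (latticeRestrictHom_surjective p ∅).comp (heckeEvalForms_surjective p)

/-- The action of a Hecke polynomial on the lattice. -/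
def act (t : HeckeAlg) (g : ↥(intLattice p 2)) : ↥(intLattice p 2) :=
  (heckeToLattice p t : Module.End ℤ ↥(intLattice p 2)) g

theorem coe_act (t : HeckeAlg) (g : ↥(intLattice p 2)) :
    ((act t g : ↥(intLattice p 2)) : S2 p) =
      (heckeEvalForms p 2 t : Module.End ℂ (S2 p)) (g : S2 p) := rfl

theorem act_mul (s t : HeckeAlg) (g : ↥(intLattice p 2)) : act (s * t) g = act s (act t g) := by
  simp [act, map_mul]

theorem act_comm (s t : HeckeAlg) (g : ↥(intLattice p 2)) : act s (act t g) = act t (act s g) := by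
  rw [← act_mul, ← act_mul, mul_comm]

theorem act_sub (s t : HeckeAlg) (g : ↥(intLattice p 2)) :
    act (s - t) g = act s g - act t g := by
  simp [act, map_sub]

theorem act_add (s t : HeckeAlg) (g : ↥(intLattice p 2)) :
    act (s + t) g = act s g + act t g := by
  simp [act, map_add]

theorem act_C (c : ℤ) (g : ↥(intLattice p 2)) : act (MvPolynomial.C c) g = c • g := by
  have h : (MvPolynomial.C c : HeckeAlg) = (c : HeckeAlg) :=
    eq_intCast (MvPolynomial.C : ℤ →+* HeckeAlg) c
  rw [h, act, map_intCast]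
  change ((c : Module.End ℤ ↥(intLattice p 2))) g = c • g
  rw [show (c : Module.End ℤ ↥(intLattice p 2)) = c • 1 from (zsmul_one c).symm]
  rfl

theorem coeffZ_act_X (r : Nat.Primes) (g : ↥(intLattice p 2)) (j : ℕ) :
    coeffZ p j (act (heckeGen r) g) =
      coeffZ p (j * r) g +
        if (r : ℕ) ≠ p ∧ (r : ℕ) ∣ j then ((r : ℕ) : ℤ) * coeffZ p (j / r) g else 0 := by
  apply Int.cast_injective (α := ℂ)
  push_cast [coeffZ_spec, coe_act]
  have hp : p.Prime := Fact.out
  have h1 : (1 : ℝ) ∈ (Subgroup.map (Matrix.SpecialLinearGroup.mapGL ℝ)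
      (CongruenceSubgroup.Gamma0 p)).strictPeriods := hΓ p
  by_cases h : (r : ℕ) ∣ p
  · have hrp : (r : ℕ) = p := (Nat.prime_dvd_prime_iff_eq r.2 hp).mp h
    rw [heckeEvalForms_heckeGen_of_dvd h, heckeAlgebra.coe_U, CuspForm.coe_heckeULin_apply,
      ModularFormClass.qCoeff_heckeU (g : S2 p) h1 r.2.ne_zero, if_neg (by tauto)]
    simp [ModularForm.coeffHeckeU]
  · have hrp : (r : ℕ) ≠ p := fun e => h (e ▸ dvd_refl _)
    rw [heckeEvalForms_heckeGen_of_not_dvd h, heckeAlgebra.coe_T, CuspForm.coe_heckeTLin_apply,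
      ModularFormClass.qCoeff_heckeT (g : S2 p) h1 r.2.ne_zero, ModularForm.coeffHeckeT_apply]
    by_cases hj : (r : ℕ) ∣ j
    · rw [if_pos hj, if_pos ⟨hrp, hj⟩]
      norm_num
    · rw [if_neg hj, if_neg (fun e => hj e.2)]

/-- The eigenvalue character of the Eisenstein system. -/
abbrev eisChar (p : ℕ) : HeckeAlg →ₐ[ℤ] ℤ := MvPolynomial.aeval (eisensteinSystem p)

theorem eisChar_heckeGen (r : Nat.Primes) :
    eisChar p (heckeGen r) = if (r : ℕ) = p then 1 else 1 + ((r : ℕ) : ℤ) := by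
  rw [eisChar, aeval_heckeGen, eisensteinSystem]
  simp only [Nat.prime_dvd_prime_iff_eq r.2 (Fact.out : p.Prime)]

/-- Elements of the Hecke algebra computing the coefficients, with their Eisenstein eigenvalues. -/
theorem exists_coeff_element : ∀ k : ℕ, 1 ≤ k → ∃ t : HeckeAlg,
    (∀ g : ↥(intLattice p 2), coeffZ p 1 (act t g) = coeffZ p k g) ∧
      eisChar p t = (sigmaPrime p k : ℤ) := by
  intro k
  induction k using Nat.strong_induction_on with
  | _ k ih =>
    intro hk
    have hp : p.Prime := Fact.out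
    rcases eq_or_lt_of_le hk with rfl | hk1
    · exact ⟨1, fun g => by simp [act], by simp [sigmaPrime_one hp]⟩
    obtain ⟨r, hr, hrk⟩ := Nat.exists_prime_and_dvd hk1.ne'
    obtain ⟨j, rfl⟩ := hrk
    have hj : 1 ≤ j := Nat.one_le_iff_ne_zero.mpr fun e => by simp [e] at hk
    have hjlt : j < r * j := lt_mul_of_one_lt_left hj hr.one_lt
    obtain ⟨t, ht, htε⟩ := ih j hjlt hj
    have hσ := sigmaPrime_prime_mul hp hr (Nat.one_le_iff_ne_zero.mp hj)
    let r' : Nat.Primes := ⟨r, hr⟩
    by_cases hc : r ≠ p ∧ r ∣ j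
    · obtain ⟨i, rfl⟩ := hc.2
      have hi : 1 ≤ i := Nat.one_le_iff_ne_zero.mpr fun e => by simp [e] at hj
      have hdiv : r * i / r = i := Nat.mul_div_cancel_left i hr.pos
      obtain ⟨u, hu, huε⟩ := ih i ((lt_mul_of_one_lt_left hi hr.one_lt).trans hjlt) hi
      refine ⟨t * heckeGen r' - MvPolynomial.C (r : ℤ) * u, fun g => ?_, ?_⟩
      · rw [act_sub, act_mul, act_mul, act_C, map_sub, ht, map_smul, hu, coeffZ_act_X,
          if_pos hc]
        simp only [r', hdiv, smul_eq_mul]
        rw [mul_comm (r * i) r]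
        ring
      · rw [if_pos hc, if_neg hc.1, hdiv] at hσ
        have hσ' : (sigmaPrime p (r * (r * i)) : ℤ) + r * sigmaPrime p i =
            (1 + r) * sigmaPrime p (r * i) := by exact_mod_cast hσ
        rw [map_sub, map_mul, map_mul, htε, huε, eisChar_heckeGen, if_neg hc.1,
          MvPolynomial.aeval_C]
        simp only [r', eq_intCast, Int.cast_id]
        linarith
    · refine ⟨t * heckeGen r', fun g => ?_, ?_⟩
      · rw [act_mul, ht, coeffZ_act_X, if_neg hc, add_zero, mul_comm j]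
      · rw [if_neg hc, add_zero] at hσ
        rw [map_mul, htε, eisChar_heckeGen, hσ]
        simp only [r']
        split_ifs <;> push_cast <;> ring

theorem eq_zero_of_coeffZ (g : ↥(intLattice p 2)) (h : ∀ k, 1 ≤ k → coeffZ p k g = 0) : g = 0 :=
  Subtype.ext <| eq_zero_of_qCoeff (g : S2 p) fun k hk => by
    rw [← coeffZ_spec, h k hk, Int.cast_zero]

/-- The pairing between the lattice and the lattice Hecke algebra. -/
def pairing (p : ℕ) [Fact p.Prime] :
    ↥(intLattice p 2) →ₗ[ℤ] Module.Dual ℤ ↥(heckeLatticeAlgebra p ∅) :=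
  LinearMap.mk₂ ℤ (fun g t => coeffZ p 1 ((t : Module.End ℤ ↥(intLattice p 2)) g))
    (fun g g' t => by simp [map_add])
    (fun c g t => by simp)
    (fun g t t' => by simp [map_add])
    (fun c g t => by simp)

theorem pairing_heckeToLattice (g : ↥(intLattice p 2)) (t : HeckeAlg) :
    pairing p g (heckeToLattice p t) = coeffZ p 1 (act t g) := rfl

theorem pairing_injective : Function.Injective (pairing p) := by
  refine (injective_iff_map_eq_zero _).mpr fun g hg => eq_zero_of_coeffZ g fun k hk => ?_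
  obtain ⟨t, ht, -⟩ := exists_coeff_element (p := p) k hk
  rw [← ht g, ← pairing_heckeToLattice, hg]
  rfl

theorem pairing_flip_injective : Function.Injective (pairing p).flip := by
  refine (injective_iff_map_eq_zero _).mpr fun t ht => ?_
  obtain ⟨t, rfl⟩ := heckeToLattice_surjective t
  refine Subtype.ext (LinearMap.ext fun g => eq_zero_of_coeffZ _ fun k hk => ?_)
  obtain ⟨u, hu, -⟩ := exists_coeff_element (p := p) k hk
  have h := LinearMap.congr_fun ht (act u g)
  change coeffZ p 1 (act t (act u g)) = 0 at h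
  rw [act_comm, hu] at h
  exact h

theorem finrank_eq :
    Module.finrank ℤ ↥(intLattice p 2) = Module.finrank ℤ ↥(heckeLatticeAlgebra p ∅) := by
  have := intLattice.moduleFinite p
  have := intLattice.moduleFree p
  refine le_antisymm ?_ ?_
  · refine (LinearMap.finrank_le_finrank_of_injective (pairing_injective (p := p))).trans ?_
    rw [Module.finrank_linearMap, Module.finrank_self, mul_one]
  · refine (LinearMap.finrank_le_finrank_of_injective (pairing_flip_injective (p := p))).trans ?_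
    rw [Module.finrank_linearMap, Module.finrank_self, mul_one]

/-- A full-rank submodule of a finite free `ℤ`-module contains a nonzero multiple of every
vector. -/
theorem exists_smul_mem_range {A B : Type*} [AddCommGroup A] [AddCommGroup B]
    [Module.Free ℤ B] [Module.Finite ℤ B] (f : A →ₗ[ℤ] B) (hf : Function.Injective f)
    (hrank : Module.finrank ℤ A = Module.finrank ℤ B) (x : B) :
    ∃ D : ℤ, D ≠ 0 ∧ D • x ∈ LinearMap.range f := by
  have hfin : Finite (B ⧸ LinearMap.range f) :=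
    Submodule.finiteQuotientOfFreeOfRankEq _ (by rw [LinearMap.finrank_range_of_inj hf, hrank])
  refine ⟨(Nat.card (B ⧸ LinearMap.range f) : ℤ), ?_, ?_⟩
  · exact_mod_cast Nat.card_pos.ne'
  · rw [← Submodule.Quotient.mk_eq_zero (LinearMap.range f), Submodule.Quotient.mk_smul,
      Nat.cast_smul_eq_nsmul, card_nsmul_eq_zero']

/-- A ring receiving `ℤ` surjectively is some `ℤ/m`. -/
theorem exists_ringHom_zmod {R : Type*} [CommRing R] {h : ℤ →+* R} (hs : Function.Surjective h) :
    ∃ m : ℕ, h (m : ℤ) = 0 ∧ Nat.card R = m ∧ Nonempty (R →+* ZMod m) := by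
  obtain ⟨m, hm⟩ : ∃ m : ℕ, RingHom.ker h = Ideal.span {(m : ℤ)} := by
    refine ⟨(Submodule.IsPrincipal.generator (RingHom.ker h)).natAbs, ?_⟩
    rw [Int.span_natAbs, Ideal.span_singleton_generator]
  let e : R ≃+* ZMod m :=
    (RingHom.quotientKerEquivOfSurjective hs).symm.trans
      ((Ideal.quotEquivOfEq hm).trans (Int.quotientSpanNatEquivZMod m))
  refine ⟨m, ?_, ?_, ⟨e.toRingHom⟩⟩
  · rw [← RingHom.mem_ker, hm]
    exact Ideal.mem_span_singleton_self _
  · rw [Nat.card_congr e.toEquiv, Nat.card_zmod]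

/-- The pairing identifies the lattice with the dual of the lattice Hecke algebra. -/
theorem pairing_surjective : Function.Surjective (pairing p) := by
  have := intLattice.moduleFinite p
  have := intLattice.moduleFree p
  intro ψ
  obtain ⟨D, hD, hmem⟩ := exists_smul_mem_range (pairing p) pairing_injective
    (by rw [finrank_eq, Module.finrank_linearMap, Module.finrank_self, mul_one]) ψ
  obtain ⟨g₀, hg₀⟩ := hmem
  have hcoef : ∀ k, 1 ≤ k → ∃ z : ℤ, coeffZ p k g₀ = D * z := by
    intro k hk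
    obtain ⟨t, ht, -⟩ := exists_coeff_element (p := p) k hk
    refine ⟨ψ (heckeToLattice p t), ?_⟩
    rw [← ht g₀, ← pairing_heckeToLattice, hg₀]
    rfl
  have hmem' : ((D : ℂ)⁻¹ • (g₀ : S2 p)) ∈ intLattice p 2 := by
    rw [mem_intLattice_iff]
    intro k
    have hsmul : qCoeff (⇑((D : ℂ)⁻¹ • (g₀ : S2 p))) k = (D : ℂ)⁻¹ * qCoeff (⇑(g₀ : S2 p)) k := by
      simp only [qCoeff, FunLike.coe_smul]
      rw [ModularForm.qExpansion_smul one_pos (hΓ p) ((D : ℂ)⁻¹) (g₀ : S2 p)]
      simp
    rcases Nat.eq_zero_or_pos k with rfl | hk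
    · refine ⟨0, ?_⟩
      rw [Int.cast_zero]
      exact CuspFormClass.qExpansion_coeff_zero _ one_pos (hΓ p)
    · obtain ⟨z, hz⟩ := hcoef k hk
      refine ⟨z, ?_⟩
      rw [hsmul, ← coeffZ_spec, hz, Int.cast_mul, inv_mul_cancel_left₀ (Int.cast_ne_zero.mpr hD)]
  refine ⟨⟨_, hmem'⟩, ?_⟩
  have hg : D • (⟨_, hmem'⟩ : ↥(intLattice p 2)) = g₀ := by
    apply Subtype.ext
    change D • ((D : ℂ)⁻¹ • (g₀ : S2 p)) = g₀
    rw [← Int.cast_smul_eq_zsmul ℂ, smul_smul, mul_inv_cancel₀ (Int.cast_ne_zero.mpr hD), one_smul]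
  refine smul_right_injective _ hD ?_
  change D • pairing p ⟨_, hmem'⟩ = D • ψ
  rw [← map_smul, hg, hg₀]

/-- Congruences are propagated by the Hecke action. -/
theorem coeffZ_act_congr {n : ℤ} {c : ℤ} {G : ↥(intLattice p 2)}
    (hG : ∀ k, 1 ≤ k → coeffZ p k G ≡ c * (sigmaPrime p k : ℤ) [ZMOD n]) (t : HeckeAlg) :
    ∀ k, 1 ≤ k → coeffZ p k (act t G) ≡ eisChar p t * (c * (sigmaPrime p k : ℤ)) [ZMOD n] := by
  induction t using MvPolynomial.induction_on with
  | C a =>
    intro k hk
    rw [act_C, map_smul, MvPolynomial.aeval_C]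
    simp only [smul_eq_mul, eq_intCast, Int.cast_id]
    exact (hG k hk).mul_left a
  | add s t hs ht =>
    intro k hk
    rw [act_add, map_add, map_add, add_mul]
    exact (hs k hk).add (ht k hk)
  | mul_X s r hs =>
    intro k hk
    have hp : p.Prime := Fact.out
    have hσ := sigmaPrime_prime_mul hp r.2 (Nat.one_le_iff_ne_zero.mp hk)
    change coeffZ p k (act (s * heckeGen r) G) ≡
      eisChar p (s * heckeGen r) * (c * (sigmaPrime p k : ℤ)) [ZMOD n]
    rw [mul_comm s (heckeGen r), act_mul, coeffZ_act_X, map_mul, eisChar_heckeGen]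
    have h1 := hs (k * r) (Nat.one_le_iff_ne_zero.mpr
      (mul_ne_zero (Nat.one_le_iff_ne_zero.mp hk) r.2.ne_zero))
    rw [mul_comm k (r : ℕ)] at h1 ⊢
    by_cases hc : (r : ℕ) ≠ p ∧ (r : ℕ) ∣ k
    · rw [if_pos hc, if_neg hc.1] at hσ
      rw [if_pos hc, if_neg hc.1]
      have h2 := (hs (k / r) (Nat.div_pos (Nat.le_of_dvd hk hc.2) r.2.pos)).mul_left ((r : ℕ) : ℤ)
      refine (h1.add h2).trans (congrArg (· % n) ?_)
      have hσ' : (sigmaPrime p (r * k) : ℤ) + (r : ℕ) * sigmaPrime p (k / r) =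
          (1 + (r : ℕ)) * sigmaPrime p k := by exact_mod_cast hσ
      linear_combination (eisChar p s * c) * hσ'
    · rw [if_neg hc, add_zero] at hσ
      rw [if_neg hc, add_zero]
      refine h1.trans (congrArg (· % n) ?_)
      rw [hσ]
      split_ifs <;> push_cast <;> ring

/-- The index of the Eisenstein ideal, from the two congruence bounds. -/
theorem natCard_quotient_eq (n : ℕ)
    (hlow : ∃ G ∈ intLattice p 2, ∃ c : ℤ, IsCoprime c (n : ℤ) ∧
      ∀ k, 1 ≤ k → ∃ z : ℤ, qCoeff (⇑(G : S2 p)) k = (c * sigmaPrime p k + n * z : ℤ))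
    (hupp : ∀ g ∈ intLattice p 2, ∀ m : ℕ,
      (∀ k, 1 ≤ k → ∃ z : ℤ, qCoeff (⇑(g : S2 p)) k = (sigmaPrime p k + m * z : ℤ)) → m ∣ n) :
    Nat.card (↥(heckeLatticeAlgebra p ∅) ⧸
      Ideal.map (heckeToLattice p) (eisensteinIdeal p)) = n := by
  set J := Ideal.map (heckeToLattice p) (eisensteinIdeal p)
  let h : ℤ →+* ↥(heckeLatticeAlgebra p ∅) ⧸ J :=
    (Ideal.Quotient.mk J).comp ((heckeToLattice p).comp MvPolynomial.C)
  have hC : ∀ t : HeckeAlg, h (eisChar p t) = Ideal.Quotient.mk J (heckeToLattice p t) := by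
    intro t
    change Ideal.Quotient.mk J (heckeToLattice p (MvPolynomial.C (eisChar p t))) = _
    rw [Ideal.Quotient.mk_eq_mk_iff_sub_mem, ← map_sub]
    refine Ideal.mem_map_of_mem _ ?_
    rw [eisensteinIdeal, mem_eigenIdeal_iff, map_sub, MvPolynomial.aeval_C]
    simp
  have hsurj : Function.Surjective h := by
    intro x
    obtain ⟨y, rfl⟩ := Ideal.Quotient.mk_surjective x
    obtain ⟨t, rfl⟩ := heckeToLattice_surjective y
    exact ⟨eisChar p t, hC t⟩
  obtain ⟨m, hmker, hcard, ⟨e⟩⟩ := exists_ringHom_zmod hsurj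
  rw [hcard]
  refine Nat.dvd_antisymm ?_ ?_
  · -- upper bound
    let χ : ↥(heckeLatticeAlgebra p ∅) →ₗ[ℤ] ZMod m :=
      ((e.comp (Ideal.Quotient.mk J)).toAddMonoidHom).toIntLinearMap
    obtain ⟨ψ, hψ⟩ := Module.projective_lifting_property
      ((Int.castAddHom (ZMod m)).toIntLinearMap) χ ZMod.intCast_surjective
    obtain ⟨g, hg⟩ := pairing_surjective ψ
    refine hupp (g : S2 p) g.2 m fun k hk => ?_
    obtain ⟨t, ht, htε⟩ := exists_coeff_element (p := p) k hk
    have h1 : ((coeffZ p k g : ℤ) : ZMod m) = ((sigmaPrime p k : ℤ) : ZMod m) := by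
      rw [← ht g, ← pairing_heckeToLattice, hg]
      change ((Int.castAddHom (ZMod m)).toIntLinearMap.comp ψ) (heckeToLattice p t) = _
      rw [hψ]
      change e (Ideal.Quotient.mk J (heckeToLattice p t)) = _
      rw [← hC t, htε]
      exact eq_intCast (e.comp h) _
    obtain ⟨z, hz⟩ := (ZMod.intCast_eq_intCast_iff_dvd_sub _ _ m).mp h1.symm
    exact ⟨z, by rw [← coeffZ_spec, ← hz]; push_cast; ring⟩
  · -- lower bound
    obtain ⟨G, hGmem, c, hc, hG⟩ := hlow
    let G' : ↥(intLattice p 2) := ⟨G, hGmem⟩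
    have hG' : ∀ k, 1 ≤ k → coeffZ p k G' ≡ c * (sigmaPrime p k : ℤ) [ZMOD n] := by
      intro k hk
      obtain ⟨z, hz⟩ := hG k hk
      have : coeffZ p k G' = c * sigmaPrime p k + n * z :=
        Int.cast_injective (α := ℂ) (by rw [coeffZ_spec]; exact hz)
      rw [this]
      exact Int.modEq_iff_dvd.mpr ⟨-z, by ring⟩
    have hmem : heckeToLattice p (MvPolynomial.C (m : ℤ)) ∈ J :=
      Ideal.Quotient.eq_zero_iff_mem.mp hmker
    obtain ⟨i, hi, hieq⟩ := (Ideal.mem_map_iff_of_surjective _ heckeToLattice_surjective).mp hmem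
    set t : HeckeAlg := MvPolynomial.C (m : ℤ) - i with ht
    have hact : act t G' = 0 := by
      simp [act, ht, map_sub, hieq]
    have hi0 : eisChar p i = 0 := (mem_eigenIdeal_iff _ _).mp hi
    have h1 := coeffZ_act_congr hG' t 1 le_rfl
    rw [hact, map_zero, sigmaPrime_one (Fact.out : p.Prime), ht, map_sub, hi0,
      MvPolynomial.aeval_C] at h1
    simp only [eq_intCast, Int.cast_id, sub_zero, Nat.cast_one, mul_one] at h1
    have h2 : (n : ℤ) ∣ (m : ℤ) * c := by
      have := Int.modEq_iff_dvd.mp h1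
      simpa using this
    exact_mod_cast (hc.symm.dvd_of_dvd_mul_right h2)

end Fermat.Agent.Eisenstein
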