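import Fermat.Agent.Eisenstein.ThetaSeries
import Fermat.Agent.Eisenstein.ConjExp
/-!
# The quaternary theta series as a modular form

The theta series of a quaternary datum is a weight-2 form on `Γ₀(p)`; its q-expansion has constant
term `1` and even higher coefficients.
-/

set_option autoImplicit false

noncomputable section

open UpperHalfPlane ModularForm Complex CongruenceSubgroup
open scoped MatrixGroups ModularForm Manifold Real

namespace Fermat.Agent.Eisenstein

open ModularGroup (S T)

variable {p : ℕ} [Fact p.Prime]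

theorem cosetClass_mul_S' (γ : SL(2, ℤ)) :
    cosetClass (p := p) (γ * S) = permS (cosetClass γ) := by
  have h10 : (γ * S) 1 0 = γ 1 1 := by
    simp [Matrix.SpecialLinearGroup.coe_mul, ModularGroup.coe_S, Matrix.mul_apply, Fin.sum_univ_two]
  have h11 : (γ * S) 1 1 = -γ 1 0 := by
    simp [Matrix.SpecialLinearGroup.coe_mul, ModularGroup.coe_S, Matrix.mul_apply, Fin.sum_univ_two]
  have hdet : (γ 0 0 : ZMod p) * γ 1 1 - γ 0 1 * γ 1 0 = 1 := by
    have h := γ.2
    rw [Matrix.det_fin_two] at h
    exact_mod_cast congrArg (Int.cast : ℤ → ZMod p) h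
  simp only [cosetClass, h10, h11, Int.cast_neg]
  by_cases hc : (γ 1 0 : ZMod p) = 0
  · have hd : (γ 1 1 : ZMod p) ≠ 0 := fun hd => by simp [hc, hd] at hdet
    simp [hc, hd, permS]
  · by_cases hd : (γ 1 1 : ZMod p) = 0
    · simp [hc, hd, permS]
    · simp [hc, hd, permS, neg_div]

theorem cosetClass_mul_T' (γ : SL(2, ℤ)) :
    cosetClass (p := p) (γ * T) = permT (cosetClass γ) := by
  have h10 : (γ * T) 1 0 = γ 1 0 := by
    simp [Matrix.SpecialLinearGroup.coe_mul, ModularGroup.coe_T, Matrix.mul_apply, Fin.sum_univ_two]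
  have h11 : (γ * T) 1 1 = γ 1 0 + γ 1 1 := by
    simp [Matrix.SpecialLinearGroup.coe_mul, ModularGroup.coe_T, Matrix.mul_apply, Fin.sum_univ_two]
  simp only [cosetClass, h10, h11, Int.cast_add]
  by_cases hc : (γ 1 0 : ZMod p) = 0
  · simp [hc, permT]
  · simp [hc, permT, add_div, add_comm]

/-- A family of functions permuted by `S` and `T` like the conjugates is the family of
conjugates. -/
theorem slash_eq_family {k : ℤ} (F : Option (ZMod p) → ℍ → ℂ)
    (hS : ∀ x, F x ∣[k] S = F (permS x)) (hT : ∀ x, F x ∣[k] T = F (permT x)) (γ : SL(2, ℤ)) :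
    F none ∣[k] γ = F (cosetClass γ) := by
  have hmem : γ ∈ Subgroup.closure ({S, T} : Set SL(2, ℤ)) := by
    rw [SpecialLinearGroup.SL2Z_generators]; exact Subgroup.mem_top γ
  have hgen : ∀ (x : SL(2, ℤ)) (y : SL(2, ℤ)), y ∈ ({S, T} : Set SL(2, ℤ)) →
      F (cosetClass x) ∣[k] y = F (cosetClass (x * y)) := by
    intro x y hy
    rcases hy with hy | hy
    · rw [hy, hS, cosetClass_mul_S']
    · rw [Set.mem_singleton_iff.mp hy, hT, cosetClass_mul_T']
  induction hmem using Subgroup.closure_induction_right with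
  | one => simp [cosetClass]
  | mul_right x hx y hy ih => rw [SlashAction.slash_mul, ih, hgen x y hy]
  | mul_inv_cancel x hx y hy ih =>
    rw [SlashAction.slash_mul, ih]
    have h := hgen (x * y⁻¹) y hy
    rw [inv_mul_cancel_right] at h
    rw [← h, ← SlashAction.slash_mul, mul_inv_cancel, SlashAction.slash_one]

theorem slash_neg_one (f : ℍ → ℂ) : f ∣[(2 : ℤ)] (-1 : SL(2, ℤ)) = f := by
  funext τ
  rw [SL_slash_apply]
  simp [UpperHalfPlane.denom]

theorem S_mul_S : (S * S : SL(2, ℤ)) = -1 := by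
  apply Subtype.ext
  simp [ModularGroup.coe_S, Matrix.one_fin_two]

namespace QuatDatum

variable (D : QuatDatum p)

/-- The indicator of `0`. -/
def deltaZero : ZMod p × ZMod p → ℂ := fun u => if u = 0 then 1 else 0

/-- `-(1/p) ψ(j q̄)`. -/
def phase (j : ZMod p) : ZMod p × ZMod p → ℂ :=
  fun k => -(p : ℂ)⁻¹ * ZMod.stdAddChar (j * D.qbar k)

/-- The candidate conjugates of the theta series. -/
def thetaConj : Option (ZMod p) → ℍ → ℂ
  | none => D.theta deltaZero
  | some j => D.theta (D.phase j)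

theorem thetaConj_slash_T (x : Option (ZMod p)) :
    D.thetaConj x ∣[(2 : ℤ)] T = D.thetaConj (permT x) := by
  cases x with
  | none =>
    rw [thetaConj, D.theta_slash_T, permT, thetaConj]
    congr 1
    funext u
    simp only [deltaZero]
    split_ifs with h
    · simp [h, qbar, bD]
    · rw [zero_mul]
  | some j =>
    rw [thetaConj, D.theta_slash_T, permT, thetaConj]
    congr 1
    funext u
    simp only [phase]
    rw [add_mul, one_mul, AddChar.map_add_eq_mul, mul_assoc]

theorem fourier_deltaZero : D.fourier deltaZero = D.phase 0 := by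
  funext k
  simp [fourier, phase, deltaZero, beta]

theorem fourier_phase (hp : p ≠ 2) {j : ZMod p} (hj : j ≠ 0) :
    D.fourier (D.phase j) = D.phase (-j⁻¹) := by
  funext k
  have key : ∀ h : ZMod p × ZMod p,
      j * D.qbar (h + (-j⁻¹) • k) + D.beta k (h + (-j⁻¹) • k) =
        j * D.qbar h + (-j⁻¹) * D.qbar k := by
    intro h
    have := D.q_ne_zero_p
    simp only [qbar, beta, bD, Prod.fst_add, Prod.snd_add, Prod.smul_fst, Prod.smul_snd,
      smul_eq_mul]
    field_simp
    ring
  have hsum : ∑ h, D.phase j h * ZMod.stdAddChar (D.beta k h) =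
      ZMod.stdAddChar (-j⁻¹ * D.qbar k) := by
    rw [← Equiv.sum_comp (Equiv.addRight ((-j⁻¹) • k))]
    have hterm : ∀ h, D.phase j (h + (-j⁻¹) • k) *
        ZMod.stdAddChar (D.beta k (h + (-j⁻¹) • k)) =
        -(p : ℂ)⁻¹ * (ZMod.stdAddChar (j * D.qbar h) * ZMod.stdAddChar (-j⁻¹ * D.qbar k)) := by
      intro h
      rw [phase, mul_assoc, ← AddChar.map_add_eq_mul, key, AddChar.map_add_eq_mul]
    simp only [Equiv.coe_addRight, hterm]
    rw [← Finset.mul_sum, ← Finset.sum_mul, D.gauss_sum_qbar hp j hj]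
    have : (p : ℂ) ≠ 0 := Nat.cast_ne_zero.mpr (Fact.out : p.Prime).ne_zero
    field_simp
  rw [fourier, hsum]
  rfl

theorem thetaConj_slash_S (hp : p ≠ 2) (x : Option (ZMod p)) :
    D.thetaConj x ∣[(2 : ℤ)] S = D.thetaConj (permS x) := by
  have hnone : D.thetaConj none ∣[(2 : ℤ)] S = D.thetaConj (some 0) := by
    rw [thetaConj, D.theta_slash_S, D.fourier_deltaZero, thetaConj]
  cases x with
  | none => exact hnone
  | some j =>
    by_cases hj : j = 0
    · subst hj
      rw [← hnone, ← SlashAction.slash_mul, S_mul_S, slash_neg_one]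
      simp [permS]
    · simp only [permS, if_neg hj]
      rw [thetaConj, D.theta_slash_S, D.fourier_phase hp hj, thetaConj]

theorem isInv_theta (hp : p ≠ 2) : IsInv p 2 (D.thetaConj none) := by
  intro γ hγ
  rw [slash_eq_family D.thetaConj (D.thetaConj_slash_S hp) D.thetaConj_slash_T γ]
  have : cosetClass (p := p) γ = none := by
    simp [cosetClass, Gamma0_mem.mp hγ]
  rw [this]

/-- The theta series as a modular form. -/
def thetaForm (hp : p ≠ 2) : ModularForm (Gamma0 p) 2 :=
  mkForm 2 (D.thetaConj none) (D.isInv_theta hp)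
    ((D.hasExp_theta deltaZero).mdifferentiable (Fact.out : p.Prime).ne_zero)
    ((D.hasExp_theta deltaZero).isBoundedAtImInfty (Fact.out : p.Prime).ne_zero)
    (by
      rw [D.thetaConj_slash_S hp none]
      exact (D.hasExp_theta (D.phase 0)).isBoundedAtImInfty (Fact.out : p.Prime).ne_zero)

theorem coeff_thetaForm (hp : p ≠ 2) (n : ℕ) :
    (expInfty (D.thetaForm hp)).coeff n = (D.thetaSeries deltaZero).coeff (p * n) := by
  have hp0 : p ≠ 0 := (Fact.out : p.Prime).ne_zero
  have h := ((hasExp_expInfty (D.thetaForm hp)).expand hp0).unique hp0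
    (ModularFormClass.holo (D.thetaForm hp)) (D.hasExp_theta deltaZero)
  rw [← h, PowerSeries.coeff_expand_mul]

theorem level_eq_zero_iff (w : D.Dual) : D.level w = 0 ↔ w.1 = 0 := by
  constructor
  · intro h
    have h0 := D.level_mul w
    rw [h, Nat.cast_zero, zero_mul] at h0
    obtain ⟨⟨⟨a, b⟩, ⟨c, d⟩⟩, hw⟩ := w
    simp only [numer] at h0
    have hp1 : (1 : ℤ) ≤ p := by exact_mod_cast (Fact.out : p.Prime).one_le
    have hK : (1 : ℤ) ≤ D.K := by exact_mod_cast D.one_le_K
    have hlow : ∀ a b : ℤ, a ^ 2 + b ^ 2 ≤ 2 * bD D.K a b := fun a b => by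
      simp only [bD]
      nlinarith [sq_nonneg (a - b), mul_le_mul_of_nonneg_right hK (sq_nonneg a)]
    have h1 := hlow a b
    have h2 := hlow c d
    have h3 : bD D.K a b ≤ (p : ℤ) * bD D.K a b :=
      le_mul_of_one_le_left (by nlinarith [sq_nonneg a, sq_nonneg b]) hp1
    have ha := sq_nonneg a
    have hb := sq_nonneg b
    have hc := sq_nonneg c
    have hd := sq_nonneg d
    have : a = 0 := pow_eq_zero_iff two_ne_zero |>.mp (by linarith)
    subst this
    have : b = 0 := pow_eq_zero_iff two_ne_zero |>.mp (by linarith)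
    subst this
    have : c = 0 := pow_eq_zero_iff two_ne_zero |>.mp (by linarith)
    subst this
    have : d = 0 := pow_eq_zero_iff two_ne_zero |>.mp (by linarith)
    subst this
    rfl
  · intro h
    have h0 := D.level_mul w
    have hn : D.numer w.1 = 0 := by simp [h, numer, bD]
    rw [hn, mul_eq_zero] at h0
    exact_mod_cast h0.resolve_right (by exact_mod_cast D.prime_q.ne_zero)

/-- Negation on the dual lattice. -/
def dualNeg (w : D.Dual) : D.Dual := ⟨-w.1, by
  have e : D.lin (-w.1) = -D.lin w.1 := by simp [lin]; ring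
  rw [e]
  exact dvd_neg.mpr w.2⟩

omit [Fact (Nat.Prime p)] in
theorem level_dualNeg (w : D.Dual) : D.level (D.dualNeg w) = D.level w := by
  simp [level, dualNeg, numer, bD]

theorem thetaSeries_coeff_zero : (D.thetaSeries deltaZero).coeff 0 = 1 := by
  rw [thetaSeries, PowerSeries.coeff_mk]
  let w0 : {w : D.Dual // D.level w = 0} :=
    ⟨⟨0, by simp [lin]⟩, (D.level_eq_zero_iff _).mpr rfl⟩
  have huniq : ∀ w : {w : D.Dual // D.level w = 0}, w = w0 := fun w =>
    Subtype.ext (Subtype.ext ((D.level_eq_zero_iff w.1).mp w.2))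
  have : Unique {w : D.Dual // D.level w = 0} := ⟨⟨w0⟩, huniq⟩
  rw [tsum_fintype, Fintype.sum_unique, huniq default]
  simp [w0, deltaZero, red]

theorem thetaSeries_coeff_even {n : ℕ} (hn : n ≠ 0) :
    ∃ m : ℕ, (D.thetaSeries deltaZero).coeff n = 2 * (m : ℂ) := by
  classical
  rw [thetaSeries, PowerSeries.coeff_mk]
  have := D.finite_fibre n
  have := Fintype.ofFinite {w : D.Dual // D.level w = n}
  rw [tsum_fintype]
  simp only [deltaZero, Finset.sum_boole]
  set s := Finset.univ.filter
    (fun w : {w : D.Dual // D.level w = n} => red (p := p) w.1.1 = 0) with hs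
  have h2 : ((s.card : ℕ) : ZMod 2) = 0 := by
    rw [Finset.card_eq_sum_ones, Nat.cast_sum]
    refine Finset.sum_involution
      (fun w _ => ⟨D.dualNeg w.1, (D.level_dualNeg w.1).trans w.2⟩) (fun w _ => by decide)
      (fun w _ _ hw => hn ?_) (fun w hw => ?_) (fun w _ => ?_)
    · rw [← w.2, D.level_eq_zero_iff]
      have h1 : -w.1.1 = w.1.1 := congrArg (fun v : {w : D.Dual // D.level w = n} => v.1.1) hw
      simp only [Prod.ext_iff, Prod.fst_neg, Prod.snd_neg] at h1 ⊢
      simp only [Prod.fst_zero, Prod.snd_zero]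
      omega
    · simp only [hs, Finset.mem_filter, Finset.mem_univ, true_and] at hw ⊢
      simp only [red, Prod.mk_eq_zero] at hw ⊢
      simp [dualNeg, hw.1, hw.2]
    · exact Subtype.ext (Subtype.ext (by simp [dualNeg]))
  obtain ⟨m, hm⟩ := (ZMod.natCast_eq_zero_iff _ 2).mp h2
  exact ⟨m, by rw [hm]; push_cast; ring⟩

end QuatDatum

/-- For odd `p` there is a weight-2 form of level `p` with constant term `1` and all other
coefficients even integers. -/
theorem exists_thetaForm (hp : p ≠ 2) :
    ∃ θ : ModularForm (Gamma0 p) 2, (expInfty θ).coeff 0 = 1 ∧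
      ∀ k, 1 ≤ k → ∃ m : ℕ, (expInfty θ).coeff k = 2 * (m : ℂ) := by
  obtain ⟨D⟩ := exists_quatDatum p hp
  refine ⟨D.thetaForm hp, ?_, fun k hk => ?_⟩
  · rw [D.coeff_thetaForm, mul_zero, D.thetaSeries_coeff_zero]
  · rw [D.coeff_thetaForm]
    exact D.thetaSeries_coeff_even
      (mul_ne_zero (Fact.out : p.Prime).ne_zero (by omega))

end Fermat.Agent.Eisenstein
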