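import Fermat.Agent.Eisenstein.HeckeQuotient
import Fermat.Agent.Eisenstein.ThetaForm
import Fermat.Prelude.Def_ModularCurve_ModularUnit
/-!
# The lower bound on the Eisenstein index

Lower bound: an integral cusp form of prime level `p` congruent to a unit multiple of the Eisenstein
series mod the numerator of `(p-1)/12`.
-/

set_option autoImplicit false

noncomputable section

open UpperHalfPlane ModularForm CongruenceSubgroup ModularCurve
open scoped MatrixGroups ModularForm Manifold

namespace Fermat.Agent.Eisenstein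

variable {p : ℕ} [Fact p.Prime]

theorem isZeroAtImInfty_conj (f : ModularForm (Gamma0 p) 2) (h0 : (expInfty f).coeff 0 = 0)
    (x : Option (ZMod p)) : IsZeroAtImInfty (conj 2 (⇑f) x) := by
  have hp : p ≠ 0 := (Fact.out : p.Prime).ne_zero
  refine (hasExp_conj f x).isZeroAtImInfty hp (mdifferentiable_conj (ModularFormClass.holo f) x) ?_
  cases x with
  | none => simp [conjSeries, PowerSeries.coeff_expand, h0]
  | some j =>
    simp only [conjSeries, PowerSeries.coeff_C_mul, PowerSeries.coeff_rescale,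
      coeff_expInfty_heckeU, zero_mul, h0, mul_zero]

/-- A form with vanishing constant term at `∞` is a cusp form. -/
def toS2 (f : ModularForm (Gamma0 p) 2) (h0 : (expInfty f).coeff 0 = 0) : S2 p where
  toFun := ⇑f
  slash_action_eq' := f.slash_action_eq'
  holo' := ModularFormClass.holo f
  zero_at_cusps' {c} hc := by
    rw [Subgroup.IsArithmetic.isCusp_iff_isCusp_SL2Z] at hc
    rw [OnePoint.isZeroAt_iff_forall_SL2Z hc]
    intro γ _
    rw [slash_eq_conj (isInv_form f) γ]
    exact isZeroAtImInfty_conj f h0 _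

/-- The congruent form for odd `p`. -/
theorem exists_congr_odd (hp2 : p ≠ 2) :
    ∃ c : ℤ, IsCoprime c (eisensteinNumerator p : ℤ) ∧
      ∃ f : ModularForm (Gamma0 p) 2, (expInfty f).coeff 0 = 0 ∧
        ∀ k, 1 ≤ k → ∃ z : ℤ,
          (expInfty f).coeff k = (c * sigmaPrime p k + eisensteinNumerator p * z : ℤ) := by
  have hp : p.Prime := Fact.out
  obtain ⟨θ, hθ0, hθ⟩ := exists_thetaForm (p := p) hp2
  set d := Nat.gcd (p - 1) 12 with hd
  set n := eisensteinNumerator p with hn
  have hd0 : d ≠ 0 := (Nat.gcd_pos_of_pos_right _ (by norm_num)).ne'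
  have hdn : d * n = p - 1 := Nat.mul_div_cancel' (Nat.gcd_dvd_left _ _)
  have hde : d * (12 / d) = 12 := Nat.mul_div_cancel' (Nat.gcd_dvd_right _ _)
  have hcop : Nat.Coprime (12 / d) n := by
    have := Nat.coprime_div_gcd_div_gcd (m := p - 1) (n := 12)
      (Nat.gcd_pos_of_pos_right _ (by norm_num))
    exact this.symm
  have hE : expInfty (eisTwo p) = fSeries p :=
    (hasExp_expInfty (eisTwo p)).unique one_ne_zero (ModularFormClass.holo (eisTwo p)) hasExp_eisTwo
  have hdC : (d : ℂ) ≠ 0 := Nat.cast_ne_zero.mpr hd0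
  have hΓ := one_mem_strictPeriods_Gamma0 p
  set f := (1 / (2 * (d : ℂ))) • eisTwo p - ((n : ℂ) / 2) • θ with hf
  have hexp : expInfty f = (1 / (2 * (d : ℂ))) • fSeries p - ((n : ℂ) / 2) • expInfty θ := by
    rw [hf, expInfty, FunLike.coe_sub, ModularForm.qExpansion_sub one_pos hΓ, FunLike.coe_smul,
      FunLike.coe_smul, ModularForm.qExpansion_smul one_pos hΓ,
      ModularForm.qExpansion_smul one_pos hΓ, ← hE]
  refine ⟨((12 / d : ℕ) : ℤ),
    Int.isCoprime_iff_nat_coprime.mpr (by rwa [Int.natAbs_natCast, Int.natAbs_natCast]), f, ?_,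
    fun k hk => ?_⟩
  · have hpn : (p : ℂ) - 1 = (d : ℂ) * n := by
      rw [← Nat.cast_mul, hdn, Nat.cast_sub hp.one_le, Nat.cast_one]
    rw [hexp, map_sub, PowerSeries.coeff_smul, PowerSeries.coeff_smul, hθ0, fSeries,
      PowerSeries.coeff_mk, if_pos rfl, hpn]
    simp only [smul_eq_mul]
    field_simp
    ring
  · obtain ⟨m, hm⟩ := hθ k hk
    refine ⟨-(m : ℤ), ?_⟩
    have he : (d : ℂ) * ((12 / d : ℕ) : ℂ) = 12 := by exact_mod_cast hde
    rw [hexp, map_sub, PowerSeries.coeff_smul, PowerSeries.coeff_smul, hm, fSeries,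
      PowerSeries.coeff_mk, if_neg (by omega)]
    simp only [smul_eq_mul, Int.cast_add, Int.cast_mul, Int.cast_neg, Int.cast_natCast]
    field_simp
    linear_combination (-2 * (sigmaPrime p k : ℂ)) * he

/-- The lower bound on the index of the Eisenstein ideal. -/
theorem exists_congr_cuspForm :
    ∃ G ∈ CuspForm.intLattice p 2, ∃ c : ℤ, IsCoprime c (eisensteinNumerator p : ℤ) ∧
      ∀ k, 1 ≤ k → ∃ z : ℤ, ModularFormClass.qCoeff (⇑(G : S2 p)) k =
        (c * sigmaPrime p k + eisensteinNumerator p * z : ℤ) := by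
  by_cases hp2 : p = 2
  · subst hp2
    have hn : eisensteinNumerator 2 = 1 := by simp [eisensteinNumerator]
    refine ⟨0, Submodule.zero_mem _, 0, ?_, fun k _ => ⟨0, ?_⟩⟩
    · simpa [hn] using isCoprime_one_right
    · simp [ModularFormClass.qCoeff, UpperHalfPlane.qExpansion_zero]
  · obtain ⟨c, hc, f, h0, hf⟩ := exists_congr_odd (p := p) hp2
    refine ⟨toS2 f h0, (P2MW.S_CuspForm_intLattice_fg.W3WsD.mem_intLattice_iff _).mpr fun k => ?_,
      c, hc, hf⟩
    rcases Nat.eq_zero_or_pos k with rfl | hk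
    · exact ⟨0, by rw [Int.cast_zero]; exact h0⟩
    · obtain ⟨z, hz⟩ := hf k hk
      exact ⟨_, hz⟩

end Fermat.Agent.Eisenstein
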