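import Mathlib
/-!
# Poisson summation for binary and quaternary Gaussians

Poisson summation for shifted Gaussians attached to the binary form `a² + ab + K b²` and to the
quaternary form `(a² + ab + K b²) + p (c² + cd + K d²)`, from the Jacobi theta functional equation.
-/

set_option autoImplicit false

noncomputable section

open Complex UpperHalfPlane
open scoped Real

namespace Fermat.Agent.Eisenstein

/-- `exp(2πi z)`. -/
def ex (z : ℂ) : ℂ := Complex.exp (2 * π * Complex.I * z)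

theorem ex_add (z w : ℂ) : ex (z + w) = ex z * ex w := by
  simp only [ex, mul_add, Complex.exp_add]

theorem norm_ex (z : ℂ) : ‖ex z‖ = Real.exp (-(2 * π * z.im)) := by
  rw [ex, Complex.norm_exp]
  congr 1
  simp

theorem shifted_gaussian {α : ℝ} (hα : 0 < α) (τ : ℍ) (s l : ℂ) :
    ∑' b : ℤ, ex (-(α : ℂ) * (b + s) ^ 2 / (τ : ℂ) + l * (b + s)) =
      (-Complex.I * (τ : ℂ) / (2 * α)) ^ (1 / 2 : ℂ) *
        ∑' n : ℤ, ex ((τ : ℂ) * (n - l) ^ 2 / (4 * α) + n * s) := by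
  have hτ : (τ : ℂ) ≠ 0 := τ.ne_zero
  have hα' : (α : ℂ) ≠ 0 := by exact_mod_cast hα.ne'
  set σ : ℂ := -2 * α / τ with hσ
  set z : ℂ := l - 2 * α * s / τ with hz
  have hσ0 : σ ≠ 0 := by
    rw [hσ]
    exact div_ne_zero (mul_ne_zero (by norm_num) hα') hτ
  have hL : ∑' b : ℤ, ex (-(α : ℂ) * (b + s) ^ 2 / (τ : ℂ) + l * (b + s)) =
      ex (-(α : ℂ) * s ^ 2 / τ + l * s) * jacobiTheta₂ z σ := by
    rw [jacobiTheta₂, ← tsum_mul_left]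
    refine tsum_congr fun b => ?_
    simp only [ex, jacobiTheta₂_term, ← Complex.exp_add, hz, hσ]
    congr 1
    field_simp
    ring
  have hR : ∑' n : ℤ, ex ((τ : ℂ) * (n - l) ^ 2 / (4 * α) + n * s) =
      ex ((τ : ℂ) * l ^ 2 / (4 * α)) *
        jacobiTheta₂ (s - τ * l / (2 * α)) ((τ : ℂ) / (2 * α)) := by
    rw [jacobiTheta₂, ← tsum_mul_left]
    refine tsum_congr fun n => ?_
    simp only [ex, jacobiTheta₂_term, ← Complex.exp_add]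
    congr 1
    field_simp
    ring
  rw [hL, hR, jacobiTheta₂_functional_equation z σ]
  have h1 : z / σ = s - τ * l / (2 * α) := by
    rw [hz, hσ]
    field_simp
    ring
  have h2 : -1 / σ = (τ : ℂ) / (2 * α) := by
    rw [hσ]
    field_simp
  set x : ℂ := -Complex.I * (τ : ℂ) / (2 * α) with hx
  have h3 : -Complex.I * σ = x⁻¹ := by
    rw [hx, hσ]
    field_simp
    linear_combination Complex.I_sq
  have harg : x.arg ≠ π := by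
    intro h
    have h4 := (Complex.arg_eq_pi_iff.mp h).1
    have h5 : x.re = (τ : ℂ).im / (2 * α) := by
      rw [hx, show (2 : ℂ) * (α : ℂ) = ((2 * α : ℝ) : ℂ) by push_cast; ring, Complex.div_ofReal_re]
      simp
    rw [h5] at h4
    exact absurd h4 (not_lt.mpr (div_nonneg τ.im_pos.le (by positivity)))
  rw [h1, h2, h3, Complex.inv_cpow x _ harg, one_div, inv_inv]
  have h6 : ex (-(α : ℂ) * s ^ 2 / τ + l * s) * Complex.exp (-π * Complex.I * z ^ 2 / σ) =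
      ex ((τ : ℂ) * l ^ 2 / (4 * α)) := by
    simp only [ex, ← Complex.exp_add]
    congr 1
    rw [hz, hσ]
    field_simp
    ring
  rw [← h6]
  ring

theorem summable_gauss {c : ℝ} (hc : 0 < c) (s : ℝ) :
    Summable fun n : ℤ => Real.exp (-c * ((n : ℝ) + s) ^ 2) := by
  have h := ((summable_jacobiTheta₂_term_iff ((c * s / π : ℝ) * Complex.I)
    ((c / π : ℝ) * Complex.I)).mpr (by simp; positivity)).norm
  refine (h.mul_right (Real.exp (-c * s ^ 2))).congr fun n => ?_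
  rw [norm_jacobiTheta₂_term, ← Real.exp_add]
  congr 1
  simp
  field_simp
  ring

/-- The binary form `a² + ab + K b²`. -/
def bF (K : ℕ) {R : Type*} [CommRing R] (a b : R) : R := a ^ 2 + a * b + (K : R) * b ^ 2

/-- The dual binary form `K m² - mn + n²`. -/
def bD (K : ℕ) {R : Type*} [CommRing R] (m n : R) : R := (K : R) * m ^ 2 - m * n + n ^ 2

theorem bF_lower {K : ℕ} (hK : 1 ≤ K) (a b : ℝ) : (a ^ 2 + b ^ 2) / 2 ≤ bF K a b := by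
  have : (1 : ℝ) ≤ K := by exact_mod_cast hK
  rw [bF]
  nlinarith [sq_nonneg (a + b), mul_le_mul_of_nonneg_right this (sq_nonneg b)]

theorem bD_lower {K : ℕ} (hK : 1 ≤ K) (m n : ℝ) : (m ^ 2 + n ^ 2) / 2 ≤ bD K m n := by
  have : (1 : ℝ) ≤ K := by exact_mod_cast hK
  rw [bD]
  nlinarith [sq_nonneg (m - n), mul_le_mul_of_nonneg_right this (sq_nonneg m)]

theorem summable_norm_of_bound {c c' : ℝ} (hc : 0 < c) (hc' : 0 < c') {f : ℤ × ℤ → ℂ} (s s' : ℝ)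
    (hf : ∀ x : ℤ × ℤ, ‖f x‖ ≤
      Real.exp (-c * ((x.1 : ℝ) + s) ^ 2) * Real.exp (-c' * ((x.2 : ℝ) + s') ^ 2)) :
    Summable fun x => ‖f x‖ :=
  Summable.of_nonneg_of_le (fun _ => norm_nonneg _) hf
    ((summable_gauss hc s).mul_of_nonneg (summable_gauss hc' s')
      (fun _ => (Real.exp_pos _).le) (fun _ => (Real.exp_pos _).le))

theorem neg_one_div_im_pos (τ : ℍ) : 0 < (-1 / (τ : ℂ)).im := by
  rw [neg_div, Complex.neg_im, one_div, Complex.inv_im, neg_div, neg_neg]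
  exact div_pos τ.im_pos (Complex.normSq_pos.mpr τ.ne_zero)

theorem neg_div_im (τ : ℍ) (X : ℝ) : (-(X : ℂ) / (τ : ℂ)).im = X * (-1 / (τ : ℂ)).im := by
  rw [show -(X : ℂ) / (τ : ℂ) = (X : ℂ) * (-1 / (τ : ℂ)) by ring, Complex.im_ofReal_mul]

theorem summable_norm_lhs {K : ℕ} (hK : 1 ≤ K) (τ : ℍ) (v₀ v₁ : ℝ) :
    Summable fun x : ℤ × ℤ =>
      ‖ex (-(bF K ((x.1 : ℂ) + v₀) ((x.2 : ℂ) + v₁)) / (τ : ℂ))‖ := by
  have hc : 0 < π * (-1 / (τ : ℂ)).im := mul_pos Real.pi_pos (neg_one_div_im_pos τ)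
  refine summable_norm_of_bound hc hc v₀ v₁ fun x => ?_
  rw [norm_ex, ← Real.exp_add, Real.exp_le_exp,
    show bF K ((x.1 : ℂ) + v₀) ((x.2 : ℂ) + v₁) =
      ((bF K ((x.1 : ℝ) + v₀) ((x.2 : ℝ) + v₁) : ℝ) : ℂ) by simp [bF], neg_div_im]
  nlinarith [mul_le_mul_of_nonneg_left (bF_lower hK ((x.1 : ℝ) + v₀) ((x.2 : ℝ) + v₁)) hc.le]

theorem summable_norm_rhs {K : ℕ} (hK : 1 ≤ K) {d : ℝ} (hd : 0 < d) (τ : ℍ) (v₀ v₁ : ℝ) :
    Summable fun w : ℤ × ℤ =>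
      ‖ex ((τ : ℂ) * bD K (w.1 : ℂ) (w.2 : ℂ) / d + ((w.1 : ℂ) * v₀ + (w.2 : ℂ) * v₁))‖ := by
  have hc : 0 < π * (τ : ℂ).im / d := div_pos (mul_pos Real.pi_pos τ.im_pos) hd
  refine summable_norm_of_bound hc hc 0 0 fun x => ?_
  rw [norm_ex, ← Real.exp_add, Real.exp_le_exp,
    show ((τ : ℂ) * bD K (x.1 : ℂ) (x.2 : ℂ) / d + ((x.1 : ℂ) * v₀ + (x.2 : ℂ) * v₁)).im =
      (τ : ℂ).im * bD K (x.1 : ℝ) (x.2 : ℝ) / d by
      rw [show bD K (x.1 : ℂ) (x.2 : ℂ) = ((bD K (x.1 : ℝ) (x.2 : ℝ) : ℝ) : ℂ) by simp [bD]]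
      simp [Complex.div_ofReal_im]]
  have h := mul_le_mul_of_nonneg_left (bD_lower hK (x.1 : ℝ) (x.2 : ℝ)) hc.le
  rw [mul_div_assoc] at h
  ring_nf
  ring_nf at h
  linarith

/-- Poisson summation in two variables. -/
theorem gaussian_two {K : ℕ} (hK : 1 ≤ K) (τ : ℍ) (v₀ v₁ : ℝ) :
    ∑' x : ℤ × ℤ, ex (-(bF K ((x.1 : ℂ) + v₀) ((x.2 : ℂ) + v₁)) / (τ : ℂ)) =
      (-Complex.I * (τ : ℂ) / (Real.sqrt (4 * K - 1) : ℝ)) *
        ∑' w : ℤ × ℤ, ex ((τ : ℂ) * bD K (w.1 : ℂ) (w.2 : ℂ) / ((4 * K - 1 : ℝ) : ℂ) +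
          ((w.1 : ℂ) * v₀ + (w.2 : ℂ) * v₁)) := by
  set q : ℝ := 4 * K - 1 with hq
  have hq0 : 0 < q := by
    have : (1 : ℝ) ≤ K := by exact_mod_cast hK
    rw [hq]; linarith
  have hqC : (q : ℂ) = 4 * K - 1 := by rw [hq]; push_cast; ring
  have hqne : (q : ℂ) ≠ 0 := by exact_mod_cast hq0.ne'
  have hτ : (τ : ℂ) ≠ 0 := τ.ne_zero
  have hS := (summable_norm_lhs hK τ v₀ v₁).of_norm
  have hR := (summable_norm_rhs hK hq0 τ v₀ v₁).of_norm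
  set c₁ : ℂ := (-Complex.I * (τ : ℂ) / (2 * ((1 : ℝ) : ℂ))) ^ (1 / 2 : ℂ) with hc₁
  set c₂ : ℂ := (-Complex.I * (τ : ℂ) / (2 * ((q / 4 : ℝ) : ℂ))) ^ (1 / 2 : ℂ) with hc₂
  set H : ℤ → ℤ → ℂ := fun b m => ex (-((q / 4 : ℝ) : ℂ) * ((b : ℂ) + v₁) ^ 2 / τ) *
    ex ((τ : ℂ) * (m : ℂ) ^ 2 / 4 + (m : ℂ) * (v₀ + ((b : ℂ) + v₁) / 2)) with hH
  have hHsum : Summable (Function.uncurry H) := by
    refine Summable.of_norm (summable_norm_of_bound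
      (c := 2 * π * (q / 4) * (-1 / (τ : ℂ)).im) (c' := 2 * π * (τ : ℂ).im / 4)
      (by have := neg_one_div_im_pos τ; positivity)
      (by have := τ.im_pos; positivity) v₁ 0 fun x => le_of_eq ?_)
    simp only [hH, Function.uncurry, norm_mul, norm_ex]
    rw [show -((q / 4 : ℝ) : ℂ) * ((x.1 : ℂ) + v₁) ^ 2 / τ =
        -(((q / 4) * ((x.1 : ℝ) + v₁) ^ 2 : ℝ) : ℂ) / τ by push_cast; ring, neg_div_im,
      show Complex.im ((τ : ℂ) * (x.2 : ℂ) ^ 2 / 4 +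
          (x.2 : ℂ) * ((v₀ : ℂ) + ((x.1 : ℂ) + (v₁ : ℂ)) / 2)) =
        (τ : ℂ).im * (x.2 : ℝ) ^ 2 / 4 by simp [pow_two, Complex.mul_im, Complex.add_im]]
    congr 1 <;> congr 1 <;> ring
  rw [← (Equiv.prodComm ℤ ℤ).tsum_eq]
  rw [Summable.tsum_prod (by exact hS.comp_injective (Equiv.prodComm ℤ ℤ).injective)]
  have hinner : ∀ b : ℤ,
      ∑' a : ℤ, ex (-(bF K ((a : ℂ) + v₀) ((b : ℂ) + v₁)) / (τ : ℂ)) = c₁ * ∑' m : ℤ, H b m := by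
    intro b
    have e : ∀ a : ℤ, ex (-(bF K ((a : ℂ) + v₀) ((b : ℂ) + v₁)) / (τ : ℂ)) =
        ex (-((q / 4 : ℝ) : ℂ) * ((b : ℂ) + v₁) ^ 2 / τ) *
          ex (-((1 : ℝ) : ℂ) * ((a : ℂ) + (v₀ + ((b : ℂ) + v₁) / 2)) ^ 2 / τ +
            0 * ((a : ℂ) + (v₀ + ((b : ℂ) + v₁) / 2))) := by
      intro a
      rw [← ex_add]
      congr 1
      push_cast
      rw [hqC, bF]
      field_simp
      ring
    rw [tsum_congr e, tsum_mul_left, shifted_gaussian one_pos τ, ← hc₁, ← tsum_mul_left,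
      ← tsum_mul_left, ← tsum_mul_left]
    refine tsum_congr fun m => ?_
    simp only [hH]
    rw [show (τ : ℂ) * ((m : ℂ) - 0) ^ 2 / (4 * ((1 : ℝ) : ℂ)) = (τ : ℂ) * (m : ℂ) ^ 2 / 4 by
      push_cast; ring]
    ring
  have houter : ∀ m : ℤ, ∑' b : ℤ, H b m = c₂ * ∑' n : ℤ,
      ex ((τ : ℂ) * bD K (m : ℂ) (n : ℂ) / (q : ℂ) + ((m : ℂ) * v₀ + (n : ℂ) * v₁)) := by
    intro m
    have e : ∀ b : ℤ, H b m = ex ((τ : ℂ) * (m : ℂ) ^ 2 / 4 + (m : ℂ) * v₀) *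
        ex (-((q / 4 : ℝ) : ℂ) * ((b : ℂ) + v₁) ^ 2 / τ + (m : ℂ) / 2 * ((b : ℂ) + v₁)) := by
      intro b
      simp only [hH, ← ex_add]
      congr 1
      ring
    rw [tsum_congr e, tsum_mul_left, shifted_gaussian (by positivity) τ, ← hc₂, ← tsum_mul_left,
      ← tsum_mul_left, ← tsum_mul_left]
    refine tsum_congr fun n => ?_
    rw [mul_comm, mul_assoc, ← ex_add]
    congr 2
    push_cast
    rw [bD]
    field_simp
    rw [hqC]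
    ring
  simp only [Equiv.prodComm_apply, Prod.swap_prod_mk]
  rw [tsum_congr hinner, tsum_mul_left, ← hHsum.tsum_comm, tsum_congr houter, tsum_mul_left,
    ← Summable.tsum_prod (f := fun w : ℤ × ℤ =>
      ex ((τ : ℂ) * bD K (w.1 : ℂ) (w.2 : ℂ) / (q : ℂ) + ((w.1 : ℂ) * v₀ + (w.2 : ℂ) * v₁))) hR,
    ← mul_assoc]
  congr 1
  -- the product of the two square roots
  have hsq : (-Complex.I * (τ : ℂ) / (2 * ((q / 4 : ℝ) : ℂ))) =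
      ((4 / q : ℝ) : ℂ) * (-Complex.I * (τ : ℂ) / (2 * ((1 : ℝ) : ℂ))) := by
    push_cast
    field_simp
  set x : ℂ := -Complex.I * (τ : ℂ) / (2 * ((1 : ℝ) : ℂ)) with hxdef
  have hx0 : x ≠ 0 := by
    rw [hxdef]; simp [Complex.I_ne_zero, hτ]
  have hmul : c₂ = ((Real.sqrt (4 / q) : ℝ) : ℂ) * x ^ (1 / 2 : ℂ) := by
    have hr : (0 : ℝ) < 4 / q := by positivity
    have hr' : ((4 / q : ℝ) : ℂ) ≠ 0 := Complex.ofReal_ne_zero.mpr hr.ne'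
    rw [hc₂, hsq, Complex.cpow_def_of_ne_zero (mul_ne_zero hr' hx0),
      Complex.log_ofReal_mul hr hx0, add_mul, Complex.exp_add, ← Complex.cpow_def_of_ne_zero hx0,
      Complex.ofReal_log hr.le, ← Complex.cpow_def_of_ne_zero hr', Real.sqrt_eq_rpow,
      Complex.ofReal_cpow hr.le]
    push_cast
    rfl
  have hc : x ^ (1 / 2 : ℂ) * x ^ (1 / 2 : ℂ) = x := by
    rw [← Complex.cpow_add _ _ hx0]
    norm_num
  rw [hc₁, hmul, mul_left_comm, hc, hxdef, Real.sqrt_div (by norm_num : (0 : ℝ) ≤ 4),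
    show Real.sqrt 4 = 2 by rw [show (4 : ℝ) = 2 ^ 2 by norm_num, Real.sqrt_sq (by norm_num)]]
  push_cast
  ring

/-- Poisson summation in four variables. -/
theorem gaussian_four {K p : ℕ} (hK : 1 ≤ K) (hp : 0 < p) (τ : ℍ) (v : (ℝ × ℝ) × (ℝ × ℝ)) :
    ∑' x : (ℤ × ℤ) × (ℤ × ℤ), ex (-(bF K ((x.1.1 : ℂ) + v.1.1) ((x.1.2 : ℂ) + v.1.2) +
        (p : ℂ) * bF K ((x.2.1 : ℂ) + v.2.1) ((x.2.2 : ℂ) + v.2.2)) / (τ : ℂ)) =
      -((τ : ℂ) ^ 2 / ((p : ℂ) * ((4 * K - 1 : ℝ) : ℂ))) *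
        ∑' w : (ℤ × ℤ) × (ℤ × ℤ),
          ex ((τ : ℂ) * ((p : ℂ) * bD K (w.1.1 : ℂ) (w.1.2 : ℂ) + bD K (w.2.1 : ℂ) (w.2.2 : ℂ)) /
              ((p : ℂ) * ((4 * K - 1 : ℝ) : ℂ)) +
            ((w.1.1 : ℂ) * v.1.1 + (w.1.2 : ℂ) * v.1.2 +
              ((w.2.1 : ℂ) * v.2.1 + (w.2.2 : ℂ) * v.2.2))) := by
  have hpC : (p : ℂ) ≠ 0 := Nat.cast_ne_zero.mpr hp.ne'
  let τ' : ℍ := ⟨(τ : ℂ) / p, by
    rw [Complex.div_natCast_im]
    exact div_pos τ.im_pos (by exact_mod_cast hp)⟩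
  have hτ' : (τ' : ℂ) = (τ : ℂ) / p := rfl
  set q : ℝ := 4 * K - 1 with hq
  have hq0 : 0 < q := by
    have : (1 : ℝ) ≤ K := by exact_mod_cast hK
    rw [hq]; linarith
  have hqne : (q : ℂ) ≠ 0 := by exact_mod_cast hq0.ne'
  have e1 : ∀ x : (ℤ × ℤ) × (ℤ × ℤ),
      ex (-(bF K ((x.1.1 : ℂ) + v.1.1) ((x.1.2 : ℂ) + v.1.2) +
        (p : ℂ) * bF K ((x.2.1 : ℂ) + v.2.1) ((x.2.2 : ℂ) + v.2.2)) / (τ : ℂ)) =
      ex (-(bF K ((x.1.1 : ℂ) + v.1.1) ((x.1.2 : ℂ) + v.1.2)) / (τ : ℂ)) *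
        ex (-(bF K ((x.2.1 : ℂ) + v.2.1) ((x.2.2 : ℂ) + v.2.2)) / (τ' : ℂ)) := by
    intro x
    rw [← ex_add, hτ']
    congr 1
    have := τ.ne_zero
    field_simp
    ring
  have e2 : ∀ w : (ℤ × ℤ) × (ℤ × ℤ),
      ex ((τ : ℂ) * ((p : ℂ) * bD K (w.1.1 : ℂ) (w.1.2 : ℂ) + bD K (w.2.1 : ℂ) (w.2.2 : ℂ)) /
              ((p : ℂ) * (q : ℂ)) +
            ((w.1.1 : ℂ) * v.1.1 + (w.1.2 : ℂ) * v.1.2 +
              ((w.2.1 : ℂ) * v.2.1 + (w.2.2 : ℂ) * v.2.2))) =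
      ex ((τ : ℂ) * bD K (w.1.1 : ℂ) (w.1.2 : ℂ) / (q : ℂ) +
          ((w.1.1 : ℂ) * v.1.1 + (w.1.2 : ℂ) * v.1.2)) *
        ex ((τ' : ℂ) * bD K (w.2.1 : ℂ) (w.2.2 : ℂ) / (q : ℂ) +
          ((w.2.1 : ℂ) * v.2.1 + (w.2.2 : ℂ) * v.2.2)) := by
    intro w
    rw [← ex_add, hτ']
    congr 1
    field_simp
    ring
  rw [tsum_congr e1, tsum_congr e2,
    ← tsum_mul_tsum_of_summable_norm (summable_norm_lhs hK τ v.1.1 v.1.2)
      (summable_norm_lhs hK τ' v.2.1 v.2.2),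
    ← tsum_mul_tsum_of_summable_norm (summable_norm_rhs hK hq0 τ v.1.1 v.1.2)
      (summable_norm_rhs hK hq0 τ' v.2.1 v.2.2),
    gaussian_two hK τ, gaussian_two hK τ', ← hq, hτ']
  have hs : ((Real.sqrt q : ℝ) : ℂ) * ((Real.sqrt q : ℝ) : ℂ) = (q : ℂ) := by
    rw [← Complex.ofReal_mul, Real.mul_self_sqrt hq0.le]
  rw [mul_mul_mul_comm]
  congr 1
  have hsne : ((Real.sqrt q : ℝ) : ℂ) ≠ 0 := by
    exact_mod_cast (Real.sqrt_pos.mpr hq0).ne'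
  rw [← hs]
  field_simp
  linear_combination (τ : ℂ) ^ 2 * Complex.I_sq

end Fermat.Agent.Eisenstein
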