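import Fermat.Agent.Eisenstein.ConjExp
/-!
# The 3-part of the upper bound

The 3-part of the upper bound: for `p ≡ 1 mod 3` no weight-2 form on `Γ₀(p)` with constant term
prime to 3 has all higher coefficients divisible by 3. Uses the trace of the square to level one.
-/

set_option autoImplicit false

noncomputable section

open UpperHalfPlane ModularForm CongruenceSubgroup EisensteinSeries
open scoped MatrixGroups ModularForm Manifold Real ArithmeticFunction.sigma

namespace Fermat.Agent.Eisenstein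

variable {p : ℕ} [Fact p.Prime]

theorem exists_eq_smul_E₄ (G : ModularForm 𝒮ℒ 4) :
    G = (qExpansion 1 (⇑G)).coeff 0 • E₄ := by
  set a := (qExpansion 1 (⇑G)).coeff 0 with ha
  have h0 : (qExpansion 1 (⇑(G - a • E₄))).coeff 0 = 0 := by
    rw [FunLike.coe_sub, ModularForm.qExpansion_sub one_pos one_mem_strictPeriods_SL,
      FunLike.coe_smul, ModularForm.qExpansion_smul one_pos one_mem_strictPeriods_SL, map_sub,
      PowerSeries.coeff_smul, E_qExpansion_coeff_zero _ ⟨2, rfl⟩]
    simp [a]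
  have hz := rank_zero_iff_forall_zero.mp
    (CuspForm.rank_eq_zero_of_weight_lt_twelve (k := 4) (by norm_num))
    (toCuspForm (G - a • E₄) h0)
  ext τ
  have := congrArg (fun F : CuspForm 𝒮ℒ 4 => F τ) hz
  simp only [FunLike.coe_zero, Pi.zero_apply] at this
  change (G - a • E₄) τ = 0 at this
  rwa [FunLike.coe_sub, Pi.sub_apply, sub_eq_zero] at this

theorem coeff_E₄ {n : ℕ} (hn : n ≠ 0) :
    (qExpansion 1 (⇑E₄)).coeff n = 240 * (σ 3 n : ℕ) := by
  rw [E_qExpansion_coeff _ ⟨2, rfl⟩ n, if_neg hn,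
    show bernoulli 4 = -1 / 30 by decide +kernel]
  norm_num

/-- `U_p²` fixes the coefficients. -/
theorem coeff_mul_p_mul_p (f : ModularForm (Gamma0 p) 2) (n : ℕ) :
    (expInfty f).coeff (n * p * p) = (expInfty f).coeff n := by
  rw [← coeff_expInfty_heckeU, ← coeff_expInfty_heckeU]
  congr 2
  exact DFunLike.coe_injective (heckeU_heckeU f)

/-- The identity `p (f²)_n + ((U f)²)_{pn} = 240 σ₃(n) (p + 1) c²`. -/
theorem trace_square (f : ModularForm (Gamma0 p) 2) {n : ℕ} (hn : n ≠ 0) :
    (p : ℂ) * (expInfty f * expInfty f).coeff n +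
      (expInfty (ModularForm.heckeULin 2 (dvd_refl p) f) *
        expInfty (ModularForm.heckeULin 2 (dvd_refl p) f)).coeff (p * n) =
      240 * (σ 3 n : ℕ) * (((p : ℂ) + 1) * (expInfty f).coeff 0 ^ 2) := by
  have hp : p ≠ 0 := (Fact.out : p.Prime).ne_zero
  have hp' : (p : ℂ) ≠ 0 := Nat.cast_ne_zero.mpr hp
  set g := ModularForm.heckeULin 2 (dvd_refl p) f with hg
  let G : ModularForm 𝒮ℒ 4 :=
    ModularForm.mcast (by norm_num) (levelOneTrace (2 + 2) (f.mul f))
  have hG : HasExp p (⇑G) (∑ x : Option (ZMod p), conjSeries f x * conjSeries f x) := by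
    have : (⇑G : ℍ → ℂ) = ∑ x : Option (ZMod p), conj 2 (⇑f) x * conj 2 (⇑f) x := by
      rw [ModularForm.coe_mcast, coe_levelOneTrace]
      refine Finset.sum_congr rfl fun x _ => ?_
      rw [conj, conj, ModularForm.coe_mul, mul_slash_SL2]
    rw [this]
    exact HasExp.sum _ fun x _ => (hasExp_conj f x).mul (hasExp_conj f x)
  have hT : ∀ m : ℕ, (p : ℂ) * (qExpansion 1 (⇑G)).coeff m =
      (p : ℂ) * (expInfty f * expInfty f).coeff m + (expInfty g * expInfty g).coeff (p * m) := by
    intro m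
    have h1 := ((hasExp_of_form G one_mem_strictPeriods_SL).expand hp).unique hp
      (ModularFormClass.holo G) hG
    have h2 := congrArg (fun P : PowerSeries ℂ => P.coeff (p * m)) h1
    simp only [PowerSeries.coeff_expand_mul, Fintype.sum_option, map_add, map_sum] at h2
    have h3 : ∀ j : ZMod p, (conjSeries f (some j) * conjSeries f (some j)).coeff (p * m) =
        ((p : ℂ)⁻¹) ^ 2 * (expInfty g * expInfty g).coeff (p * m) := by
      intro j
      simp only [conjSeries]
      rw [mul_mul_mul_comm, ← map_mul, ← map_mul, PowerSeries.coeff_C_mul,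
        PowerSeries.coeff_rescale, ← pow_mul (zeta p), mul_left_comm j.val p m, pow_mul,
        zeta_isPrimitiveRoot.pow_eq_one, one_pow, one_mul]
      ring
    rw [Finset.sum_congr rfl fun j _ => h3 j] at h2
    simp only [conjSeries, ← map_mul, PowerSeries.coeff_expand_mul, Finset.sum_const,
      Finset.card_univ, ZMod.card, nsmul_eq_mul] at h2
    rw [h2]
    field_simp
  have h0 : (p : ℂ) * (qExpansion 1 (⇑G)).coeff 0 = ((p : ℂ) + 1) * (expInfty f).coeff 0 ^ 2 := by
    rw [hT 0, mul_zero]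
    simp only [PowerSeries.coeff_mul, Finset.Nat.antidiagonal_zero, Finset.sum_singleton, hg,
      coeff_expInfty_heckeU, zero_mul]
    ring
  rw [← hT n, ← h0]
  conv_lhs => rw [exists_eq_smul_E₄ G]
  rw [FunLike.coe_smul, ModularForm.qExpansion_smul one_pos one_mem_strictPeriods_SL,
    PowerSeries.coeff_smul, coeff_E₄ hn, smul_eq_mul]
  ring

/-- For `f ≡ c mod 3`, the higher coefficients divided by 3 are `≡ c σ₃`. -/
theorem third_coeff_congr (hp3 : p % 3 = 1) (f : ModularForm (Gamma0 p) 2) {c : ℤ} {d : ℕ → ℤ}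
    (h0 : (expInfty f).coeff 0 = c)
    (hn : ∀ n, 1 ≤ n → (expInfty f).coeff n = 3 * d n) (hc : ¬ (3 : ℤ) ∣ c)
    {n : ℕ} (h1 : 1 ≤ n) :
    (d n : ZMod 3) = (c : ZMod 3) * (σ 3 n : ℕ) := by
  have hp : p ≠ 0 := (Fact.out : p.Prime).ne_zero
  set D : PowerSeries ℤ := PowerSeries.mk fun m => if m = 0 then 0 else d m
  set E : PowerSeries ℤ := PowerSeries.mk fun m => if m = 0 then 0 else d (m * p)
  have hP : expInfty f = (PowerSeries.C c + PowerSeries.C 3 * D).map (Int.castRingHom ℂ) := by
    ext m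
    rw [PowerSeries.coeff_map, map_add, PowerSeries.coeff_C_mul, PowerSeries.coeff_C,
      PowerSeries.coeff_mk]
    rcases Nat.eq_zero_or_pos m with rfl | h
    · simp [h0]
    · rw [if_neg h.ne', if_neg h.ne', zero_add, hn m h]
      simp
  have hQ : expInfty (ModularForm.heckeULin 2 (dvd_refl p) f) =
      (PowerSeries.C c + PowerSeries.C 3 * E).map (Int.castRingHom ℂ) := by
    ext m
    rw [coeff_expInfty_heckeU, PowerSeries.coeff_map, map_add, PowerSeries.coeff_C_mul,
      PowerSeries.coeff_C, PowerSeries.coeff_mk]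
    rcases Nat.eq_zero_or_pos m with rfl | h
    · simp [h0]
    · rw [if_neg h.ne', if_neg h.ne', zero_add,
        hn (m * p) (Nat.one_le_iff_ne_zero.mpr (mul_ne_zero h.ne' hp))]
      simp
  have hdd : d (n * p * p) = d n := by
    have := coeff_mul_p_mul_p f n
    rw [hn n h1, hn _ (Nat.one_le_iff_ne_zero.mpr (by positivity))] at this
    exact_mod_cast mul_left_cancel₀ (three_ne_zero (α := ℂ)) this
  have key := trace_square f (n := n) (Nat.one_le_iff_ne_zero.mp h1)
  rw [hP, hQ, ← map_mul, ← map_mul, PowerSeries.coeff_map, PowerSeries.coeff_map,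
    PowerSeries.coeff_map] at key
  have hsq : ∀ X : PowerSeries ℤ,
      (PowerSeries.C c + PowerSeries.C 3 * X) * (PowerSeries.C c + PowerSeries.C 3 * X) =
        PowerSeries.C (c * c) +
          (PowerSeries.C (6 * c) * X + PowerSeries.C 9 * (X * X)) := by
    intro X
    simp only [map_mul, show (6 : ℤ) = 2 * 3 from rfl, show (9 : ℤ) = 3 * 3 from rfl, map_ofNat]
    ring
  have hn0 : n ≠ 0 := Nat.one_le_iff_ne_zero.mp h1
  have hpn : p * n ≠ 0 := mul_ne_zero hp hn0
  have hDn : D.coeff n = d n := by rw [PowerSeries.coeff_mk, if_neg hn0]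
  have hD0 : D.coeff 0 = 0 := by rw [PowerSeries.coeff_mk, if_pos rfl]
  have hEn : E.coeff (p * n) = d n := by
    rw [PowerSeries.coeff_mk, if_neg hpn, show p * n * p = n * p * p by ring, hdd]
  simp only [hsq] at key
  simp only [map_add, PowerSeries.coeff_C_mul, PowerSeries.coeff_C, if_neg hn0, if_neg hpn,
    zero_add, hDn, hD0, hEn, if_true, mul_zero, add_zero] at key
  simp only [eq_intCast] at key
  have key' : (p : ℤ) * (6 * c * d n + 9 * (D * D).coeff n) +
      (6 * c * d n + 9 * (E * E).coeff (p * n)) =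
      240 * (σ 3 n : ℤ) * (((p : ℤ) + 1) * c ^ 2) := by
    apply Int.cast_injective (α := ℂ)
    push_cast
    push_cast at key
    exact key
  have key'' : (p : ℤ) * (2 * c * d n + 3 * (D * D).coeff n) +
      (2 * c * d n + 3 * (E * E).coeff (p * n)) =
      80 * (σ 3 n : ℤ) * (((p : ℤ) + 1) * c ^ 2) := by linarith
  have h := congrArg (Int.cast : ℤ → ZMod 3) key''
  have hp1 : (p : ZMod 3) = 1 := by
    rw [← ZMod.natCast_mod, hp3, Nat.cast_one]
  have hc' : (c : ZMod 3) ≠ 0 := fun h' => hc (by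
    exact_mod_cast (ZMod.intCast_zmod_eq_zero_iff_dvd c 3).mp h')
  push_cast at h
  rw [hp1] at h
  have h80 : (80 : ZMod 3) = 2 := by decide
  have h3 : (3 : ZMod 3) = 0 := by decide
  rw [h80, h3] at h
  simp only [zero_mul, add_zero, one_mul] at h
  have : (4 * (c : ZMod 3)) * ((d n : ZMod 3) - (c : ZMod 3) * (σ 3 n : ℕ)) = 0 := by
    linear_combination h
  rcases mul_eq_zero.mp this with h4 | h4
  · rcases mul_eq_zero.mp h4 with h5 | h5
    · exact absurd h5 (by decide)
    · exact absurd h5 hc'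
  · exact sub_eq_zero.mp h4

/-- No weight-2 form `≡ c mod 3` with `c` prime to 3 when `p ≡ 1 mod 3`. -/
theorem not_congr_three (hp3 : p % 3 = 1) (f : ModularForm (Gamma0 p) 2) {c : ℤ}
    (h0 : (expInfty f).coeff 0 = c)
    (hn : ∀ n, 1 ≤ n → ∃ z : ℤ, (expInfty f).coeff n = 3 * z) (hc : ¬ (3 : ℤ) ∣ c) : False := by
  have hp : p.Prime := Fact.out
  choose! d hd using hn
  have h1 : (d p : ZMod 3) = (c : ZMod 3) * (σ 3 p : ℕ) :=
    third_coeff_congr hp3 f h0 hd hc hp.one_le
  have h2 := third_coeff_congr hp3 (ModularForm.heckeULin 2 (dvd_refl p) f) (c := c)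
    (d := fun m => d (m * p)) (by rw [coeff_expInfty_heckeU, zero_mul, h0])
    (fun m hm => by
      rw [coeff_expInfty_heckeU, hd _ (Nat.one_le_iff_ne_zero.mpr
        (mul_ne_zero (by omega) hp.ne_zero))]) hc (le_refl 1)
  simp only [one_mul, ArithmeticFunction.sigma_one, Nat.cast_one, mul_one] at h2
  have hσ : σ 3 p = 1 + p ^ 3 := by
    rw [← pow_one p, ArithmeticFunction.sigma_apply_prime_pow hp]
    simp [Finset.sum_range_succ]
  have hp1 : (p : ZMod 3) = 1 := by
    rw [← ZMod.natCast_mod, hp3, Nat.cast_one]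
  rw [hσ, h2, Nat.cast_add, Nat.cast_pow, hp1] at h1
  refine hc ?_
  have : (c : ZMod 3) = 0 := by linear_combination -h1
  exact_mod_cast (ZMod.intCast_zmod_eq_zero_iff_dvd c 3).mp this

end Fermat.Agent.Eisenstein
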