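import Fermat.Agent.Eisenstein.Exp
import Fermat.Agent.LevelOne.IntegralBasis
/-!
# Integrality of values at points with integral `j`

Values at a point with integral `j`: a finite family of weight-12 functions permuted by `SL₂(ℤ)`,
with expansions over a subring `R` (closed under roots of monic polynomials), takes values in `R`
after division by `Δ`.
-/

set_option autoImplicit false

noncomputable section

open UpperHalfPlane ModularForm Complex EisensteinSeries
open scoped MatrixGroups ModularForm Manifold Real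

namespace Fermat.Agent.Eisenstein

open ModularGroup (S T)

theorem intSeries_le_coeffIn (R : Subring ℂ) : LevelOne.intSeries ≤ coeffIn R := by
  intro P hP n
  obtain ⟨m, hm⟩ := LevelOne.mem_intSeries_iff.mp hP n
  rw [hm]
  exact intCast_mem R m

/-- A level-one form with coefficients in `R` takes values in `R` (after normalisation by `Δ`). -/
theorem levelOne_value_mem (R : Subring ℂ) (τ : ℍ)
    (hj : E₄ τ ^ 3 / discriminant τ ∈ R) :
    ∀ (l : ℕ) (H : ModularForm 𝒮ℒ (12 * (l : ℤ))), qExpansion 1 (⇑H) ∈ coeffIn R →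
      H τ / discriminant τ ^ l ∈ R := by
  intro l
  induction l with
  | zero =>
    intro H hH
    obtain ⟨c, hc⟩ := ModularFormClass.levelOne_weight_zero_const
      (ModularForm.mcast (b := 0) (by simp) H : ModularForm 𝒮ℒ 0)
    have hc' : (⇑H : ℍ → ℂ) = Function.const ℍ c := hc
    have h1 : HasExp 1 (⇑H) (PowerSeries.C c) := by rw [hc']; exact HasExp.const c
    have h2 := (hasExp_of_form H one_mem_strictPeriods_SL).unique one_ne_zero
      (ModularFormClass.holo H) h1
    have := hH 0
    rw [h2, PowerSeries.coeff_C, if_pos rfl] at this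
    simpa [hc'] using this
  | succ l ih =>
    intro H hH
    set a := (qExpansion 1 (⇑H)).coeff 0 with ha
    let E : ModularForm 𝒮ℒ (12 * ((l + 1 : ℕ) : ℤ)) :=
      ModularForm.mcast (by push_cast; ring) (E₄.pow (3 * (l + 1)))
    have hE : qExpansion 1 (⇑E) ∈ coeffIn R := by
      rw [ModularForm.qExpansion_mcast, ModularForm.qExpansion_pow one_pos one_mem_strictPeriods_SL]
      exact pow_mem (intSeries_le_coeffIn R LevelOne.E₄_mem_intSeries) _
    have hE0 : (qExpansion 1 (⇑E)).coeff 0 = 1 := by
      rw [ModularForm.qExpansion_mcast, ModularForm.qExpansion_pow one_pos one_mem_strictPeriods_SL,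
        PowerSeries.coeff_zero_eq_constantCoeff_apply, map_pow,
        ← PowerSeries.coeff_zero_eq_constantCoeff_apply, E_qExpansion_coeff_zero _ ⟨2, rfl⟩,
        one_pow]
    set H' := H - a • E with hH'
    have hq : qExpansion 1 (⇑H') = qExpansion 1 (⇑H) - a • qExpansion 1 (⇑E) := by
      rw [hH', FunLike.coe_sub, ModularForm.qExpansion_sub one_pos one_mem_strictPeriods_SL,
        FunLike.coe_smul, ModularForm.qExpansion_smul one_pos one_mem_strictPeriods_SL]
    have hH'0 : (qExpansion 1 (⇑H')).coeff 0 = 0 := by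
      rw [hq, map_sub, PowerSeries.coeff_smul, hE0]
      simp [a]
    have hH'R : qExpansion 1 (⇑H') ∈ coeffIn R := by
      rw [hq]
      intro n
      rw [map_sub, PowerSeries.coeff_smul, smul_eq_mul]
      exact sub_mem (hH n) (mul_mem (hH 0) (hE n))
    set g := CuspForm.discriminantEquiv (toCuspForm H' hH'0) with hg
    have hprod : (⇑H' : ℍ → ℂ) = discriminant * ⇑g := by
      funext z
      rw [Pi.mul_apply, hg, ModularForm.discriminant_mul_discriminantEquiv_apply]
      rfl
    have hqg : qExpansion 1 (⇑H') =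
        qExpansion 1 discriminant * qExpansion 1 (⇑g) := by
      rw [hprod, ← CuspForm.coe_discriminant]
      exact ModularForm.qExpansion_mul_coe one_pos one_mem_strictPeriods_SL _ _
    have hgR : qExpansion 1 (⇑g) ∈ coeffIn R := by
      rw [LevelOne.qExpansion_discriminant, map_mul, PowerSeries.map_X] at hqg
      set S' : PowerSeries ℂ := PowerSeries.mk fun n => (qExpansion 1 (⇑H')).coeff (n + 1)
      have hS : qExpansion 1 (⇑H') = PowerSeries.X * S' := by
        ext n
        cases n with
        | zero => rw [hH'0, PowerSeries.coeff_zero_X_mul]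
        | succ n => rw [PowerSeries.coeff_succ_X_mul, PowerSeries.coeff_mk]
      rw [hS, mul_assoc] at hqg
      have hU := mul_left_cancel₀ PowerSeries.X_ne_zero hqg
      have hunit : IsUnit ModularCurve.dedekindEtaUnit := by
        rw [PowerSeries.isUnit_iff_constantCoeff, ModularCurve.constantCoeff_dedekindEtaUnit]
        exact isUnit_one
      obtain ⟨V, hV⟩ := hunit.exists_left_inv
      have h3 : qExpansion 1 (⇑g) = V.map (Int.castRingHom ℂ) * S' := by
        rw [hU, ← mul_assoc, ← map_mul, hV, map_one, one_mul]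
      rw [h3]
      refine mul_mem (intSeries_le_coeffIn R ⟨V, rfl⟩) fun n => ?_
      rw [PowerSeries.coeff_mk]
      exact hH'R _
    have hwt : 12 * ((l + 1 : ℕ) : ℤ) - 12 = 12 * (l : ℤ) := by push_cast; ring
    have hgv : g τ / discriminant τ ^ l ∈ R :=
      ih (ModularForm.mcast hwt g) (by rw [ModularForm.qExpansion_mcast]; exact hgR)
    have hΔ := discriminant_ne_zero τ
    have hval : H τ = discriminant τ * g τ + a * E₄ τ ^ (3 * (l + 1)) := by
      have h1 := congrFun hprod τ
      rw [Pi.mul_apply, hH', FunLike.coe_sub, Pi.sub_apply, FunLike.coe_smul, Pi.smul_apply,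
        smul_eq_mul, sub_eq_iff_eq_add] at h1
      rw [h1]
      simp only [E, ModularForm.coe_mcast]
      exact congrArg (fun x => discriminant τ * g τ + a * x) (congrFun (ModularForm.coe_pow E₄ _) τ)
    have : H τ / discriminant τ ^ (l + 1) =
        g τ / discriminant τ ^ l + a * (E₄ τ ^ 3 / discriminant τ) ^ (l + 1) := by
      rw [hval, pow_mul, div_pow, pow_succ' (discriminant τ)]
      field_simp
    rw [this]
    exact add_mem hgv (mul_mem (hH 0) (pow_mem hj _))

variable {ι : Type*} [Fintype ι]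

omit [Fintype ι] in
theorem prod_slash_SL (k : ℤ) (t : Finset ι) (F : ι → ℍ → ℂ) (γ : SL(2, ℤ)) :
    (∏ i ∈ t, F i) ∣[(t.card : ℤ) * k] γ = ∏ i ∈ t, (F i ∣[k] γ) := by
  induction t using Finset.cons_induction with
  | empty => simpa using is_invariant_one γ
  | cons a s ha ih =>
    rw [Finset.prod_cons, Finset.prod_cons, Finset.card_cons, ← ih,
      show ((s.card + 1 : ℕ) : ℤ) * k = k + (s.card : ℤ) * k by push_cast; ring, mul_slash_SL2]

/-- Elementary symmetric functions of a family. -/
def esymmFun (l : ℕ) (F : ι → ℍ → ℂ) : ℍ → ℂ :=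
  ∑ t ∈ (Finset.univ : Finset ι).powersetCard l, ∏ i ∈ t, F i

theorem esymmFun_slash (l : ℕ) {F : ι → ℍ → ℂ} {γ : SL(2, ℤ)} (e : ι ≃ ι)
    (he : ∀ x, F x ∣[(12 : ℤ)] γ = F (e x)) :
    esymmFun l F ∣[12 * (l : ℤ)] γ = esymmFun l F := by
  classical
  rw [esymmFun, SlashAction.sum_slash]
  have h1 : ∀ t ∈ (Finset.univ : Finset ι).powersetCard l,
      (∏ i ∈ t, F i) ∣[12 * (l : ℤ)] γ = ∏ i ∈ t.map e.toEmbedding, F i := by
    intro t ht
    have hc := (Finset.mem_powersetCard.mp ht).2
    rw [← hc, mul_comm, prod_slash_SL, Finset.prod_map]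
    exact Finset.prod_congr rfl fun i _ => he i
  rw [Finset.sum_congr rfl h1]
  conv_rhs => rw [← Finset.map_univ_equiv e, Finset.powersetCard_map, Finset.sum_map]
  exact Finset.sum_congr rfl fun _ _ => rfl

/-- The main integrality statement. -/
theorem value_mem_of_family (R : Subring ℂ)
    (hR : ∀ {q : Polynomial ℂ}, q.Monic → (∀ i, q.coeff i ∈ R) → ∀ {x : ℂ}, q.eval x = 0 → x ∈ R)
    {h : ℕ} (hh : h ≠ 0) (F : ι → ℍ → ℂ) (P : ι → PowerSeries ℂ)
    (hexp : ∀ x, HasExp h (F x) (P x)) (hP : ∀ x, P x ∈ coeffIn R) (hd : ∀ x, MDiff (F x))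
    (eS eT : ι ≃ ι) (hS : ∀ x, F x ∣[(12 : ℤ)] S = F (eS x))
    (hT : ∀ x, F x ∣[(12 : ℤ)] T = F (eT x))
    (τ : ℍ) (hj : E₄ τ ^ 3 / discriminant τ ∈ R) (x : ι) :
    F x τ / discriminant τ ∈ R := by
  classical
  have hesymm : ∀ l : ℕ, (∑ t ∈ (Finset.univ : Finset ι).powersetCard l,
      ∏ i ∈ t, F i τ / discriminant τ) ∈ R := by
    intro l
    have hinv : ∀ γ : SL(2, ℤ), esymmFun l F ∣[12 * (l : ℤ)] γ = esymmFun l F :=
      SlashInvariantForm.slash_action_generators_SL2Z (esymmFun_slash l eS hS)
        (esymmFun_slash l eT hT)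
    have hex : HasExp h (esymmFun l F) (∑ t ∈ (Finset.univ : Finset ι).powersetCard l,
        ∏ i ∈ t, P i) := HasExp.sum _ fun t _ => HasExp.prod _ fun i _ => hexp i
    have hdiff : MDiff (esymmFun l F) := by
      refine Finset.sum_induction _ (fun g : ℍ → ℂ => MDiff g) (fun _ _ ha hb => ha.add hb)
        mdifferentiable_const fun t _ => ?_
      exact Finset.prod_induction _ (fun g : ℍ → ℂ => MDiff g) (fun _ _ ha hb => ha.mul hb)
        mdifferentiable_const fun i _ => hd i
    let H : ModularForm 𝒮ℒ (12 * (l : ℤ)) :=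
      { toFun := esymmFun l F
        slash_action_eq' := by rintro _ ⟨γ, rfl⟩; exact hinv γ
        holo' := hdiff
        bdd_at_cusps' := fun {c} hc => by
          rw [OnePoint.isBoundedAt_iff_forall_SL2Z hc]
          intro γ _
          rw [hinv γ]
          exact hex.isBoundedAtImInfty hh }
    have hH : qExpansion 1 (⇑H) ∈ coeffIn R := by
      have h1 := ((hasExp_of_form H one_mem_strictPeriods_SL).expand hh).unique hh hdiff hex
      intro n
      rw [← PowerSeries.coeff_expand_mul h hh, h1]
      exact sum_mem (fun t _ => prod_mem fun i _ => hP i) _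
    have hval := levelOne_value_mem R τ hj l H hH
    have : H τ / discriminant τ ^ l = ∑ t ∈ (Finset.univ : Finset ι).powersetCard l,
        ∏ i ∈ t, F i τ / discriminant τ := by
      change esymmFun l F τ / _ = _
      rw [esymmFun, Finset.sum_apply, Finset.sum_div]
      refine Finset.sum_congr rfl fun t ht => ?_
      rw [Finset.prod_apply, Finset.prod_div_distrib, Finset.prod_const,
        (Finset.mem_powersetCard.mp ht).2]
    rwa [← this]
  set v : ι → ℂ := fun i => F i τ / discriminant τ
  refine hR (q := ((Finset.univ.1.map v).map fun z => Polynomial.X - Polynomial.C z).prod)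
    (Polynomial.monic_multiset_prod_of_monic _ _ fun z _ => Polynomial.monic_X_sub_C z)
    (fun i => ?_) ?_
  · rcases le_or_gt i (Multiset.card (Finset.univ.1.map v)) with hi | hi
    · rw [Multiset.prod_X_sub_C_coeff _ hi, Finset.esymm_map_val]
      exact mul_mem (pow_mem (neg_mem (one_mem R)) _) (hesymm _)
    · rw [Polynomial.coeff_eq_zero_of_natDegree_lt
        (by rwa [Polynomial.natDegree_multiset_prod_X_sub_C_eq_card])]
      exact zero_mem R
  · rw [Polynomial.eval_multiset_prod, Multiset.prod_eq_zero_iff]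
    simp only [Multiset.map_map, Multiset.mem_map, Function.comp_apply, Finset.mem_val,
      Finset.mem_univ, true_and]
    exact ⟨x, by simp [v]⟩

theorem S_smul_I : (S • UpperHalfPlane.I : ℍ) = UpperHalfPlane.I := by
  rw [UpperHalfPlane.modular_S_smul]
  apply UpperHalfPlane.ext
  simp

theorem slash_S_I (k : ℤ) (f : ℍ → ℂ) :
    (f ∣[k] S) UpperHalfPlane.I = f UpperHalfPlane.I * Complex.I ^ (-k) := by
  rw [SL_slash_apply, S_smul_I, ModularGroup.denom_S]
  simp

theorem E₆_I : E₆ UpperHalfPlane.I = 0 := by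
  have h := slash_S_I 6 (⇑E₆)
  have hinv : (⇑E₆ : ℍ → ℂ) ∣[(6 : ℤ)] S = ⇑E₆ :=
    SlashInvariantFormClass.slash_action_eq E₆ _ (MonoidHom.mem_range.mpr ⟨S, rfl⟩)
  rw [hinv] at h
  have h6 : Complex.I ^ (-(6 : ℤ)) = -1 := by
    rw [zpow_neg, show (6 : ℤ) = ((6 : ℕ) : ℤ) from rfl, zpow_natCast, pow_succ, pow_succ,
      I_pow_four]
    simp
  rw [h6] at h
  linear_combination h / 2

theorem E₄_cube_I : E₄ UpperHalfPlane.I ^ 3 = 1728 * discriminant UpperHalfPlane.I := by
  rw [discriminant_eq_E₄_cube_sub_E₆_sq, E₆_I]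
  ring

theorem E₄_I_ne_zero : E₄ UpperHalfPlane.I ≠ 0 := by
  intro h
  have := E₄_cube_I
  rw [h] at this
  simp [discriminant_ne_zero] at this

theorem j_I : E₄ UpperHalfPlane.I ^ 3 / discriminant UpperHalfPlane.I = 1728 := by
  rw [E₄_cube_I, mul_div_cancel_right₀ _ (discriminant_ne_zero _)]

end Fermat.Agent.Eisenstein
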