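import Fermat.Agent.Eisenstein.ConjExp
import Fermat.Agent.Eisenstein.Values
/-!
# The 2-part of the upper bound

The 2-part of the upper bound: no weight-2 form on `Γ₀(p)` with odd constant term is congruent to it
mod 4 when `p ≡ 1 mod 4`, or mod 8 when `p ≡ 3 mod 4`. Uses values of the conjugates at `τ = i`.
-/

set_option autoImplicit false

noncomputable section

open UpperHalfPlane ModularForm CongruenceSubgroup EisensteinSeries
open scoped MatrixGroups ModularForm Manifold Real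

namespace Fermat.Agent.Eisenstein

open ModularGroup (S T)

variable {p : ℕ} [Fact p.Prime]

/-- `f_x(i)² / E₄(i)`. -/
def zval (f : ℍ → ℂ) (x : Option (ZMod p)) : ℂ :=
  conj 2 f x UpperHalfPlane.I ^ 2 / E₄ UpperHalfPlane.I

theorem conj_permS_I (f : ModularForm (Gamma0 p) 2) (x : Option (ZMod p)) :
    conj 2 (⇑f) (permS x) UpperHalfPlane.I = -(conj 2 (⇑f) x UpperHalfPlane.I) := by
  rw [← conj_slash_S (isInv_form f), slash_S_I]
  simp [zpow_neg, zpow_ofNat]

theorem mul_slash_SL2_two (γ : SL(2, ℤ)) (F G : ℍ → ℂ) :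
    (F * G) ∣[(4 : ℤ)] γ = F ∣[(2 : ℤ)] γ * G ∣[(2 : ℤ)] γ := by
  have h := mul_slash_SL2 2 2 γ F G
  norm_num at h ⊢
  exact h

theorem cube_slash_SL2_four (γ : SL(2, ℤ)) (F : ℍ → ℂ) :
    (F * F * F) ∣[(12 : ℤ)] γ = F ∣[(4 : ℤ)] γ * F ∣[(4 : ℤ)] γ * F ∣[(4 : ℤ)] γ := by
  have h := mul_slash_SL2 8 4 γ (F * F) F
  have h2 := mul_slash_SL2 4 4 γ F F
  rw [show (8 : ℤ) + 4 = 12 by norm_num] at h
  rw [show (4 : ℤ) + 4 = 8 by norm_num] at h2
  rw [h, h2]

theorem E₄_slash (γ : SL(2, ℤ)) : (⇑E₄ : ℍ → ℂ) ∣[(4 : ℤ)] γ = ⇑E₄ :=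
  SlashInvariantFormClass.slash_action_eq E₄ _ (MonoidHom.mem_range.mpr ⟨γ, rfl⟩)

theorem coeffIn_discr_conj (hp : Odd p) (c : ℤ) (x : Option (ZMod p)) :
    ∃ d ∈ pIntegral p, conjConst p (c : ℂ) x ^ 2 - (c : ℂ) ^ 2 = (8 : ℕ) * d := by
  cases x with
  | none => exact ⟨0, zero_mem _, by simp [conjConst]⟩
  | some j =>
    obtain ⟨t, ht⟩ : (8 : ℤ) ∣ 1 - (p : ℤ) ^ 2 := by
      obtain ⟨s, rfl⟩ := hp
      obtain ⟨u, hu⟩ : (2 : ℤ) ∣ (s : ℤ) * (s + 1) := (Int.even_mul_succ_self _).two_dvd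
      exact ⟨-u, by push_cast; linear_combination (-4 : ℤ) * hu⟩
    refine ⟨((c ^ 2 * t : ℤ) : ℂ) / (p : ℂ) ^ 2, intCast_div_mem_pIntegral _ _, ?_⟩
    have hp' : (p : ℂ) ≠ 0 := Nat.cast_ne_zero.mpr (Fact.out : p.Prime).ne_zero
    have ht' : (1 : ℂ) - (p : ℂ) ^ 2 = 8 * (t : ℂ) := by exact_mod_cast ht
    simp only [conjConst]
    field_simp
    push_cast
    linear_combination (c : ℂ) ^ 2 * ht'

/-- `E₄ ≡ 1 mod 8` as expansions in `q^(1/p)`. -/
theorem cong_E₄ :
    Cong (pIntegral p) 8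
      (PowerSeries.expand p (Fact.out : p.Prime).ne_zero (qExpansion 1 (⇑E₄))) 1 := by
  refine ⟨PowerSeries.expand p (Fact.out : p.Prime).ne_zero (PowerSeries.mk fun n =>
    if n = 0 then 0 else (30 : ℂ) * (ArithmeticFunction.sigma 3 n : ℕ)),
    expand_mem_coeffIn _ fun n => ?_, ?_⟩
  · rw [PowerSeries.coeff_mk]
    split_ifs
    · exact zero_mem _
    · exact mul_mem (ofNat_mem _ 30) (natCast_mem _ _)
  · rw [← PowerSeries.expand_C (R := ℂ) p (Fact.out : p.Prime).ne_zero ((8 : ℕ) : ℂ), ← map_mul,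
      ← map_one (PowerSeries.expand (R := ℂ) p (Fact.out : p.Prime).ne_zero), ← map_sub]
    congr 1
    ext n
    rw [map_sub, PowerSeries.coeff_one, PowerSeries.coeff_C_mul, PowerSeries.coeff_mk,
      E_qExpansion_coeff _ ⟨2, rfl⟩ n, show bernoulli 4 = -1 / 30 by decide +kernel]
    split_ifs
    · simp
    · norm_num
      ring

/-- `3 (f_x(i)²/E₄(i) - c²) / 2` is integral away from `p`. -/
theorem zval_sub_mem (hp : Odd p) (f : ModularForm (Gamma0 p) 2) {c : ℤ}
    (h0 : (expInfty f).coeff 0 = c)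
    (hn : ∀ n, 1 ≤ n → ∃ z : ℤ, (expInfty f).coeff n = (4 : ℕ) * z) (x : Option (ZMod p)) :
    3 * (zval (⇑f) x - (c : ℂ) ^ 2) / 2 ∈ pIntegral p := by
  set Y : Option (ZMod p) → ℍ → ℂ :=
    fun x => conj 2 (⇑f) x * conj 2 (⇑f) x - ((c : ℂ) ^ 2) • ⇑E₄ with hY
  set Q : Option (ZMod p) → PowerSeries ℂ :=
    fun x => conjSeries f x * conjSeries f x - PowerSeries.C ((c : ℂ) ^ 2) *
      PowerSeries.expand p (Fact.out : p.Prime).ne_zero (qExpansion 1 (⇑E₄)) with hQ
  have hYexp : ∀ x, HasExp p (Y x) (Q x) := fun x =>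
    ((hasExp_conj f x).mul (hasExp_conj f x)).sub
      (((hasExp_of_form E₄ one_mem_strictPeriods_SL).expand _).smul _)
  have hQdiv : ∀ x, PowerSeries.C ((8 : ℂ)⁻¹) * Q x ∈ coeffIn (pIntegral p) := by
    intro x
    have hk : conjConst p (c : ℂ) x ∈ pIntegral p := by
      cases x
      · exact intCast_mem _ c
      · exact neg_mem (mul_mem inv_mem_pIntegral (intCast_mem _ c))
    obtain ⟨d, hd, hd'⟩ := coeffIn_discr_conj hp c x
    obtain ⟨D, hD, hD'⟩ := cong_conjSeries f h0 hn x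
    have h1 : Cong (pIntegral p) 8 (conjSeries f x * conjSeries f x)
        (PowerSeries.C (conjConst p (c : ℂ) x ^ 2)) :=
      ⟨PowerSeries.C (conjConst p (c : ℂ) x) * D + 2 * (D * D),
        add_mem (mul_mem (C_mem_coeffIn hk) hD) (mul_mem (ofNat_mem _ 2) (mul_mem hD hD)), by
        rw [sub_eq_iff_eq_add.mp hD', map_pow]
        push_cast
        simp only [map_ofNat]
        ring⟩
    have h2 : Cong (pIntegral p) 8 (Q x) 0 := by
      have := (h1.trans (Cong.of_C hd hd')).sub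
        ((cong_E₄ (p := p)).mul_left (C_mem_coeffIn (pow_mem (intCast_mem (pIntegral p) c) 2)))
      rwa [mul_one, sub_self] at this
    have := h2.div_mem (by norm_num)
    simpa using this
  set F : Option (ZMod p) → ℍ → ℂ := fun x => ((512 : ℂ)⁻¹) • ((Y x * Y x) * Y x) with hF
  have hYS : ∀ (x : Option (ZMod p)) (γ : SL(2, ℤ)) (y : Option (ZMod p)),
      conj 2 (⇑f) x ∣[(2 : ℤ)] γ = conj 2 (⇑f) y → F x ∣[(12 : ℤ)] γ = F y := by
    intro x γ y h
    have hY' : Y x ∣[(4 : ℤ)] γ = Y y := by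
      simp only [hY, sub_eq_add_neg, SlashAction.add_slash, SlashAction.neg_slash, SL_smul_slash,
        E₄_slash]
      rw [mul_slash_SL2_two, h]
    simp only [hF, SL_smul_slash]
    rw [cube_slash_SL2_four, hY']
  have hmem := value_mem_of_family (pIntegral p) mem_pIntegral_of_root
    (Fact.out : p.Prime).ne_zero F
    (fun x => PowerSeries.C ((512 : ℂ)⁻¹) * ((Q x * Q x) * Q x))
    (fun x => (((hYexp x).mul (hYexp x)).mul (hYexp x)).smul _)
    (fun x => by
      have h := pow_mem (hQdiv x) 3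
      rw [mul_pow, ← map_pow] at h
      convert h using 1
      norm_num [pow_succ])
    (fun x => by
      have hd : MDiff (Y x) := ((mdifferentiable_conj (ModularFormClass.holo f) x).mul
        (mdifferentiable_conj (ModularFormClass.holo f) x)).sub
          ((ModularFormClass.holo E₄).const_smul _)
      exact ((hd.mul hd).mul hd).const_smul _)
    (Equiv.ofBijective permS permS_involutive.bijective)
    (Equiv.ofBijective permT permT_bijective)
    (fun x => hYS x S _ (conj_slash_S (isInv_form f) x))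
    (fun x => hYS x T _ (conj_slash_T (isInv_form f) x))
    UpperHalfPlane.I (by rw [j_I]; exact ofNat_mem _ 1728) x
  refine mem_pIntegral_of_pow (n := 3) (by norm_num) ?_
  convert hmem using 1
  simp only [hF, hY, Pi.smul_apply, Pi.mul_apply, Pi.sub_apply, smul_eq_mul, zval]
  have hΔ : discriminant UpperHalfPlane.I = E₄ UpperHalfPlane.I ^ 3 / 1728 := by
    rw [E₄_cube_I]; ring
  rw [hΔ]
  have := E₄_I_ne_zero
  field_simp
  ring

theorem half_odd_notMem (hp : Odd p) {t : ℤ} (ht : Odd t) : (t : ℂ) / 2 ∉ pIntegral p := by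
  intro h
  obtain ⟨s, rfl⟩ := ht
  refine inv_notMem_pIntegral (p := p) Nat.prime_two ?_ ?_
  · intro h2
    rw [← h2] at hp
    exact absurd hp (by decide)
  · have := sub_mem h (intCast_mem (pIntegral p) s)
    convert this using 1
    push_cast
    ring

/-- `p ≡ 1 mod 4`: no congruence mod 4 with an odd constant. -/
theorem not_congr_four (hp4 : p % 4 = 1) (f : ModularForm (Gamma0 p) 2) {c : ℤ}
    (h0 : (expInfty f).coeff 0 = c)
    (hn : ∀ n, 1 ≤ n → ∃ z : ℤ, (expInfty f).coeff n = (4 : ℕ) * z) (hc : Odd c) : False := by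
  have hp : Odd p := Nat.odd_iff.mpr (by omega)
  obtain ⟨j, hj⟩ : IsSquare (-1 : ZMod p) := ZMod.exists_sq_eq_neg_one_iff.mpr (by omega)
  have hj0 : j ≠ 0 := fun h => by simp [h] at hj
  have hfix : permS (some j) = some j := by
    simp only [permS, if_neg hj0, Option.some.injEq]
    rw [neg_eq_iff_eq_neg, inv_eq_iff_eq_inv]
    refine eq_inv_of_mul_eq_one_left ?_
    rw [mul_neg, ← hj, neg_neg]
  have hzero : conj 2 (⇑f) (some j) UpperHalfPlane.I = 0 := by
    have := conj_permS_I f (some j)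
    rw [hfix] at this
    linear_combination this / 2
  have h := zval_sub_mem hp f h0 hn (some j)
  rw [zval, hzero] at h
  refine half_odd_notMem (t := 3 * c ^ 2) hp
    ((show Odd (3 : ℤ) by decide).mul hc.pow) ?_
  convert neg_mem h using 1
  push_cast
  ring

/-- `p ≡ 3 mod 4`: no congruence mod 8 with an odd constant. -/
theorem not_congr_eight (hp4 : p % 4 = 3) (f : ModularForm (Gamma0 p) 2) {c : ℤ}
    (h0 : (expInfty f).coeff 0 = c)
    (hn : ∀ n, 1 ≤ n → ∃ z : ℤ, (expInfty f).coeff n = (8 : ℕ) * z) (hc : Odd c) : False := by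
  classical
  have hp : Odd p := Nat.odd_iff.mpr (by omega)
  have hn4 : ∀ n, 1 ≤ n → ∃ z : ℤ, (expInfty f).coeff n = (4 : ℕ) * z := fun n h => by
    obtain ⟨z, hz⟩ := hn n h
    exact ⟨2 * z, by rw [hz]; push_cast; ring⟩
  have hsub4 : ∀ a b : Option (ZMod p),
      Cong (pIntegral p) 4 (conjSeries f a - conjSeries f b) 0 := by
    have hconst : Cong (pIntegral p) 4
        (PowerSeries.C (conjConst p (c : ℂ) (none : Option (ZMod p))))
        (PowerSeries.C (conjConst p (c : ℂ) (some (0 : ZMod p)))) := by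
      obtain ⟨t, ht⟩ : (4 : ℤ) ∣ (p : ℤ) + 1 := by omega
      refine Cong.of_C (d := ((c * t : ℤ) : ℂ) / (p : ℂ) ^ 1) (intCast_div_mem_pIntegral _ _) ?_
      have hp' : (p : ℂ) ≠ 0 := Nat.cast_ne_zero.mpr (Fact.out : p.Prime).ne_zero
      have ht' : (p : ℂ) + 1 = 4 * (t : ℂ) := by exact_mod_cast ht
      simp only [conjConst]
      field_simp
      push_cast
      linear_combination (c : ℂ) * ht'
    have hall : ∀ a : Option (ZMod p), Cong (pIntegral p) 4 (conjSeries f a)
        (PowerSeries.C (conjConst p (c : ℂ) (none : Option (ZMod p)))) := fun a => by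
      refine (cong_conjSeries f h0 hn4 a).trans ?_
      cases a with
      | none => exact Cong.rfl'
      | some j => exact hconst.symm
    intro a b
    simpa using (hall a).sub (hall b)
  have hsub8 : ∀ a b : ZMod p,
      Cong (pIntegral p) 8 (conjSeries f (some a) - conjSeries f (some b)) 0 := by
    intro a b
    simpa [conjConst] using (cong_conjSeries f h0 hn (some a)).sub
      (cong_conjSeries f h0 hn (some b))
  -- quadruples of distinct cosets
  let ι := {v : Fin 4 → Option (ZMod p) // Function.Injective v}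
  let permOf (σ : Option (ZMod p) ≃ Option (ZMod p)) : ι ≃ ι :=
    { toFun := fun v => ⟨σ ∘ v.1, σ.injective.comp v.2⟩
      invFun := fun v => ⟨σ.symm ∘ v.1, σ.symm.injective.comp v.2⟩
      left_inv := fun v => Subtype.ext (funext fun i => σ.symm_apply_apply _)
      right_inv := fun v => Subtype.ext (funext fun i => σ.apply_symm_apply _) }
  set W : ι → ℍ → ℂ := fun v => (conj 2 (⇑f) (v.1 0) - conj 2 (⇑f) (v.1 1)) *
    (conj 2 (⇑f) (v.1 2) - conj 2 (⇑f) (v.1 3)) with hW
  set Q : ι → PowerSeries ℂ := fun v => (conjSeries f (v.1 0) - conjSeries f (v.1 1)) *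
    (conjSeries f (v.1 2) - conjSeries f (v.1 3)) with hQ
  have hWexp : ∀ v, HasExp p (W v) (Q v) := fun v =>
    ((hasExp_conj f _).sub (hasExp_conj f _)).mul ((hasExp_conj f _).sub (hasExp_conj f _))
  have hQdiv : ∀ v, PowerSeries.C ((32 : ℂ)⁻¹) * Q v ∈ coeffIn (pIntegral p) := by
    intro v
    suffices h : Cong (pIntegral p) 32 (Q v) 0 by simpa using h.div_mem (by norm_num)
    have hor : (v.1 0 ≠ none ∧ v.1 1 ≠ none) ∨ (v.1 2 ≠ none ∧ v.1 3 ≠ none) := by
      by_contra hcon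
      simp only [not_or, not_and_or, not_not] at hcon
      rcases hcon with ⟨h01 | h01, h23 | h23⟩ <;>
        exact absurd (v.2 (h01.trans h23.symm)) (by decide)
    rcases hor with ⟨ha, hb⟩ | ⟨ha, hb⟩
    · obtain ⟨a, ha⟩ := Option.ne_none_iff_exists'.mp ha
      obtain ⟨b, hb⟩ := Option.ne_none_iff_exists'.mp hb
      obtain ⟨D, hD, hD'⟩ := hsub8 a b
      obtain ⟨E, hE, hE'⟩ := hsub4 (v.1 2) (v.1 3)
      rw [sub_zero] at hD' hE'
      exact ⟨D * E, mul_mem hD hE, by
        rw [sub_zero, hQ]; simp only [ha, hb, hD', hE']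
        push_cast; simp only [map_ofNat]; ring⟩
    · obtain ⟨a, ha⟩ := Option.ne_none_iff_exists'.mp ha
      obtain ⟨b, hb⟩ := Option.ne_none_iff_exists'.mp hb
      obtain ⟨D, hD, hD'⟩ := hsub8 a b
      obtain ⟨E, hE, hE'⟩ := hsub4 (v.1 0) (v.1 1)
      rw [sub_zero] at hD' hE'
      exact ⟨D * E, mul_mem hD hE, by
        rw [sub_zero, hQ]; simp only [ha, hb, hD', hE']
        push_cast; simp only [map_ofNat]; ring⟩
  set F : ι → ℍ → ℂ := fun v => ((32768 : ℂ)⁻¹) • ((W v * W v) * W v) with hF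
  have hFS : ∀ (σ : Option (ZMod p) ≃ Option (ZMod p)) (γ : SL(2, ℤ)),
      (∀ x, conj 2 (⇑f) x ∣[(2 : ℤ)] γ = conj 2 (⇑f) (σ x)) →
        ∀ v, F v ∣[(12 : ℤ)] γ = F (permOf σ v) := by
    intro σ γ h v
    have hW' : W v ∣[(4 : ℤ)] γ = W (permOf σ v) := by
      simp only [hW]
      rw [mul_slash_SL2_two]
      simp only [sub_eq_add_neg, SlashAction.add_slash, SlashAction.neg_slash, h]
      rfl
    simp only [hF, SL_smul_slash]
    rw [cube_slash_SL2_four, hW']
  have h10 : (1 : ZMod p) ≠ 0 := one_ne_zero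
  have : Fact (2 < p) := ⟨by have := (Fact.out : p.Prime).two_le; omega⟩
  have h11 : (1 : ZMod p) ≠ -1 := fun h => ZMod.neg_one_ne_one h.symm
  let v : ι := ⟨![none, some 0, some 1, some (-1)], by
    intro a b hab
    fin_cases a <;> fin_cases b <;>
      simp_all [eq_comm (a := (0 : ZMod p))]⟩
  have hmem := value_mem_of_family (pIntegral p) mem_pIntegral_of_root
    (Fact.out : p.Prime).ne_zero F
    (fun v => PowerSeries.C ((32768 : ℂ)⁻¹) * ((Q v * Q v) * Q v))
    (fun v => (((hWexp v).mul (hWexp v)).mul (hWexp v)).smul _)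
    (fun v => by
      have h := pow_mem (hQdiv v) 3
      rw [mul_pow, ← map_pow] at h
      convert h using 1
      norm_num [pow_succ])
    (fun v => by
      have hd : ∀ x : Option (ZMod p), MDiff (conj 2 (⇑f) x) := fun x =>
        mdifferentiable_conj (ModularFormClass.holo f) x
      have hdW : MDiff (W v) := ((hd _).sub (hd _)).mul ((hd _).sub (hd _))
      exact ((hdW.mul hdW).mul hdW).const_smul _)
    (permOf (Equiv.ofBijective permS permS_involutive.bijective))
    (permOf (Equiv.ofBijective permT permT_bijective))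
    (hFS (Equiv.ofBijective permS permS_involutive.bijective) S
      (conj_slash_S (p := p) (isInv_form f)))
    (hFS (Equiv.ofBijective permT permT_bijective) T (conj_slash_T (p := p) (isInv_form f)))
    UpperHalfPlane.I (by rw [j_I]; exact ofNat_mem _ 1728) v
  set a := conj 2 (⇑f) (none : Option (ZMod p)) UpperHalfPlane.I with ha
  set b := conj 2 (⇑f) (some (1 : ZMod p)) UpperHalfPlane.I with hb
  have ha' : conj 2 (⇑f) (some (0 : ZMod p)) UpperHalfPlane.I = -a :=
    conj_permS_I f none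
  have hb' : conj 2 (⇑f) (some (-1 : ZMod p)) UpperHalfPlane.I = -b := by
    have := conj_permS_I f (some (1 : ZMod p))
    simpa [permS, h10] using this
  have hΔ : discriminant UpperHalfPlane.I = E₄ UpperHalfPlane.I ^ 3 / 1728 := by
    rw [E₄_cube_I]; ring
  have hE := E₄_I_ne_zero
  have hy : 3 * (a * b) / (2 * E₄ UpperHalfPlane.I) ∈ pIntegral p := by
    refine mem_pIntegral_of_pow (n := 3) (by norm_num) ?_
    convert hmem using 1
    have hWv : W v UpperHalfPlane.I = 4 * (a * b) := by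
      simp only [hW, v, Pi.mul_apply, Pi.sub_apply, Matrix.cons_val_zero, Matrix.cons_val_one,
        Matrix.cons_val, ha', hb', ← ha, ← hb]
      ring
    simp only [hF, Pi.smul_apply, Pi.mul_apply, smul_eq_mul, hWv, hΔ]
    field_simp
    ring
  have hu := zval_sub_mem hp f h0 hn4 (none : Option (ZMod p))
  have hw := zval_sub_mem hp f h0 hn4 (some (1 : ZMod p))
  set u := 3 * (zval (⇑f) (none : Option (ZMod p)) - (c : ℂ) ^ 2) / 2 with hudef
  set w := 3 * (zval (⇑f) (some (1 : ZMod p)) - (c : ℂ) ^ 2) / 2 with hwdef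
  refine half_odd_notMem (t := 9 * c ^ 4) hp
    ((show Odd (9 : ℤ) by decide).mul hc.pow) ?_
  have key : 2 * (3 * (a * b) / (2 * E₄ UpperHalfPlane.I)) ^ 2 -
      (3 * (c : ℂ) ^ 2 * (u + w) + 2 * (u * w)) = ((9 * c ^ 4 : ℤ) : ℂ) / 2 := by
    rw [hudef, hwdef, zval, zval, ← ha, ← hb]
    push_cast
    field_simp
    ring
  rw [← key]
  exact sub_mem (mul_mem (ofNat_mem _ 2) (pow_mem hy 2))
    (add_mem (mul_mem (mul_mem (ofNat_mem _ 3) (pow_mem (intCast_mem _ c) 2)) (add_mem hu hw))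
      (mul_mem (ofNat_mem _ 2) (mul_mem hu hw)))

end Fermat.Agent.Eisenstein
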