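import Fermat.Agent.Eisenstein.Conj
import Fermat.Agent.Eisenstein.Exp
import Fermat.Agent.LevelOne.DeltaExpansion
import Fermat.Prelude.Thm_CongruenceSubgroup_one_mem_strictPeriods_Gamma0
import Fermat.Prelude.Thm_ModularForm_sturm_bound_Gamma0
import Fermat.Prelude.Thm_ModularFormClass_qCoeff_heckeT
/-!
# Constant congruences and units

A weight-2 form on `Γ₀(p)` congruent to a constant `c` mod `M`: then `M ∣ c (r² - 1)` for units `r`.
The point is that Hecke operators in weights 12 and 14 differ on the common expansion `c Δ`, by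
multiples of infinitely many shifts of `Δ`, while the integral forms mod `M` form a finite set.
-/

set_option autoImplicit false

noncomputable section

open UpperHalfPlane ModularForm CongruenceSubgroup
open scoped MatrixGroups ModularForm Manifold

namespace Fermat.Agent.Eisenstein

variable {p : ℕ} [Fact p.Prime]

/-- Integer sequences that are coefficient sequences of forms of weight `k`. -/
def intSeqs (p : ℕ) [Fact p.Prime] (k : ℤ) : Submodule ℤ (ℕ → ℤ) where
  carrier := {z | ∃ f : ModularForm (Gamma0 p) k, ∀ n, (qExpansion 1 (⇑f)).coeff n = (z n : ℂ)}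
  add_mem' {a b} := by
    rintro ⟨f, hf⟩ ⟨g, hg⟩
    refine ⟨f + g, fun n => ?_⟩
    rw [FunLike.coe_add, ModularForm.qExpansion_add one_pos (one_mem_strictPeriods_Gamma0 p),
      map_add, hf, hg]
    simp
  zero_mem' := ⟨0, fun n => by simp [qExpansion_zero]⟩
  smul_mem' c a := by
    rintro ⟨f, hf⟩
    refine ⟨(c : ℂ) • f, fun n => ?_⟩
    rw [FunLike.coe_smul, ModularForm.qExpansion_smul one_pos (one_mem_strictPeriods_Gamma0 p),
      PowerSeries.coeff_smul, hf]
    simp

theorem intSeqs_fg (k : ℤ) : Module.Finite ℤ ↥(intSeqs p k) := by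
  have : NeZero p := ⟨(Fact.out : p.Prime).ne_zero⟩
  set B := (k * (Gamma0 p).index).toNat / 12 with hB
  let res : ↥(intSeqs p k) →ₗ[ℤ] (Fin (B + 1) → ℤ) :=
    { toFun := fun z i => (z : ℕ → ℤ) i
      map_add' := fun _ _ => rfl
      map_smul' := fun _ _ => rfl }
  refine Module.Finite.of_injective res ((injective_iff_map_eq_zero _).mpr ?_)
  rintro ⟨z, f, hf⟩ hz
  have hf0 : f = 0 := ModularForm.sturm_bound_Gamma0 p f fun n hn => by
    have := congrFun hz ⟨n, Nat.lt_succ_of_le hn⟩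
    change z n = 0 at this
    rw [hf n, this, Int.cast_zero]
  refine Subtype.ext (funext fun n => ?_)
  have := hf n
  rw [hf0] at this
  simpa [qExpansion_zero] using this.symm

/-- Reduction of a sequence mod `M`. -/
def redMod (M : ℕ) (z : ℕ → ℤ) : ℕ → ZMod M := fun n => (z n : ZMod M)

theorem finite_redMod (M : ℕ) [NeZero M] (k : ℤ) :
    (redMod M '' (intSeqs p k : Set (ℕ → ℤ))).Finite := by
  have := intSeqs_fg (p := p) k
  obtain ⟨s, hs⟩ : (intSeqs p k).FG := Module.Finite.iff_fg.mp inferInstance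
  refine (Set.finite_range fun a : s → ZMod M => fun n => ∑ g : s, a g * ((g : ℕ → ℤ) n : ZMod M))
    |>.subset ?_
  rintro _ ⟨z, hz, rfl⟩
  rw [← hs] at hz
  obtain ⟨a, -, ha⟩ := Submodule.mem_span_finset.mp hz
  refine ⟨fun g => (a (g : ℕ → ℤ) : ZMod M), funext fun n => ?_⟩
  rw [redMod, ← ha, Finset.sum_apply]
  simp only [Pi.smul_apply, smul_eq_mul, Int.cast_sum, Int.cast_mul]
  exact (Finset.sum_coe_sort s fun g => (a g : ZMod M) * (g n : ZMod M))

/-- Hecke operators on coefficient sequences. -/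
def heckeSeq (r e : ℕ) (z : ℕ → ℤ) : ℕ → ℤ :=
  fun n => z (n * r) + if r ∣ n then (r : ℤ) ^ e * z (n / r) else 0

theorem heckeSeq_mem {k : ℤ} {e : ℕ} (he : k - 1 = (e : ℤ)) {r : ℕ} (hr : r.Prime) (hrp : r ≠ p)
    {z : ℕ → ℤ} (hz : z ∈ intSeqs p k) : heckeSeq r e z ∈ intSeqs p k := by
  obtain ⟨f, hf⟩ := hz
  have hrN : ¬ r ∣ p := fun h => hrp ((Nat.prime_dvd_prime_iff_eq hr Fact.out).mp h)
  refine ⟨ModularForm.heckeTLin k hr hrN f, fun n => ?_⟩
  change ModularFormClass.qCoeff (heckeT k r ⇑f) n = _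
  rw [ModularFormClass.qCoeff_heckeT f (one_mem_strictPeriods_Gamma0 p) hr.ne_zero,
    coeffHeckeT_apply, heckeSeq, he, zpow_natCast]
  simp only [ModularFormClass.qCoeff, hf]
  split_ifs <;> push_cast <;> rfl

/-- `Δ` as a form of level `p`. -/
def deltaForm (p : ℕ) [Fact p.Prime] : ModularForm (Gamma0 p) 12 :=
  mkForm 12 ModularForm.discriminant
    (fun γ _ => by
      rw [SL_slash]
      exact SlashInvariantFormClass.slash_action_eq CuspForm.discriminant _
        (MonoidHom.mem_range.mpr ⟨γ, rfl⟩))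
    (ModularFormClass.holo CuspForm.discriminant)
    (ModularFormClass.bdd_at_infty CuspForm.discriminant)
    (by
      rw [SL_slash]
      have h : (⇑CuspForm.discriminant : ℍ → ℂ) ∣[(12 : ℤ)] ModularGroup.S =
          ⇑CuspForm.discriminant :=
        SlashInvariantFormClass.slash_action_eq CuspForm.discriminant _
          (MonoidHom.mem_range.mpr ⟨ModularGroup.S, rfl⟩)
      exact (congrArg IsBoundedAtImInfty h).mpr
        (ModularFormClass.bdd_at_infty CuspForm.discriminant))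

theorem coe_deltaForm : ⇑(deltaForm p) = ModularForm.discriminant := rfl

/-- The integral expansion of `Δ`. -/
abbrev deltaZ : PowerSeries ℤ := PowerSeries.X * ModularCurve.dedekindEtaUnit

theorem coeff_one_deltaZ : deltaZ.coeff 1 = 1 := by
  rw [deltaZ, ← zero_add 1, PowerSeries.coeff_succ_X_mul,
    PowerSeries.coeff_zero_eq_constantCoeff_apply, ModularCurve.constantCoeff_dedekindEtaUnit]

/-- **A weight-2 form congruent to a constant `c` mod `M` forces `M ∣ c (r₀² - 1)`** for `r₀`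
prime to `M`. -/
theorem dvd_of_const_congr (f : ModularForm (Gamma0 p) 2) {c : ℤ} {M : ℕ} [NeZero M]
    (h0 : (qExpansion 1 (⇑f)).coeff 0 = c)
    (hn : ∀ n, 1 ≤ n → ∃ z : ℤ, (qExpansion 1 (⇑f)).coeff n = M * z)
    {r₀ : ℕ} (hr₀ : r₀.Coprime M) : (M : ℤ) ∣ c * ((r₀ : ℤ) ^ 2 - 1) := by
  choose! z hz using hn
  set D : PowerSeries ℤ := PowerSeries.mk fun n => if n = 0 then 0 else z n
  have hf : qExpansion 1 (⇑f) =
      (PowerSeries.C c + PowerSeries.C (M : ℤ) * D).map (Int.castRingHom ℂ) := by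
    ext n
    rw [PowerSeries.coeff_map, map_add, PowerSeries.coeff_C_mul, PowerSeries.coeff_C,
      PowerSeries.coeff_mk]
    rcases Nat.eq_zero_or_pos n with rfl | h
    · simp [h0]
    · rw [if_neg h.ne', if_neg h.ne', zero_add, hz n h]
      simp
  set z₁ : ℕ → ℤ := fun n => c * deltaZ.coeff n with hz₁def
  set z₂ : ℕ → ℤ := fun n => ((PowerSeries.C c + PowerSeries.C (M : ℤ) * D) * deltaZ).coeff n
    with hz₂def
  have hΔ : ∀ n, (qExpansion 1 (⇑(deltaForm p))).coeff n = (deltaZ.coeff n : ℂ) := by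
    intro n
    rw [coe_deltaForm, LevelOne.qExpansion_discriminant, PowerSeries.coeff_map]
    rfl
  have hz₁ : z₁ ∈ intSeqs p 12 := by
    refine ⟨(c : ℂ) • deltaForm p, fun n => ?_⟩
    rw [FunLike.coe_smul, ModularForm.qExpansion_smul one_pos (one_mem_strictPeriods_Gamma0 p),
      PowerSeries.coeff_smul, hΔ]
    simp [hz₁def]
  have hz₂ : z₂ ∈ intSeqs p (2 + 12) := by
    refine ⟨f.mul (deltaForm p), fun n => ?_⟩
    rw [ModularForm.qExpansion_mul one_pos (one_mem_strictPeriods_Gamma0 p), hf, coe_deltaForm,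
      LevelOne.qExpansion_discriminant, ← map_mul, PowerSeries.coeff_map]
    rfl
  have hcong : ∀ n, (z₂ n : ZMod M) = (z₁ n : ZMod M) := by
    intro n
    simp only [hz₂def, hz₁def, add_mul, map_add, mul_assoc, PowerSeries.coeff_C_mul]
    push_cast
    rw [ZMod.natCast_self, zero_mul, add_zero]
  -- the finite set of pairs of reductions
  have hfin := (finite_redMod (p := p) M (2 + 12)).prod (finite_redMod (p := p) M 12)
  set P := {r : ℕ | r.Prime ∧ (r : ZMod M) = (r₀ : ZMod M)} \ {p}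
  have hunit : IsUnit (r₀ : ZMod M) := (ZMod.isUnit_iff_coprime r₀ M).mpr hr₀
  have hinf : P.Infinite :=
    (Nat.infinite_setOfPred_prime_and_eq_mod hunit).sdiff (Set.finite_singleton p)
  set Φ : ℕ → (ℕ → ZMod M) × (ℕ → ZMod M) :=
    fun r => (redMod M (heckeSeq r 13 z₂), redMod M (heckeSeq r 11 z₁))
  obtain ⟨r, hr, r', hr', hne, heq⟩ := hinf.exists_ne_map_eq_of_mapsTo (f := Φ)
    (t := (redMod M '' (intSeqs p (2 + 12) : Set (ℕ → ℤ))) ×ˢ
      (redMod M '' (intSeqs p 12 : Set (ℕ → ℤ))))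
    (fun x hx => ⟨Set.mem_image_of_mem _ (heckeSeq_mem (by norm_num) hx.1.1 hx.2 hz₂),
      Set.mem_image_of_mem _ (heckeSeq_mem (by norm_num) hx.1.1 hx.2 hz₁)⟩) hfin
  wlog hlt : r < r' generalizing r r'
  · exact this r' hr' r hr hne.symm heq.symm (by omega)
  have h13 := congrFun (congrArg Prod.fst heq) r
  have h11 := congrFun (congrArg Prod.snd heq) r
  have hdvd : ¬ r' ∣ r := fun h => by
    have := Nat.le_of_dvd hr.1.1.pos h
    omega
  simp only [Φ, redMod, heckeSeq, dvd_refl, if_pos, if_neg hdvd, add_zero,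
    Nat.div_self hr.1.1.pos] at h13 h11
  push_cast at h13 h11
  rw [hcong, hcong, hcong, hr.1.2] at h13
  rw [hr.1.2] at h11
  have hz1 : z₁ 1 = c := by
    change c * deltaZ.coeff 1 = c
    rw [coeff_one_deltaZ, mul_one]
  rw [hz1] at h13 h11
  have hkey : ((c * ((r₀ : ℤ) ^ 2 - 1) : ℤ) : ZMod M) * (r₀ : ZMod M) ^ 11 = 0 := by
    push_cast
    linear_combination h13 - h11
  exact (ZMod.intCast_zmod_eq_zero_iff_dvd _ M).mp ((hunit.pow 11).mul_left_eq_zero.mp hkey)

end Fermat.Agent.Eisenstein
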