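import Fermat.Agent.Eisenstein.HeckeQuotient
import Fermat.Agent.Eisenstein.TraceSquare
import Fermat.Agent.Eisenstein.ValuesAtI
import Fermat.Agent.Eisenstein.VrTrick
import Fermat.Prelude.Def_ModularCurve_ModularUnit
/-!
# The upper bound on the Eisenstein index

Upper bound: if an integral cusp form of prime level `p` is congruent to the Eisenstein series
mod `m`, then `m` divides the numerator of `(p-1)/12`.
-/

set_option autoImplicit false

noncomputable section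

open UpperHalfPlane ModularForm CongruenceSubgroup ModularCurve
open scoped MatrixGroups ModularForm Manifold

namespace Fermat.Agent.Eisenstein

variable {p : ℕ} [Fact p.Prime]

theorem pred_dvd_twelve_mul (p : ℕ) : p - 1 ∣ 12 * eisensteinNumerator p := by
  rw [eisensteinNumerator]
  set d := Nat.gcd (p - 1) 12
  calc p - 1 = d * ((p - 1) / d) := (Nat.mul_div_cancel' (Nat.gcd_dvd_left _ _)).symm
    _ ∣ 12 * ((p - 1) / d) := Nat.mul_dvd_mul_right (Nat.gcd_dvd_right _ _) _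

theorem eisensteinNumerator_pos {p : ℕ} (hp : 2 ≤ p) : 0 < eisensteinNumerator p :=
  Nat.div_pos (Nat.le_of_dvd (by omega) (Nat.gcd_dvd_left _ _))
    (Nat.gcd_pos_of_pos_right _ (by norm_num))

/-- The form `eisTwo - 24 g`, congruent to a constant. -/
theorem exists_congr_form (g : S2 p) {m : ℕ}
    (hg : ∀ k, 1 ≤ k → ∃ z : ℤ,
      ModularFormClass.qCoeff (⇑g) k = (sigmaPrime p k + m * z : ℤ)) :
    ∃ f : ModularForm (Gamma0 p) 2, (expInfty f).coeff 0 = (((p : ℤ) - 1 : ℤ) : ℂ) ∧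
      ∀ k, 1 ≤ k → ∃ z : ℤ, (expInfty f).coeff k = ((24 * m : ℕ) : ℂ) * z := by
  let g' : ModularForm (Gamma0 p) 2 :=
    { toFun := ⇑g
      slash_action_eq' := g.slash_action_eq'
      holo' := g.holo'
      bdd_at_cusps' := fun hc γ hγ =>
        ((g.zero_at_cusps' hc) γ hγ).isBoundedAtImInfty }
  have hΓ := one_mem_strictPeriods_Gamma0 p
  have hE : expInfty (eisTwo p) = fSeries p :=
    (hasExp_expInfty (eisTwo p)).unique one_ne_zero (ModularFormClass.holo (eisTwo p)) hasExp_eisTwo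
  have hsub : expInfty (eisTwo p - (24 : ℂ) • g') = fSeries p - (24 : ℂ) • qExpansion 1 (⇑g) := by
    rw [expInfty, FunLike.coe_sub, ModularForm.qExpansion_sub one_pos hΓ, FunLike.coe_smul,
      ModularForm.qExpansion_smul one_pos hΓ, ← hE]
    rfl
  refine ⟨eisTwo p - (24 : ℂ) • g', ?_, fun k hk => ?_⟩
  · rw [hsub, map_sub, PowerSeries.coeff_smul, CuspFormClass.qExpansion_coeff_zero g one_pos hΓ]
    simp [fSeries]
  · obtain ⟨z, hz⟩ := hg k hk
    refine ⟨-z, ?_⟩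
    have hz' : (qExpansion 1 (⇑g)).coeff k = (sigmaPrime p k + m * z : ℤ) := hz
    rw [hsub, map_sub, PowerSeries.coeff_smul, hz', fSeries, PowerSeries.coeff_mk,
      if_neg (by omega)]
    simp only [smul_eq_mul]
    push_cast
    ring

omit [Fact (Nat.Prime p)] in
/-- Dividing a congruence form by a common factor. -/
theorem exists_div_form (f : ModularForm (Gamma0 p) 2) {M a M' : ℕ} {c c' : ℤ} (ha : a ≠ 0)
    (hc : c = a * c') (hM : a * M' ∣ M) (h0 : (expInfty f).coeff 0 = c)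
    (hn : ∀ k, 1 ≤ k → ∃ z : ℤ, (expInfty f).coeff k = M * z) :
    ∃ f' : ModularForm (Gamma0 p) 2, (expInfty f').coeff 0 = c' ∧
      ∀ k, 1 ≤ k → ∃ z : ℤ, (expInfty f').coeff k = M' * z := by
  have ha' : (a : ℂ) ≠ 0 := Nat.cast_ne_zero.mpr ha
  have hcoeff : ∀ k, (expInfty ((a : ℂ)⁻¹ • f)).coeff k = (a : ℂ)⁻¹ * (expInfty f).coeff k := by
    intro k
    rw [expInfty, FunLike.coe_smul,
      ModularForm.qExpansion_smul one_pos (one_mem_strictPeriods_Gamma0 p),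
      PowerSeries.coeff_smul, smul_eq_mul]
  obtain ⟨e, he⟩ := hM
  refine ⟨(a : ℂ)⁻¹ • f, ?_, fun k hk => ?_⟩
  · rw [hcoeff, h0, hc, Int.cast_mul, Int.cast_natCast, inv_mul_cancel_left₀ ha']
  · obtain ⟨z, hz⟩ := hn k hk
    refine ⟨e * z, ?_⟩
    rw [hcoeff, hz, he]
    push_cast
    field_simp

omit [Fact (Nat.Prime p)] in
theorem exists_congr_dvd {f : ModularForm (Gamma0 p) 2} {M M' : ℕ} (hM : M' ∣ M)
    (hn : ∀ k, 1 ≤ k → ∃ z : ℤ, (expInfty f).coeff k = M * z) :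
    ∀ k, 1 ≤ k → ∃ z : ℤ, (expInfty f).coeff k = M' * z := by
  intro k hk
  obtain ⟨e, rfl⟩ := hM
  obtain ⟨z, hz⟩ := hn k hk
  exact ⟨e * z, by rw [hz]; push_cast; ring⟩

theorem primePow_dvd_of_five_le {q k m : ℕ} (hq : q.Prime) (hq5 : 5 ≤ q) (hdvd : q ^ k ∣ m)
    (f : ModularForm (Gamma0 p) 2) (h0 : (expInfty f).coeff 0 = (((p : ℤ) - 1 : ℤ) : ℂ))
    (hn : ∀ j, 1 ≤ j → ∃ z : ℤ, (expInfty f).coeff j = ((24 * m : ℕ) : ℂ) * z) :
    q ^ k ∣ eisensteinNumerator p := by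
  have : NeZero (q ^ k) := ⟨pow_ne_zero _ hq.ne_zero⟩
  have hcop : ∀ r : ℕ, r < q → 0 < r → r.Coprime (q ^ k) := fun r hr hr0 =>
    ((Nat.coprime_of_lt_prime hr0.ne' hr hq).symm).pow_right k
  have h := dvd_of_const_congr f (c := (p : ℤ) - 1) (M := q ^ k) h0
    (exists_congr_dvd (dvd_mul_of_dvd_right hdvd 24) hn) (hcop 2 (by omega) two_pos)
  have h1 : q ^ k ∣ (p - 1) * 3 := by
    rw [← Int.natCast_dvd_natCast]
    push_cast [Nat.cast_sub (Fact.out : p.Prime).one_le] at h ⊢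
    exact h
  have h2 : q ^ k ∣ 12 * eisensteinNumerator p :=
    ((hcop 3 (by omega) (by norm_num)).symm.dvd_of_dvd_mul_right h1).trans (pred_dvd_twelve_mul p)
  have h12 : (12 : ℕ).Coprime (q ^ k) :=
    ((hcop 4 (by omega) (by norm_num)).mul_left (hcop 3 (by omega) (by norm_num)))
  exact h12.symm.dvd_of_dvd_mul_left h2

theorem three_pow_dvd {k m : ℕ} (hdvd : 3 ^ k ∣ m)
    (f : ModularForm (Gamma0 p) 2) (h0 : (expInfty f).coeff 0 = (((p : ℤ) - 1 : ℤ) : ℂ))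
    (hn : ∀ j, 1 ≤ j → ∃ z : ℤ, (expInfty f).coeff j = ((24 * m : ℕ) : ℂ) * z) :
    3 ^ k ∣ eisensteinNumerator p := by
  rcases Nat.eq_zero_or_pos k with rfl | hk
  · simp
  have hp1 : 1 ≤ p := (Fact.out : p.Prime).one_le
  have hM : 3 ^ (k + 1) ∣ 24 * m := by
    rw [pow_succ']
    exact Nat.mul_dvd_mul (by norm_num) hdvd
  have : NeZero (3 ^ (k + 1)) := ⟨pow_ne_zero _ (by norm_num)⟩
  have h := dvd_of_const_congr f (c := (p : ℤ) - 1) (M := 3 ^ (k + 1)) h0
    (exists_congr_dvd hM hn) (Nat.Coprime.pow_right _ (by norm_num : Nat.Coprime 2 3))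
  have h1 : 3 ^ k ∣ p - 1 := by
    have h' : 3 ^ (k + 1) ∣ (p - 1) * 3 := by
      rw [← Int.natCast_dvd_natCast]
      push_cast [Nat.cast_sub hp1] at h ⊢
      exact h
    rw [pow_succ] at h'
    exact Nat.dvd_of_mul_dvd_mul_right (by norm_num) h'
  have h2 : 3 ^ (k + 1) ∣ p - 1 := by
    by_contra hcon
    obtain ⟨c', hc'⟩ := h1
    have h3 : ¬ 3 ∣ c' := fun ⟨e, he⟩ => hcon ⟨e, by rw [hc', he, pow_succ]; ring⟩
    have hp3 : p % 3 = 1 := by
      have : 3 ∣ p - 1 := hc' ▸ dvd_mul_of_dvd_left (dvd_pow_self 3 hk.ne') c'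
      omega
    obtain ⟨f', h0', hn'⟩ := exists_div_form f (a := 3 ^ k) (M' := 3) (c := (p : ℤ) - 1)
      (c' := (c' : ℤ)) (pow_ne_zero _ (by norm_num))
      (by
        rw [show ((p : ℤ) - 1) = ((p - 1 : ℕ) : ℤ) by omega, hc']
        push_cast; ring)
      (by rw [← pow_succ]; exact hM) h0 hn
    exact not_congr_three hp3 f' h0' (by simpa using hn') (by exact_mod_cast h3)
  have h4 : 3 ^ (k + 1) ∣ 3 * (4 * eisensteinNumerator p) := by
    rw [← mul_assoc]
    exact h2.trans (pred_dvd_twelve_mul p)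
  rw [pow_succ'] at h4
  exact (Nat.Coprime.pow_left k (by norm_num : Nat.Coprime 3 4)).dvd_of_dvd_mul_left
    (Nat.dvd_of_mul_dvd_mul_left (by norm_num) h4)

theorem two_pow_dvd {k m : ℕ} (hdvd : 2 ^ k ∣ m)
    (f : ModularForm (Gamma0 p) 2) (h0 : (expInfty f).coeff 0 = (((p : ℤ) - 1 : ℤ) : ℂ))
    (hn : ∀ j, 1 ≤ j → ∃ z : ℤ, (expInfty f).coeff j = ((24 * m : ℕ) : ℂ) * z) :
    2 ^ k ∣ eisensteinNumerator p := by
  rcases Nat.eq_zero_or_pos k with rfl | hk
  · simp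
  have hp1 : 1 ≤ p := (Fact.out : p.Prime).one_le
  have hM : 2 ^ (k + 3) ∣ 24 * m := by
    rw [pow_add, mul_comm]
    exact Nat.mul_dvd_mul (by norm_num) hdvd
  have : NeZero (2 ^ (k + 3)) := ⟨pow_ne_zero _ (by norm_num)⟩
  have h := dvd_of_const_congr f (c := (p : ℤ) - 1) (M := 2 ^ (k + 3)) h0
    (exists_congr_dvd hM hn) (Nat.Coprime.pow_right _ (by norm_num : Nat.Coprime 3 2))
  have h1 : 2 ^ k ∣ p - 1 := by
    have h' : 2 ^ (k + 3) ∣ (p - 1) * 8 := by
      rw [← Int.natCast_dvd_natCast]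
      push_cast [Nat.cast_sub hp1] at h ⊢
      exact h
    rw [pow_add] at h'
    exact Nat.dvd_of_mul_dvd_mul_right (by norm_num) h'
  have h2 : 2 ^ (k + 2) ∣ p - 1 := by
    by_contra hcon
    have heven : 2 ∣ p - 1 := (dvd_pow_self 2 hk.ne').trans h1
    have hne : p - 1 ≠ 0 := fun h0 => hcon (h0 ▸ dvd_zero _)
    obtain ⟨b, c', hc', hbc⟩ := Nat.exists_eq_pow_mul_and_not_dvd hne 2 (by norm_num)
    have hbk : b < k + 2 := by
      by_contra hb
      exact hcon (hbc ▸ dvd_mul_of_dvd_left (pow_dvd_pow 2 (not_lt.mp hb)) c')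
    have hcodd : Odd (c' : ℤ) := by
      rw [Int.odd_coe_nat, Nat.odd_iff]
      omega
    have hcast : ((p : ℤ) - 1) = ((2 ^ b : ℕ) : ℤ) * (c' : ℤ) := by
      rw [show ((p : ℤ) - 1) = ((p - 1 : ℕ) : ℤ) by omega, hbc]
      push_cast; ring
    rcases (show p % 4 = 1 ∨ p % 4 = 3 by omega) with h4 | h4
    · obtain ⟨f', h0', hn'⟩ := exists_div_form f (a := 2 ^ b) (M' := 4) (c := (p : ℤ) - 1)
        (c' := (c' : ℤ)) (pow_ne_zero _ (by norm_num)) hcast
        ((show 2 ^ b * 4 ∣ 2 ^ (k + 3) by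
          rw [show (4 : ℕ) = 2 ^ 2 from rfl, ← pow_add]
          exact pow_dvd_pow 2 (by omega)).trans hM) h0 hn
      exact not_congr_four h4 f' h0' hn' hcodd
    · have hb1 : b ≤ 1 := by
        by_contra hb
        have h22 : 2 ^ 2 ∣ p - 1 := hbc ▸ dvd_mul_of_dvd_left (pow_dvd_pow 2 (not_le.mp hb)) c'
        omega
      obtain ⟨f', h0', hn'⟩ := exists_div_form f (a := 2 ^ b) (M' := 8) (c := (p : ℤ) - 1)
        (c' := (c' : ℤ)) (pow_ne_zero _ (by norm_num)) hcast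
        ((show 2 ^ b * 8 ∣ 2 ^ (k + 3) by
          rw [show (8 : ℕ) = 2 ^ 3 from rfl, ← pow_add]
          exact pow_dvd_pow 2 (by omega)).trans hM) h0 hn
      exact not_congr_eight h4 f' h0' hn' hcodd
  have h4 : 2 ^ (k + 2) ∣ 2 ^ 2 * (3 * eisensteinNumerator p) := by
    rw [← mul_assoc]
    exact h2.trans (pred_dvd_twelve_mul p)
  rw [pow_add, mul_comm] at h4
  exact (Nat.Coprime.pow_left k (by norm_num : Nat.Coprime 2 3)).dvd_of_dvd_mul_left
    (Nat.dvd_of_mul_dvd_mul_left (by norm_num) h4)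

/-- The upper bound on the index of the Eisenstein ideal. -/
theorem congr_modulus_dvd (g : S2 p) (m : ℕ)
    (hg : ∀ k, 1 ≤ k → ∃ z : ℤ,
      ModularFormClass.qCoeff (⇑g) k = (sigmaPrime p k + m * z : ℤ)) :
    m ∣ eisensteinNumerator p := by
  have main : ∀ m : ℕ, m ≠ 0 → (∀ k, 1 ≤ k → ∃ z : ℤ,
      ModularFormClass.qCoeff (⇑g) k = (sigmaPrime p k + m * z : ℤ)) →
      m ∣ eisensteinNumerator p := by
    intro m hm hg
    obtain ⟨f, h0, hn⟩ := exists_congr_form g hg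
    rw [Nat.dvd_iff_prime_pow_dvd_dvd]
    intro q k hq hdvd
    rcases lt_or_ge q 5 with hq5 | hq5
    · have h2 := hq.two_le
      interval_cases q
      · exact two_pow_dvd hdvd f h0 hn
      · exact three_pow_dvd hdvd f h0 hn
      · norm_num at hq
    · exact primePow_dvd_of_five_le hq hq5 hdvd f h0 hn
  rcases eq_or_ne m 0 with rfl | hm
  · exfalso
    have hpos := eisensteinNumerator_pos (Fact.out : p.Prime).two_le
    have := main (eisensteinNumerator p + 1) (by omega) (fun k hk => by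
      obtain ⟨z, hz⟩ := hg k hk
      exact ⟨0, by rw [hz]; simp⟩)
    have := Nat.le_of_dvd hpos this
    omega
  · exact main m hm hg

end Fermat.Agent.Eisenstein
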